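import Fermat.Agent.TWTwist.AugIdeal
import Mathlib.FieldTheory.IsAlgClosed.Basic
import Mathlib.RingTheory.Jacobson.Ideal

/-!
# The hypotheses of the augmentation lemma, checked at geometric points

`T` is a commutative algebra acting on `M`, free over `𝒪[Δ]`. The inclusion
`(s - 1)M ⊆ (d - 1)M` follows when `χ s = 1` at every point with `χ d = 1`, and `s - 1` is
injective modulo `Φ_p(d)` when `χ s ≠ 1` at every point with `Φ_p(χ d) = 0`.
-/

set_option autoImplicit false

namespace Fermat.Agent.TWTwist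

open Fermat.Agent.Patching

variable {O : Type} [CommRing O] [IsDomain O] {K : Type} [Field K] [IsAlgClosed K] [Algebra O K]
  [Module.IsTorsionFree O K]

/-- A non-nilpotent image has a geometric point where it does not vanish. -/
theorem exists_point_of_not_isNilpotent {T E : Type} [CommRing T] [Algebra O T] [Ring E]
    [Algebra O E] [Algebra.IsIntegral O E] (φ : T →ₐ[O] E)
    (htf : ∀ (c : O) (x : E), c • x = 0 → c = 0 ∨ x = 0) {t : T} (ht : ¬ IsNilpotent (φ t)) :
    ∃ χ : T →ₐ[O] K, χ t ≠ 0 ∧ ∀ u, φ u = 0 → χ u = 0 := by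
  let R := T ⧸ RingHom.ker φ
  let ι : R →ₐ[O] E := Ideal.Quotient.liftₐ (RingHom.ker φ) φ fun _ h => h
  let mk : T →ₐ[O] R := Ideal.Quotient.mkₐ O (RingHom.ker φ)
  have hι : ∀ u, ι (mk u) = φ u := fun u => rfl
  have hιinj : Function.Injective ι := (injective_iff_map_eq_zero ι).mpr fun r hr => by
    obtain ⟨u, rfl⟩ := Ideal.Quotient.mk_surjective r
    exact Ideal.Quotient.eq_zero_iff_mem.mpr hr
  have : Algebra.IsIntegral O R :=
    ⟨fun r => (isIntegral_algHom_iff ι hιinj).mp (Algebra.IsIntegral.isIntegral _)⟩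
  let M : Submonoid R :=
    Submonoid.powers (mk t) ⊔ (nonZeroDivisors O).map (algebraMap O R : O →* R)
  have hdisj : Disjoint ((⊥ : Ideal R) : Set R) (M : Set R) := by
    refine Set.disjoint_left.mpr fun x hx hxM => ?_
    obtain ⟨_, ⟨n, rfl⟩, _, ⟨c, hc, rfl⟩, rfl⟩ := Submonoid.mem_sup.mp hxM
    have h0 := congrArg ι (Ideal.mem_bot.mp hx)
    change ι (mk t ^ n * algebraMap O R c) = ι 0 at h0
    rw [map_zero, map_mul, map_pow, hι, AlgHom.commutes,
      ← Algebra.commutes, ← Algebra.smul_def] at h0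
    rcases htf c _ h0 with rfl | h
    · exact nonZeroDivisors.ne_zero hc rfl
    · exact ht ⟨n, h⟩
  obtain ⟨P, hP, -, hPM⟩ := Ideal.exists_le_prime_disjoint ⊥ M hdisj
  let q : R →ₐ[O] R ⧸ P := Ideal.Quotient.mkₐ O P
  have hinj : Function.Injective (algebraMap O (R ⧸ P)) := by
    refine (injective_iff_map_eq_zero _).mpr fun c hc => ?_
    by_contra hc0
    exact Set.disjoint_left.mp hPM (Ideal.Quotient.eq_zero_iff_mem.mp hc)
      (Submonoid.mem_sup_right ⟨c, mem_nonZeroDivisors_of_ne_zero hc0, rfl⟩)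
  have : Algebra.IsIntegral O (R ⧸ P) := Algebra.IsIntegral.of_surjective q Ideal.Quotient.mk_surjective
  have : Module.IsTorsionFree O (R ⧸ P) :=
    Module.isTorsionFree_iff_algebraMap_injective.mpr hinj
  let L : R ⧸ P →ₐ[O] K := IsAlgClosed.lift
  have hker : RingHom.ker L = ⊥ := by
    refine Ideal.eq_bot_of_comap_eq_bot (R := O) ((Submodule.eq_bot_iff _).mpr fun c hc => ?_)
    rw [Ideal.mem_comap, RingHom.mem_ker, AlgHom.commutes] at hc
    exact (injective_iff_map_eq_zero _).mp (FaithfulSMul.algebraMap_injective O K) c hc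
  have hLinj : Function.Injective L := (RingHom.injective_iff_ker_eq_bot L).mpr hker
  refine ⟨L.comp (q.comp mk), fun h => ?_, fun u hu => ?_⟩
  · have h1 : q (mk t) = 0 := hLinj (by simpa using h)
    exact Set.disjoint_left.mp hPM (Ideal.Quotient.eq_zero_iff_mem.mp h1)
      (Submonoid.mem_sup_left (Submonoid.mem_powers _))
  · have h1 : mk u = 0 := Ideal.Quotient.eq_zero_iff_mem.mpr hu
    simp [h1]

/-- A unipotent element of finite order `m` is one when there is no `m`-torsion. -/
theorem eq_one_of_isNilpotent_sub {E : Type} [Ring E] {m : ℕ}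
    (hm : ∀ x : E, (m : E) * x = 0 → x = 0) {x : E} (hx : IsNilpotent (x - 1)) (h : x ^ m = 1) :
    x = 1 := by
  obtain ⟨n, hn⟩ := hx
  obtain ⟨v, hv, hcv⟩ : ∃ v : E, (∑ i ∈ Finset.range m, x ^ i) = m + (x - 1) * v ∧
      Commute (x - 1) v := by
    refine ⟨∑ i ∈ Finset.range m, ∑ j ∈ Finset.range i, x ^ j, ?_,
      Commute.sum_right _ _ _ fun i _ => Commute.sum_right _ _ _ fun j _ =>
        ((Commute.refl x).sub_left (Commute.one_left x)).pow_right j⟩
    simp only [Finset.mul_sum (a := x - 1) (s := Finset.range m), mul_geom_sum,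
      Finset.sum_sub_distrib, Finset.sum_const, Finset.card_range, nsmul_eq_mul, mul_one,
      add_sub_cancel]
  have h0 : (x - 1) * (∑ i ∈ Finset.range m, x ^ i) = 0 := by rw [mul_geom_sum, h, sub_self]
  rw [hv, mul_add, ← (Nat.cast_commute m (x - 1)).eq] at h0
  have key : ∀ j : ℕ, (x - 1) ^ (j + 1) = 0 → x - 1 = 0 := by
    intro j
    induction j with
    | zero => simp
    | succ j ih =>
      intro hj
      refine ih (hm _ ?_)
      have h2 := congrArg ((x - 1) ^ j * ·) h0
      simp only [mul_zero, mul_add] at h2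
      rw [← mul_assoc ((x - 1) ^ j), ← (Nat.cast_commute m ((x - 1) ^ j)).eq, mul_assoc,
        ← pow_succ, ← mul_assoc ((x - 1) ^ j) (x - 1) ((x - 1) * v), ← pow_succ,
        ← mul_assoc ((x - 1) ^ (j + 1)), ← pow_succ, hj, zero_mul, add_zero] at h2
      exact h2
  exact sub_eq_zero.mp (key n (by rw [pow_succ, hn, zero_mul]))

section Module

variable {T M : Type} [CommRing T] [Algebra O T] [AddCommGroup M] [Module O M] [Module T M]
  [IsScalarTower O T M] [Module.Finite O M]

omit [IsDomain O] [Module.Finite O M] in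
/-- Endomorphisms of a torsion-free module are torsion-free. -/
theorem smul_end_eq_zero (htf : ∀ (c : O) (x : M), c • x = 0 → c = 0 ∨ x = 0) (c : O)
    (f : Module.End O M) (h : c • f = 0) : c = 0 ∨ f = 0 := by
  by_cases hc : c = 0
  · exact Or.inl hc
  exact Or.inr (LinearMap.ext fun x => (htf c _ (LinearMap.congr_fun h x)).resolve_left hc)

/-- An element of finite order acts trivially when it is one at every point. -/
theorem smul_eq_self_of_points [CharZero O]
    (htf : ∀ (c : O) (x : M), c • x = 0 → c = 0 ∨ x = 0) {s : T} {m : ℕ} (hm : m ≠ 0)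
    (hs : ∀ x : M, s ^ m • x = x)
    (h : ∀ χ : T →ₐ[O] K, (∀ u : T, (∀ x : M, u • x = 0) → χ u = 0) → χ s = 1) (x : M) :
    s • x = x := by
  let φ : T →ₐ[O] Module.End O M := Algebra.lsmul O O M
  have hnil : IsNilpotent (φ s - 1) := by
    by_contra hn
    rw [← map_one φ, ← map_sub] at hn
    obtain ⟨χ, hχ, hker⟩ := exists_point_of_not_isNilpotent (K := K) φ (smul_end_eq_zero htf) hn
    exact hχ (by
      rw [map_sub, map_one, h χ fun u hu => hker u (LinearMap.ext hu), sub_self])
  have h1 : φ s = 1 := eq_one_of_isNilpotent_sub (m := m) (fun f hf => by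
    refine (smul_end_eq_zero htf (m : O) f ?_).resolve_left (Nat.cast_ne_zero.mpr hm)
    rwa [Nat.cast_smul_eq_nsmul, nsmul_eq_mul]) hnil (by
      rw [← map_pow]
      exact LinearMap.ext hs)
  exact LinearMap.congr_fun h1 x

/-- An element which is nonzero at every point is injective. -/
theorem eq_zero_of_smul_eq_zero_of_points
    (htf : ∀ (c : O) (x : M), c • x = 0 → c = 0 ∨ x = 0) [IsNoetherianRing O] {t : T}
    (h : ∀ χ : T →ₐ[O] K, (∀ u : T, (∀ x : M, u • x = 0) → χ u = 0) → χ t ≠ 0) {x : M}
    (hx : t • x = 0) : x = 0 := by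
  by_contra hx0
  let W : Submodule T M := LinearMap.ker (LinearMap.lsmul T M t)
  let W' : Submodule O M := W.restrictScalars O
  have : Module.Finite O W' := Module.IsNoetherian.finite O W'
  have : Module.Finite O W := this
  let φ : T →ₐ[O] Module.End O W := Algebra.lsmul O O W
  have htfW : ∀ (c : O) (y : W), c • y = 0 → c = 0 ∨ y = 0 := fun c y hy =>
    (htf c (y : M) (congrArg Subtype.val hy)).imp_right fun h => Subtype.ext h
  have hn : ¬ IsNilpotent (φ 1) := by
    rw [map_one]
    rintro ⟨n, hn⟩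
    rw [one_pow] at hn
    exact hx0 (congrArg Subtype.val (LinearMap.congr_fun hn ⟨x, hx⟩))
  obtain ⟨χ, -, hker⟩ := exists_point_of_not_isNilpotent (K := K) φ (smul_end_eq_zero htfW) hn
  refine h χ (fun u hu => hker u (LinearMap.ext fun y => Subtype.ext (hu y))) (hker t ?_)
  exact LinearMap.ext fun y => Subtype.ext (LinearMap.mem_ker.mp y.2)

end Module

variable {p r : ℕ} [Fact p.Prime] {v : Fin r → ℕ}

omit [IsDomain O] in
/-- The multiples of `γⱼ - 1` in the group algebra are `p`-saturated. -/
theorem exists_gen_sub_one_mul_of_natCast_mul (htf : ∀ a : O, (p : O) * a = 0 → a = 0) (j : Fin r)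
    {x y : GroupAlgV O p v}
    (h : (p : GroupAlgV O p v) * x = (MonoidAlgebra.of O _ (genV j) - 1) * y) :
    ∃ y', x = (MonoidAlgebra.of O _ (genV j) - 1) * y' := by
  classical
  set γ : GroupAlgV O p v := MonoidAlgebra.of O _ (genV j) with hγ
  let f : DeltaV p v →* DeltaV p v :=
    { toFun := fun g => Function.update g j 1
      map_one' := by funext i; by_cases hi : i = j <;> simp [hi]
      map_mul' := fun g g' => by
        funext i
        by_cases hi : i = j
        · subst hi; simp
        · simp [hi] }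
  let π := MonoidAlgebra.mapDomainAlgHom O O f
  have hπof : ∀ g, π (MonoidAlgebra.of O _ g) = MonoidAlgebra.of O _ (f g) := fun g => by
    simp [π]
  have hπγ : π γ = 1 := by
    rw [hγ, hπof, show f (genV j) = 1 by
      funext i
      by_cases hi : i = j
      · subst hi; simp [f]
      · simp [f, genV, hi],
      map_one]
  have hdiff : ∀ z, γ - 1 ∣ z - π z := by
    intro z
    induction z using MonoidAlgebra.induction_on with
    | of g =>
      have hg : g = f g * genV j ^ (g j).toAdd.val := by
        funext i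
        by_cases hi : i = j
        · subst hi
          rw [Pi.mul_apply, Pi.pow_apply]
          simp only [f, MonoidHom.coe_mk, OneHom.coe_mk, genV, Function.update_self,
            Pi.mulSingle_eq_same, one_mul]
          rw [← ofAdd_nsmul, nsmul_eq_mul, mul_one, ZMod.natCast_zmod_val, ofAdd_toAdd]
        · simp [f, genV, hi]
      rw [hπof]
      conv_rhs => arg 1; rw [hg, map_mul, map_pow]
      rw [← hγ, ← mul_sub_one]
      exact Dvd.dvd.mul_left (sub_one_dvd_pow_sub_one _ _) _
    | add a b ha hb => rw [map_add, add_sub_add_comm]; exact dvd_add ha hb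
    | smul a b hb =>
      rw [map_smul, ← smul_sub, Algebra.smul_def]
      exact Dvd.dvd.mul_left hb _
  have hπx : π x = 0 := by
    have h1 := congrArg π h
    rw [map_mul, map_natCast, map_mul, map_sub, hπγ, map_one, sub_self, zero_mul] at h1
    refine MonoidAlgebra.coeff_injective (Finsupp.ext fun g => htf _ ?_)
    rw [← nsmul_eq_mul, ← Nat.cast_smul_eq_nsmul O] at h1
    simpa using congrArg (fun z => z.coeff g) h1
  obtain ⟨y', hy'⟩ := hdiff x
  exact ⟨y', by rwa [hπx, sub_zero] at hy'⟩

variable {M : Type} [AddCommGroup M] [Module O M] {d : ℕ}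

omit [IsDomain O] [Fact p.Prime] in
/-- Multiples of an element `g` of the group algebra are `p`-saturated in a free module. -/
theorem exists_eq_of_natCast_smul_eq (δ : DeltaV p v →* Module.End O M) (b : Fin d → M)
    (hb : Function.Bijective fun c : Fin d → GroupAlgV O p v =>
      ∑ i, MonoidAlgebra.lift O (Module.End O M) (DeltaV p v) δ (c i) (b i))
    {g : GroupAlgV O p v}
    (hg : ∀ x y : GroupAlgV O p v, (p : GroupAlgV O p v) * x = g * y → ∃ y', x = g * y')
    {x y : M} (h : (p : O) • x = MonoidAlgebra.lift O (Module.End O M) (DeltaV p v) δ g y) :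
    ∃ y', x = MonoidAlgebra.lift O (Module.End O M) (DeltaV p v) δ g y' := by
  set φ := MonoidAlgebra.lift O (Module.End O M) (DeltaV p v) δ
  let E : (Fin d → GroupAlgV O p v) →ₗ[O] M :=
    { toFun := fun c => ∑ i, φ (c i) (b i)
      map_add' := fun c c' => by simp [Finset.sum_add_distrib]
      map_smul' := fun a c => by simp [Finset.smul_sum] }
  let e := LinearEquiv.ofBijective E hb
  have hesmul : ∀ (z : GroupAlgV O p v) c, e (z • c) = φ z (e c) := fun z c => by
    simp [e, E, map_sum, Module.End.mul_apply]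
  obtain ⟨c, rfl⟩ := e.surjective x
  obtain ⟨c', rfl⟩ := e.surjective y
  rw [← hesmul, ← map_smul] at h
  have h' := e.injective h
  choose z hz using fun i => hg (c i) (c' i) (by
    have := congrFun h' i
    rwa [Pi.smul_apply, Pi.smul_apply, smul_eq_mul, Nat.cast_smul_eq_nsmul, nsmul_eq_mul] at this)
  exact ⟨e z, by rw [← hesmul]; exact congrArg e (funext hz)⟩

variable [IsLocalRing O] [CharZero O] [IsNoetherianRing O] {T : Type} [CommRing T] [Algebra O T]
  [Module T M] [IsScalarTower O T M]

/-- **The augmentation lemma with hypotheses at geometric points.** -/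
theorem exists_sub_eq_of_points (hp2 : p ≠ 2) (hpO : (p : O) ∈ IsLocalRing.maximalIdeal O)
    (hdiv : ∀ c : O, c ≠ 0 → ∃ n : ℕ, c ∣ (p : O) ^ n)
    (δ : DeltaV p v →* Module.End O M) (b : Fin d → M)
    (hb : Function.Bijective fun c : Fin d → GroupAlgV O p v =>
      ∑ i, MonoidAlgebra.lift O (Module.End O M) (DeltaV p v) δ (c i) (b i))
    (dl : DeltaV p v → T) (hdl : ∀ (g : DeltaV p v) (x : M), dl g • x = δ g x)
    (j : Fin r) (s : T) {k : ℕ} (hs : ∀ x : M, s ^ p ^ k • x = x)
    (h1 : ∀ χ : T →ₐ[O] K, (∀ u : T, (∀ x : M, u • x = 0) → χ u = 0) →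
      χ (dl (genV j)) = 1 → χ s = 1)
    (h2 : v j ≠ 0 → ∀ χ : T →ₐ[O] K, (∀ u : T, (∀ x : M, u • x = 0) → χ u = 0) →
      ∑ i ∈ Finset.range p, χ (dl (genV j)) ^ i = 0 → χ s ≠ 1) :
    ∀ z : M, ∃ w : M, δ (genV j) z - z = s • w - w := by
  have hp0 : (p : O) ≠ 0 := Nat.cast_ne_zero.mpr (Fact.out : p.Prime).ne_zero
  have htf0 : ∀ a : O, (p : O) * a = 0 → a = 0 := fun a h => (mul_eq_zero.mp h).resolve_left hp0
  have hfinM : Module.Finite O M := by
    let E : (Fin d → GroupAlgV O p v) →ₗ[O] M :=
      { toFun := fun c => ∑ i, MonoidAlgebra.lift O (Module.End O M) (DeltaV p v) δ (c i) (b i)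
        map_add' := fun c c' => by simp [Finset.sum_add_distrib]
        map_smul' := fun a c => by simp [Finset.smul_sum] }
    exact Module.Finite.of_surjective E hb.2
  set D : T := dl (genV j) with hD
  -- torsion-freeness of the two quotients
  have htfq : ∀ (u : T) (g : GroupAlgV O p v),
      (∀ x : M, u • x = MonoidAlgebra.lift O (Module.End O M) (DeltaV p v) δ g x) →
      (∀ x y : GroupAlgV O p v, (p : GroupAlgV O p v) * x = g * y → ∃ y', x = g * y') →
      ∀ (c : O) (x : M ⧸ LinearMap.range (LinearMap.lsmul T M u)), c • x = 0 → c = 0 ∨ x = 0 := by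
    intro u g hug hg c x hcx
    by_cases hc : c = 0
    · exact Or.inl hc
    refine Or.inr ?_
    obtain ⟨n, e, he⟩ := hdiv c hc
    have hpn : ((p : O) ^ n) • x = 0 := by rw [he, mul_comm, mul_smul, hcx, smul_zero]
    clear hcx he
    induction n with
    | zero => simpa using hpn
    | succ n ih =>
      refine ih ?_
      rw [pow_succ', mul_smul] at hpn
      obtain ⟨z, hz⟩ := Submodule.Quotient.mk_surjective _ (((p : O) ^ n) • x)
      rw [← hz, ← Submodule.Quotient.mk_smul, Submodule.Quotient.mk_eq_zero] at hpn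
      obtain ⟨w, hw⟩ := hpn
      rw [LinearMap.lsmul_apply, hug] at hw
      obtain ⟨y', hy'⟩ := exists_eq_of_natCast_smul_eq δ b hb hg hw.symm
      rw [← hz, Submodule.Quotient.mk_eq_zero]
      exact ⟨y', by rw [LinearMap.lsmul_apply, hug, ← hy']⟩
  have hδ1 : ∀ x : M, (D - 1) • x = MonoidAlgebra.lift O (Module.End O M) (DeltaV p v) δ
      (MonoidAlgebra.of O _ (genV j) - 1) x := fun x => by
    rw [sub_smul, one_smul, hD, hdl, map_sub, map_one, MonoidAlgebra.lift_of, LinearMap.sub_apply,
      Module.End.one_apply]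
  have hDpow : ∀ (i : ℕ) (x : M), D ^ i • x = (δ (genV j) ^ i) x := fun i => by
    induction i with
    | zero => intro x; simp
    | succ i ih =>
      intro x
      rw [pow_succ', mul_smul, ih, hD, hdl, pow_succ', Module.End.mul_apply]
  have hDΦ : ∀ x : M, (∑ i ∈ Finset.range p, D ^ i) • x =
      MonoidAlgebra.lift O (Module.End O M) (DeltaV p v) δ (cycloElt O p v j) x := fun x => by
    simp only [cycloElt, map_sum, map_pow, MonoidAlgebra.lift_of, Finset.sum_smul, hDpow,
      LinearMap.sum_apply]
  have hcomm : ∀ g, Commute (Algebra.lsmul O O M s) (δ g) := fun g => LinearMap.ext fun x => by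
    simp only [Module.End.mul_apply, Algebra.lsmul_coe]
    rw [← hdl, ← hdl, smul_comm]
  refine exists_sub_eq_of_diamond (M := M) hp2 hpO htf0 δ b hb j (Algebra.lsmul O O M s) (k := k)
    (LinearMap.ext fun x => by rw [← map_pow]; exact hs x) hcomm (fun _ x => ?_) (fun hv x hx => ?_)
  · let N := M ⧸ LinearMap.range (LinearMap.lsmul T M (D - 1))
    have key : s • (Submodule.Quotient.mk x : N) = Submodule.Quotient.mk x := by
      refine smul_eq_self_of_points (K := K) (M := N)
        (htfq (D - 1) _ hδ1 fun x y h => exists_gen_sub_one_mul_of_natCast_mul htf0 j h)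
        (pow_ne_zero k (Fact.out : p.Prime).ne_zero) (fun y => ?_) (fun χ hχ => h1 χ ?_ ?_) _
      · obtain ⟨y, rfl⟩ := Submodule.Quotient.mk_surjective _ y
        rw [← Submodule.Quotient.mk_smul, hs]
      · exact fun u hu => hχ u fun y => by
          obtain ⟨y, rfl⟩ := Submodule.Quotient.mk_surjective _ y
          rw [← Submodule.Quotient.mk_smul, hu, Submodule.Quotient.mk_zero]
      · refine sub_eq_zero.mp ?_
        rw [← map_one χ, ← map_sub]
        exact hχ _ fun y => by
          obtain ⟨y, rfl⟩ := Submodule.Quotient.mk_surjective _ y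
          rw [← Submodule.Quotient.mk_smul, Submodule.Quotient.mk_eq_zero]
          exact ⟨y, rfl⟩
    rw [← Submodule.Quotient.mk_smul, Submodule.Quotient.eq] at key
    obtain ⟨y, hy⟩ := key
    refine ⟨y, ?_⟩
    rw [LinearMap.lsmul_apply, sub_smul, one_smul, hD, hdl] at hy
    exact hy.symm
  · let N := M ⧸ LinearMap.range (LinearMap.lsmul T M (∑ i ∈ Finset.range p, D ^ i))
    obtain ⟨y, hy⟩ := hx
    rw [← LinearMap.sum_apply] at hy
    have key : (Submodule.Quotient.mk x : N) = 0 := by
      refine eq_zero_of_smul_eq_zero_of_points (K := K) (M := N) (t := s - 1)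
        (htfq _ _ hDΦ fun x y h => exists_cycloElt_mul_of_natCast_mul htf0 hv h)
        (fun χ hχ hz => h2 hv χ ?_ ?_ (sub_eq_zero.mp (by rwa [map_sub, map_one] at hz))) ?_
      · exact fun u hu => hχ u fun y => by
          obtain ⟨y, rfl⟩ := Submodule.Quotient.mk_surjective _ y
          rw [← Submodule.Quotient.mk_smul, hu, Submodule.Quotient.mk_zero]
      · simp only [← map_pow, ← map_sum]
        exact hχ _ fun z => by
          obtain ⟨z, rfl⟩ := Submodule.Quotient.mk_surjective _ z
          rw [← Submodule.Quotient.mk_smul, Submodule.Quotient.mk_eq_zero]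
          exact ⟨z, rfl⟩
      · rw [← Submodule.Quotient.mk_smul, Submodule.Quotient.mk_eq_zero]
        refine ⟨y, ?_⟩
        rw [LinearMap.lsmul_apply, Finset.sum_smul, sub_smul, one_smul]
        simp only [hDpow]
        rw [← LinearMap.sum_apply]
        exact hy.symm
    rw [Submodule.Quotient.mk_eq_zero] at key
    obtain ⟨w, hw⟩ := key
    refine ⟨w, ?_⟩
    rw [LinearMap.lsmul_apply, Finset.sum_smul] at hw
    simp only [hDpow] at hw
    exact hw.symm

end Fermat.Agent.TWTwist
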