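import Fermat.Agent.TWTwist.Newness
import Fermat.Agent.Newforms.Main

/-!
# Twisting a form with nebentypus to trivial character

`F` of character `χ` mod `Q` on `Γ₀(N₀)` and `ψ` with `χ ψ² = 1` give the form
`∑ ψ(n) aₙ qⁿ` on `Γ₀(N₀ Q)`.
-/

set_option autoImplicit false

noncomputable section

open UpperHalfPlane ModularForm Function Matrix.SpecialLinearGroup CongruenceSubgroup ModularFormClass
open scoped MatrixGroups ModularForm

namespace Fermat.Agent.TWTwist

open Fermat.Agent.Newforms (IsCuspidalFun mkCuspForm)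

variable {k : ℤ}

/-- Scalar multiples of cuspidal functions are cuspidal. -/
theorem IsCuspidalFun.smul {F : ℍ → ℂ} (hF : IsCuspidalFun k F) (c : ℂ) :
    IsCuspidalFun k (c • F) :=
  ⟨hF.1.const_smul c, fun x hx g hg => by
    rw [ModularForm.smul_slash]
    exact (hF.2 x hx g hg).smul _⟩

/-- Zero is cuspidal. -/
theorem isCuspidalFun_zero : IsCuspidalFun k (0 : ℍ → ℂ) :=
  ⟨mdifferentiable_const, fun x _ => by
    intro γ _
    simp only [SlashAction.zero_slash]
    exact tendsto_const_nhds⟩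

/-- Integral translations come from `SL(2,ℤ)`. -/
theorem transl_natCast (n : ℤ) : transl (n : ℝ) = mapGL ℝ (upperZ n) := by
  ext i j
  fin_cases i <;> fin_cases j <;> simp

/-- The twist of `F` by a function `ψ` on `ZMod Q`, as a function. -/
def twistFun (Q : ℕ) [NeZero Q] (k : ℤ) (ψ : ZMod Q → ℂ) (F : ℍ → ℂ) : ℍ → ℂ :=
  ∑ u : ZMod Q, ((Q : ℂ)⁻¹ * ZMod.dft ψ u) • (F ∣[k] transl ((u.val : ℝ) / Q))

/-- The expansion of the twist is `∑ ψ(n) aₙ qⁿ`. -/
theorem hasExp_twistFun {Q : ℕ} [NeZero Q] {F : ℍ → ℂ} {a : ℕ → ℂ} (hF : HasExp 1 F a)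
    (ψ : ZMod Q → ℂ) : HasExp 1 (twistFun Q k ψ F) fun n => ψ n * a n := fun τ => by
  refine ((HasExp.sum fun u _ => ((hF.transl k ((u.val : ℝ) / Q)).smul
    ((Q : ℂ)⁻¹ * ZMod.dft ψ u))) τ).congr_fun fun n => ?_
  have e : ∀ u : ZMod Q, Complex.exp (2 * Real.pi * Complex.I * (((u.val : ℝ) / Q : ℝ) : ℂ) * n /
      ((1 : ℝ) : ℂ)) = ZMod.stdAddChar (u * (n : ZMod Q)) := fun u => by
    have := ZMod.stdAddChar_coe (N := Q) ((u.val * n : ℕ) : ℤ)
    simp only [Nat.cast_mul] at this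
    rw [Int.cast_mul, Int.cast_natCast, Int.cast_natCast, ZMod.natCast_zmod_val] at this
    rw [this]
    congr 1
    push_cast
    ring
  simp only [e]
  congr 1
  conv_lhs => rw [← (ZMod.dft (E := ℂ)).symm_apply_apply ψ, ZMod.invDFT_apply, smul_eq_mul,
    Finset.mul_sum, Finset.sum_mul]
  exact Finset.sum_congr rfl fun t _ => by rw [smul_eq_mul]; ring

/-- The Fourier transform of a character is equivariant. -/
theorem dft_mulChar {Q : ℕ} [NeZero Q] (ψ : DirichletCharacter ℂ Q) (e : (ZMod Q)ˣ) (u : ZMod Q) :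
    ZMod.dft (fun r => ψ r) u = ψ (e : ZMod Q) * ZMod.dft (fun r => ψ r) ((e : ZMod Q) * u) := by
  simp only [ZMod.dft_apply, smul_eq_mul, Finset.mul_sum]
  refine (Fintype.sum_equiv (Units.mulLeft e) _ _ fun r => ?_).symm
  simp only [Units.mulLeft_apply, map_mul]
  rw [show r * ((e : ZMod Q) * u) = (e : ZMod Q) * r * u by ring]
  ring

/-- The coefficients of an expansion are those of the `q`-expansion. -/
theorem qCoeff_eq_of_hasExp {N : ℕ} (f : CuspForm (Gamma0 N) k) {a : ℕ → ℂ}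
    (h : HasExp 1 ⇑f a) (n : ℕ) : qCoeff ⇑f n = a n :=
  (ModularFormClass.qExpansion_coeff_unique one_pos
    (CongruenceSubgroup.one_mem_strictPeriods_Gamma0 N) (fun τ => h τ) n).symm

/-- Eigenforms with the same coefficients at the primes outside `D` agree prime to `D`. -/
theorem qCoeff_eq_of_coprime {N N' : ℕ} {f : CuspForm (Gamma0 N) 2} {g : CuspForm (Gamma0 N') 2}
    (hf : f.IsNormalizedEigenform) (hg : g.IsNormalizedEigenform) {D : ℕ}
    (hN : ∀ p : ℕ, p.Prime → p ∣ N → p ∣ D) (hN' : ∀ p : ℕ, p.Prime → p ∣ N' → p ∣ D)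
    (h : ∀ p : ℕ, p.Prime → ¬ p ∣ D → qCoeff ⇑g p = qCoeff ⇑f p) :
    ∀ n : ℕ, n.Coprime D → qCoeff ⇑g n = qCoeff ⇑f n := by
  intro n
  induction n using Nat.recOnPosPrimePosCoprime with
  | prime_pow p r hp hr =>
    intro hco
    have hpD : ¬ p ∣ D := hp.coprime_iff_not_dvd.mp ((Nat.coprime_pow_left_iff hr _ _).mp hco)
    induction r using Nat.twoStepInduction with
    | zero => simp [hf.qCoeff_one, hg.qCoeff_one]
    | one => simpa using h p hp hpD
    | more r ih ih' =>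
      rw [hf.qCoeff_prime_pow_of_not_dvd p r hp (fun h => hpD (hN p hp h)),
        hg.qCoeff_prime_pow_of_not_dvd p r hp (fun h => hpD (hN' p hp h)), h p hp hpD]
      have h1 : qCoeff ⇑g (p ^ (r + 1)) = qCoeff ⇑f (p ^ (r + 1)) :=
        ih' r.succ_pos ((hp.coprime_iff_not_dvd.mpr hpD).pow_left _)
      have h0 : qCoeff ⇑g (p ^ r) = qCoeff ⇑f (p ^ r) := by
        rcases Nat.eq_zero_or_pos r with rfl | hr'
        · simp [hf.qCoeff_one, hg.qCoeff_one]
        · exact ih hr' ((hp.coprime_iff_not_dvd.mpr hpD).pow_left _)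
      rw [h1, h0]
  | zero =>
    intro _
    rw [show qCoeff ⇑g 0 = 0 from CuspFormClass.qExpansion_coeff_zero g one_pos
        (CongruenceSubgroup.one_mem_strictPeriods_Gamma0 N'),
      show qCoeff ⇑f 0 = 0 from CuspFormClass.qExpansion_coeff_zero f one_pos
        (CongruenceSubgroup.one_mem_strictPeriods_Gamma0 N)]
  | one => intro _; rw [hf.qCoeff_one, hg.qCoeff_one]
  | coprime a b _ _ hab iha ihb =>
    intro hco
    rw [hf.qCoeff_mul_of_coprime a b hab, hg.qCoeff_mul_of_coprime a b hab,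
      iha (hco.of_dvd_left (dvd_mul_right a b)), ihb (hco.of_dvd_left (dvd_mul_left b a))]

end Fermat.Agent.TWTwist
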