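import Fermat.Agent.TWTwist.TameMatrix
import Fermat.Agent.LocalInertia.CyclicTame
import Fermat.Agent.LocalInertia.FiniteLevel
import Fermat.Agent.LocalInertia.Cyclotomic
import Fermat.Agent.GaloisBasics.Roots
import Fermat.Agent.RepTheory.GaloisBridge
import Fermat.Agent.RepTheory.Descent
import Fermat.Prelude.Def_GaloisRep_LocalConditions

/-!
# Diagonalisation at a Taylor–Wiles prime

At `q ≡ 1 (mod p)` with residual representation unramified and distinct Frobenius eigenvalues,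
a deformation is diagonal on inertia, `diag(χ, χ⁻¹)`, with `χ` killed by the `p`-part of `q - 1`
and determined by one inertia element generating the `p`-part of `(ℤ/q)ˣ`.
-/

set_option autoImplicit false

open Polynomial IsLocalRing Matrix

namespace Fermat.Agent.TWTwist

open Fermat.Agent.RepTheory (Gal matRep adicBasis matRep_residual matRep_apply)

/-- `τ` generates the `p`-part of tame inertia at `q`: it is in inertia and acts on `μ_q` by a
residue class of order divisible by the `p`-part of `q - 1`. -/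
def IsTameGen (p q : ℕ) (P : ValuationSubring (AlgebraicClosure ℚ)) (τ : Gal) : Prop :=
  τ ∈ P.inertiaSubgroupIn ℚ ∧ ∃ (ζ : AlgebraicClosure ℚ) (a : ℕ), IsPrimitiveRoot ζ q ∧
    τ ζ = ζ ^ a ∧ p ^ (q - 1).factorization p ∣ orderOf (a : ZMod q)

/-- Tame generators of the `p`-part exist. -/
theorem exists_isTameGen {p q : ℕ} (hq : q.Prime) {P : ValuationSubring (AlgebraicClosure ℚ)}
    (hP : P.LiesOverPrime q) : ∃ τ, IsTameGen p q P τ := by
  have := Fact.mk hq
  obtain ⟨g, hg⟩ := IsCyclic.exists_generator (α := (ZMod q)ˣ)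
  have hord : orderOf ((g : ZMod q)) = q - 1 := by
    rw [orderOf_units, orderOf_eq_card_of_forall_mem_zpowers hg, Nat.card_eq_fintype_card,
      ZMod.card_units]
  obtain ⟨τ, hτ, h⟩ := LocalInertia.exists_inertia_pow_on_rootsOfUnity hP hq 1
    (a := (g : ZMod q).val) (ZMod.val_coe_unit_coprime g)
  obtain ⟨ζ, hζ⟩ := HasEnoughRootsOfUnity.exists_primitiveRoot (AlgebraicClosure ℚ) q
  refine ⟨τ, hτ, ζ, (g : ZMod q).val, hζ, h ζ (by rw [pow_one]; exact hζ.pow_eq_one), ?_⟩
  rw [ZMod.natCast_zmod_val, hord]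
  exact Nat.ordProj_dvd (q - 1) p

variable {A : Type} [CommRing A] [IsLocalRing A]

/-- An element of all powers of the maximal ideal is zero. -/
theorem eq_zero_of_forall_mem_pow [IsHausdorff (maximalIdeal A) A] {x : A}
    (h : ∀ n : ℕ, x ∈ maximalIdeal A ^ n) : x = 0 :=
  IsHausdorff.haus' (I := maximalIdeal A) x fun n => by
    rw [SModEq.sub_mem, sub_zero]
    simpa using h n

/-- A cyclotomic determinant is trivial on inertia at `q ≠ p`. -/
theorem det_eq_one_of_detIsCyclotomic [IsHausdorff (maximalIdeal A) A] {ρ : GaloisRepAdic A}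
    {p q : ℕ} (hp : p.Prime) (hq : q.Prime) (hqp : q ≠ p) (hρ : ρ.DetIsCyclotomic p)
    {P : ValuationSubring (AlgebraicClosure ℚ)} (hP : P.LiesOverPrime q) {σ : Gal}
    (hσ : σ ∈ P.inertiaSubgroupIn ℚ) : LinearMap.det (ρ.ρ σ) = 1 := by
  refine sub_eq_zero.mp (eq_zero_of_forall_mem_pow fun n => ?_)
  have h := hρ.2 n σ 1 fun μ hμ => by
    rw [pow_one]
    refine GaloisBasics.inertia_apply_of_pow_eq_one hP hq (fun hd => hqp ?_) hσ hμ
    exact (Nat.prime_dvd_prime_iff_eq hq hp).mp (hq.dvd_of_dvd_pow hd)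
  rw [Nat.cast_one] at h
  refine (Ideal.span_singleton_le_iff_mem _).mpr ?_ h
  rw [Nat.cast_pow]
  exact Ideal.pow_mem_pow hρ.1 n

/-- A basis of eigenvectors of a matrix with eigenvalues distinct modulo the maximal ideal. -/
theorem exists_diagonalising (F : Matrix (Fin 2) (Fin 2) A) {a b : A}
    (ha : a + b = F.trace) (hb : a * b = F.det) (hab : IsUnit (a - b)) :
    ∃ g : Matrix (Fin 2) (Fin 2) A, IsUnit g.det ∧ F * g = g * !![a, 0; 0, b] := by
  rw [Matrix.trace_fin_two] at ha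
  rw [Matrix.det_fin_two] at hb
  have hsum : IsUnit (F 0 0 - b + (F 1 1 - b)) := by
    rwa [show F 0 0 - b + (F 1 1 - b) = a - b by linear_combination -ha]
  rcases IsLocalRing.isUnit_or_isUnit_of_isUnit_add hsum with h | h
  · refine ⟨!![F 0 0 - b, -F 0 1; F 1 0, F 0 0 - b], ?_, ?_⟩
    · rw [Matrix.det_fin_two_of]
      rw [show (F 0 0 - b) * (F 0 0 - b) - -F 0 1 * F 1 0 = (F 0 0 - b) * (a - b) by
        linear_combination hb - b * ha - (F 0 0 - b) * ha]
      exact h.mul hab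
    · ext i j
      fin_cases i <;> fin_cases j <;> simp [Matrix.mul_apply, Fin.sum_univ_two]
      · linear_combination hb - F 0 0 * ha
      · linear_combination (0 : A) * ha
      · linear_combination (-(F 1 0)) * ha
      · linear_combination -(hb - b * ha)
  · refine ⟨!![F 0 1, F 1 1 - b; F 1 1 - b, -F 1 0], ?_, ?_⟩
    · rw [Matrix.det_fin_two_of]
      rw [show F 0 1 * -F 1 0 - (F 1 1 - b) * (F 1 1 - b) = -((F 1 1 - b) * (a - b)) by
        linear_combination -hb + b * ha + (F 1 1 - b) * ha]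
      exact (h.mul hab).neg
    · ext i j
      fin_cases i <;> fin_cases j <;> simp [Matrix.mul_apply, Fin.sum_univ_two]
      · linear_combination (-(F 0 1)) * ha
      · linear_combination -(hb - b * ha)
      · linear_combination hb - F 1 1 * ha
      · linear_combination (0 : A) * ha

/-- Continuity in matrix form. -/
theorem exists_level_quotient (ρ : GaloisRepAdic A) (b : Module.Basis (Fin 2) A ρ.V) (n : ℕ) :
    ∃ L : IntermediateField ℚ (AlgebraicClosure ℚ), FiniteDimensional ℚ L ∧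
      ∀ σ : Gal, (∀ x ∈ L, σ x = x) →
        (Ideal.Quotient.mk (maximalIdeal A ^ n)).mapMatrix (matRep b ρ.ρ σ) = 1 := by
  obtain ⟨L, hL, h⟩ := ρ.isAdicContinuous n
  refine ⟨L, hL, fun σ hσ => ?_⟩
  have hcoord : ∀ w ∈ (maximalIdeal A ^ n) • (⊤ : Submodule A ρ.V), ∀ i,
      b.repr w i ∈ maximalIdeal A ^ n := fun w hw i => by
    induction hw using Submodule.smul_induction_on' with
    | smul r hr x _ => rw [map_smul, Finsupp.smul_apply, smul_eq_mul]; exact Ideal.mul_mem_right _ _ hr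
    | add x _ y _ hx hy => rw [map_add, Finsupp.add_apply]; exact add_mem hx hy
  ext i j
  have h1 := hcoord _ (h σ hσ (b j)) i
  rw [map_sub, Finsupp.sub_apply, Module.Basis.repr_self, ← Ideal.Quotient.eq] at h1
  rw [RingHom.mapMatrix_apply, Matrix.map_apply, matRep_apply, LinearMap.toMatrix_apply, h1,
    Matrix.one_apply, Finsupp.single_apply]
  split_ifs with h2 h3 h3
  · simp
  · exact absurd h2.symm h3
  · exact absurd h3.symm h2
  · simp

/-- Residual triviality in matrix form. -/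
theorem map_residue_matRep (ρ : GaloisRepAdic A) (b : Module.Basis (Fin 2) A ρ.V) {σ : Gal}
    (h : ρ.residual.ρ σ = 1) : (residue A).mapMatrix (matRep b ρ.ρ σ) = 1 := by
  have h1 := DFunLike.congr_fun (matRep_residual ρ b) σ
  rw [RepTheory.mapRep_apply] at h1
  refine h1.symm.trans ?_
  change LinearMap.toMatrix (b.baseChange (ResidueField A)) (b.baseChange (ResidueField A))
    (ρ.residual.ρ σ) = 1
  rw [h]
  exact LinearMap.toMatrix_one _

theorem eq_one_of_pow_coprime {M : Type*} [Monoid M] {x : M} {a b : ℕ} (hab : a.Coprime b)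
    (ha : x ^ a = 1) (hb : x ^ b = 1) : x = 1 :=
  orderOf_eq_one_iff.1
    (Nat.eq_one_of_dvd_coprimes hab (orderOf_dvd_of_pow_eq_one ha) (orderOf_dvd_of_pow_eq_one hb))

/-- An integer prime to the residue characteristic is a unit. -/
theorem isUnit_natCast_of_not_dvd {p m : ℕ} (hp : p.Prime) (hpA : (p : A) ∈ maximalIdeal A)
    (hm : ¬ p ∣ m) : IsUnit (m : A) := by
  rw [← IsLocalRing.residue_ne_zero_iff_isUnit, map_natCast]
  intro h0
  have hp0 : (p : ResidueField A) = 0 := by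
    rw [← map_natCast (residue A), residue_eq_zero_iff]
    exact hpA
  have hb := Nat.gcd_eq_gcd_ab p m
  rw [(hp.coprime_iff_not_dvd.mpr hm).gcd_eq_one] at hb
  have := congrArg (Int.cast : ℤ → ResidueField A) hb
  push_cast at this
  rw [hp0, h0] at this
  simp at this

/-- A unit congruent to one killed by a multiple of `m`, `p ∤ m`, is killed without `m`. -/
theorem eq_one_of_pow_eq_one {p m : ℕ} (hp : p.Prime) (hpA : (p : A) ∈ maximalIdeal A)
    (hm : ¬ p ∣ m) {y : A} (hy : residue A y = 1) (h : y ^ m = 1) : y = 1 := by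
  have h1 : (∑ i ∈ Finset.range m, y ^ i) * (y - 1) = 0 := by rw [geom_sum_mul, h, sub_self]
  have hu : IsUnit (∑ i ∈ Finset.range m, y ^ i) := by
    rw [← IsLocalRing.residue_ne_zero_iff_isUnit, map_sum]
    simp only [map_pow, hy, one_pow, Finset.sum_const, Finset.card_range, nsmul_eq_mul, mul_one]
    rw [← map_natCast (residue A), IsLocalRing.residue_ne_zero_iff_isUnit]
    exact isUnit_natCast_of_not_dvd hp hpA hm
  exact sub_eq_zero.mp (hu.mul_right_eq_zero.mp h1)

open LocalInertia in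
/-- Every inertia element has the same image as a power of a tame `p`-generator, in a finite
quotient of exponent the `p`-part of `q - 1`. -/
theorem exists_map_eq_pow {M : Type*} [Monoid M] (f : Gal →* M) {p q : ℕ} (hp : p.Prime)
    (hq : q.Prime) (hqp : q ≠ p) {P : ValuationSubring (AlgebraicClosure ℚ)}
    (hP : P.LiesOverPrime q)
    (hf : ∃ F : IntermediateField ℚ (AlgebraicClosure ℚ), FiniteDimensional ℚ F ∧
      ∀ σ : Gal, (∀ x ∈ F, σ x = x) → f σ = 1)
    (hexp : ∀ σ ∈ P.inertiaSubgroupIn ℚ, f σ ^ p ^ (q - 1).factorization p = 1)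
    {τ : Gal} (hτ : IsTameGen p q P τ) {σ : Gal} (hσ : σ ∈ P.inertiaSubgroupIn ℚ) :
    ∃ j < p ^ (q - 1).factorization p, f σ = f τ ^ j := by
  obtain ⟨hτI, ζ, a, hζ, hτζ, hord⟩ := hτ
  obtain ⟨F, hF, hf⟩ := hf
  set k := (q - 1).factorization p with hk
  let F' := IntermediateField.normalClosure ℚ
    (F ⊔ IntermediateField.adjoin ℚ {ζ} : IntermediateField ℚ (AlgebraicClosure ℚ))
    (AlgebraicClosure ℚ)
  have : FiniteDimensional ℚ (IntermediateField.adjoin ℚ {ζ}) :=
    IntermediateField.adjoin.finiteDimensional (Algebra.IsIntegral.isIntegral ζ)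
  have hle : (F ⊔ IntermediateField.adjoin ℚ {ζ} : IntermediateField ℚ (AlgebraicClosure ℚ)) ≤ F' :=
    IntermediateField.le_normalClosure _
  have : Normal ℚ (AlgebraicClosure ℚ) := IsAlgClosure.normal ℚ _
  have : Normal ℚ F' := normalClosure.normal ℚ _ _
  obtain ⟨t, ht, hgen⟩ := exists_inertia_generator hq hP F'
  -- on the quotient
  have hquot : ∀ u ∈ P.inertiaSubgroupIn ℚ, ∀ i r : ℕ,
      (∀ x ∈ F', (((t ^ i)⁻¹ * u) ^ q ^ r) x = x) → f u = f t ^ i := by
    intro u hu i r hfix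
    have hw : f ((t ^ i)⁻¹ * u) = 1 := by
      refine eq_one_of_pow_coprime (((Nat.coprime_primes hq hp).2 hqp).pow r k) ?_
        (hexp _ (mul_mem (inv_mem (pow_mem ht i)) hu))
      rw [← map_pow]
      exact hf _ fun x hx => hfix x (hle (le_sup_left (a := F) hx))
    calc f u = f (t ^ i * ((t ^ i)⁻¹ * u)) := by rw [mul_inv_cancel_left]
      _ = f t ^ i := by rw [map_mul, hw, mul_one, map_pow]
  obtain ⟨i, r, hi⟩ := hgen τ hτI
  have hτt := hquot τ hτI i r hi
  obtain ⟨j, r', hj⟩ := hgen σ hσ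
  have hσt := hquot σ hσ j r' hj
  -- on `μ_q`
  have := Fact.mk hq
  have hact : ∀ g : Gal, ∃ c : ℕ, g ζ = ζ ^ c ∧ ¬ q ∣ c := fun g => by
    obtain ⟨c, -, hc⟩ := hζ.eq_pow_of_pow_eq_one (ξ := g ζ) (by rw [← map_pow, hζ.pow_eq_one, map_one])
    refine ⟨c, hc.symm, fun hd => ?_⟩
    have : g ζ = 1 := by rw [← hc, hζ.pow_eq_one_iff_dvd]; exact hd
    exact hζ.ne_one hq.one_lt (g.injective (this.trans (map_one g).symm))
  obtain ⟨a₀, ha₀, -⟩ := hact t
  have hinj : ∀ x y : ℕ, ζ ^ x = ζ ^ y → (x : ZMod q) = (y : ZMod q) := fun x y h => by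
    rw [ZMod.natCast_eq_natCast_iff']
    refine hζ.pow_inj (Nat.mod_lt _ hq.pos) (Nat.mod_lt _ hq.pos) ?_
    rwa [← pow_eq_pow_mod _ hζ.pow_eq_one, ← pow_eq_pow_mod _ hζ.pow_eq_one]
  obtain ⟨c, hc, hcq⟩ := hact ((t ^ i)⁻¹ * τ)
  have hpow : ∀ (g : Gal) (e : ℕ), g ζ = ζ ^ e → ∀ n : ℕ, (g ^ n) ζ = ζ ^ e ^ n := by
    intro g e he n
    induction n with
    | zero => simp
    | succ n ih => rw [pow_succ, AlgEquiv.mul_apply, he, map_pow, ih, ← pow_mul, ← pow_succ]
  have hζF : ζ ∈ F' := hle (le_sup_right (a := F) (IntermediateField.mem_adjoin_simple_self ℚ ζ))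
  have hc1 : (c : ZMod q) = 1 := by
    have h1 := hi ζ hζF
    rw [hpow _ c hc] at h1
    have h3 : ((c ^ q ^ r : ℕ) : ZMod q) = 1 := by
      have : ζ ^ c ^ q ^ r = ζ ^ 1 := by rw [h1, pow_one]
      exact_mod_cast hinj _ _ this
    rwa [Nat.cast_pow, ZMod.pow_card_pow] at h3
  have ha : (a : ZMod q) = (a₀ : ZMod q) ^ i := by
    have h1 : τ ζ = ζ ^ (a₀ ^ i * c) := by
      rw [show τ = t ^ i * ((t ^ i)⁻¹ * τ) by rw [mul_inv_cancel_left], AlgEquiv.mul_apply, hc,
        map_pow, hpow t a₀ ha₀ i, ← pow_mul]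
    rw [hτζ] at h1
    have := hinj _ _ h1
    simpa [hc1] using this
  have hicop : i.Coprime (p ^ k) := by
    rcases Nat.eq_zero_or_pos k with h0 | hkpos
    · simp [h0]
    refine Nat.Coprime.pow_right k (Nat.Coprime.symm (hp.coprime_iff_not_dvd.mpr ?_))
    rintro ⟨i', rfl⟩
    have hq1 : q - 1 ≠ 0 := by have := hq.two_le; omega
    obtain ⟨m, hm⟩ := Nat.ordProj_dvd (q - 1) p
    have hm0 : m ≠ 0 := by rintro rfl; simp at hm; exact hq1 hm
    have e : (a : ZMod q) ^ (p ^ (k - 1) * m) = 1 := by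
      rw [ha, ← pow_mul, show p * i' * (p ^ (k - 1) * m) = (q - 1) * i' by
        rw [hm, ← hk, show p ^ k = p * p ^ (k - 1) by rw [← pow_succ', Nat.sub_add_cancel hkpos]]
        ring, pow_mul, ZMod.pow_card_sub_one_eq_one, one_pow]
      intro hz
      rw [(ZMod.natCast_eq_zero_iff _ _)] at hz
      have h0 : t ζ = 1 := by rw [ha₀, hζ.pow_eq_one_iff_dvd]; exact hz
      exact hζ.ne_one hq.one_lt (t.injective (h0.trans (map_one t).symm))
    have hd := hord.trans (orderOf_dvd_of_pow_eq_one e)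
    have hpm : ¬ p ∣ m := fun h => by
      have h1 : p ^ (k + 1) ∣ q - 1 := by
        rw [hm, pow_succ]
        exact mul_dvd_mul_left _ h
      have := (hp.pow_dvd_iff_le_factorization hq1).mp h1
      omega
    have hd' : p ^ k ∣ p ^ (k - 1) :=
      ((hp.coprime_iff_not_dvd.mpr hpm).pow_left k).dvd_of_dvd_mul_right hd
    have := (Nat.pow_dvd_pow_iff_le_right hp.one_lt).mp hd'
    omega
  obtain ⟨i', hi'⟩ : ∃ i' : ℕ, i * i' ≡ 1 [MOD p ^ k] := by
    refine ⟨((ZMod.unitOfCoprime i hicop)⁻¹ : (ZMod (p ^ k))ˣ).1.val, ?_⟩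
    rw [← ZMod.natCast_eq_natCast_iff, Nat.cast_mul, Nat.cast_one]
    have : NeZero (p ^ k) := ⟨pow_ne_zero _ hp.ne_zero⟩
    rw [ZMod.natCast_zmod_val]
    exact Units.mul_inv (ZMod.unitOfCoprime i hicop)
  refine ⟨(i' * j) % p ^ k, Nat.mod_lt _ (pow_pos hp.pos k), ?_⟩
  have hft : f t = f τ ^ i' := by
    rw [hτt, ← pow_mul, ← pow_one (f t), ← pow_mul, one_mul]
    exact (pow_eq_pow_of_modEq hi' (hexp t ht)).symm
  rw [← pow_eq_pow_mod _ (hexp τ hτI), hσt, hft, ← pow_mul]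

/-- Hensel: a matrix whose residual characteristic polynomial has two distinct roots has
eigenvalues lifting them. -/
theorem exists_eigenvalues [IsAdicComplete (maximalIdeal A) A] (F : Matrix (Fin 2) (Fin 2) A)
    {α β : ResidueField A} (hαβ : α ≠ β)
    (hcoef : residue A F.trace = α + β ∧ residue A F.det = α * β) :
    ∃ u v : A, residue A u = α ∧ residue A v = β ∧ u + v = F.trace ∧ u * v = F.det := by
  have := RepTheory.henselianLocalRing_of_isAdicComplete A
  obtain ⟨u₀, hu₀⟩ := residue_surjective (R := A) α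
  obtain ⟨u, hu, hu'⟩ := HenselianLocalRing.is_henselian (X ^ 2 - C F.trace * X + C F.det)
    (by monicity!) u₀ (by
      rw [← residue_eq_zero_iff]
      simp only [eval_add, eval_sub, eval_pow, eval_mul, eval_X, eval_C, map_add, map_sub,
        map_pow, map_mul, hu₀, hcoef.1, hcoef.2]
      ring) (by
      rw [← residue_ne_zero_iff_isUnit]
      simp only [derivative_X_pow, derivative_mul, derivative_C, derivative_X, eval_add, eval_sub,
        eval_mul, eval_pow, eval_X, eval_C, map_add, map_sub, map_mul, map_pow, hu₀, hcoef.1]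
      simp [show residue A 2 = (2 : ResidueField A) from map_ofNat _ 2]
      intro h
      exact hαβ (by linear_combination h))
  have hru : residue A u = α := by
    rw [← hu₀, ← sub_eq_zero, ← map_sub, residue_eq_zero_iff]
    exact hu'
  set v := F.trace - u with hv
  have hrv : residue A v = β := by rw [map_sub, hcoef.1, hru]; ring
  simp only [IsRoot.def, eval_add, eval_sub, eval_pow, eval_mul, eval_X, eval_C] at hu
  exact ⟨u, v, hru, hrv, by rw [hv]; ring, by rw [hv]; linear_combination -hu⟩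

/-- Residually distinct eigenvalues give a basis of eigenvectors of `ρ φ`. -/
theorem exists_frobenius_basis [IsAdicComplete (maximalIdeal A) A] (ρ : GaloisRepAdic A) (φ : Gal)
    {α β : ResidueField A} (hαβ : α ≠ β)
    (hchar : LinearMap.charpoly (ρ.residual.ρ φ) = (X - C α) * (X - C β)) :
    ∃ (b : Module.Basis (Fin 2) A ρ.V) (u v : A), residue A u = α ∧ residue A v = β ∧
      matRep b ρ.ρ φ = !![u, 0; 0, v] := by
  classical
  let b₀ := adicBasis ρ
  let F := matRep b₀ ρ.ρ φ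
  have hFres : ((residue A).mapMatrix F).charpoly = (X - C α) * (X - C β) := by
    have h1 := DFunLike.congr_fun (matRep_residual ρ b₀) φ
    rw [RepTheory.mapRep_apply, matRep_apply] at h1
    rw [← hchar, ← LinearMap.charpoly_toMatrix (ρ.residual.ρ φ) (b₀.baseChange (ResidueField A))]
    exact congrArg Matrix.charpoly h1.symm
  have hcoef : residue A F.trace = α + β ∧ residue A F.det = α * β := by
    rw [Matrix.charpoly_fin_two] at hFres
    have e0 := congrArg (fun g : (ResidueField A)[X] => g.eval 0) hFres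
    have e1 := congrArg (fun g : (ResidueField A)[X] => g.eval 1) hFres
    simp only [eval_add, eval_sub, eval_pow, eval_mul, eval_X, eval_C] at e0 e1
    have hd : ((residue A).mapMatrix F).det = α * β := by linear_combination e0
    refine ⟨?_, by rw [RingHom.map_det]; exact hd⟩
    rw [AddMonoidHom.map_trace]
    simp only [RingHom.mapMatrix_apply] at e1 hd ⊢
    linear_combination -e1 + hd
  obtain ⟨u, v, hru, hrv, htr, hdet⟩ := exists_eigenvalues F hαβ hcoef
  obtain ⟨g, hg, hFg⟩ := exists_diagonalising F (a := u) (b := v) htr hdet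
    (by rw [← residue_ne_zero_iff_isUnit, map_sub, hru, hrv, sub_ne_zero]; exact hαβ)
  let b : Module.Basis (Fin 2) A ρ.V := b₀.map (Matrix.toLinearEquiv b₀ g hg)
  -- matrices in the new basis
  have hbj : ∀ j, b j = Matrix.toLin b₀ b₀ g (b₀ j) := fun j => rfl
  let N : Gal →* Matrix (Fin 2) (Fin 2) A := matRep b ρ.ρ
  have hconj : ∀ σ, g * N σ = matRep b₀ ρ.ρ σ * g := by
    intro σ
    have hgm : LinearMap.toMatrix b b₀ LinearMap.id = g := by
      ext i j
      rw [LinearMap.toMatrix_apply, LinearMap.id_apply, hbj, Matrix.toLin_self, map_sum,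
        Finsupp.finsetSum_apply]
      simp [Finsupp.single_apply]
    simp only [N, matRep_apply]
    rw [← hgm, ← LinearMap.toMatrix_comp, ← LinearMap.toMatrix_comp]
    rfl
  have hNφ : N φ = !![u, 0; 0, v] := by
    have hgu : IsUnit g := (Matrix.isUnit_iff_isUnit_det g).mpr hg
    refine hgu.mul_left_cancel ?_
    rw [hconj, hFg]
  exact ⟨b, u, v, hru, hrv, hNφ⟩

/-- Matrices congruent modulo every power of the maximal ideal are equal. -/
theorem matrix_eq_of_forall_quotient [IsHausdorff (maximalIdeal A) A]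
    {Y Z : Matrix (Fin 2) (Fin 2) A}
    (h : ∀ n, (Ideal.Quotient.mk (maximalIdeal A ^ (n + 1))).mapMatrix Y =
      (Ideal.Quotient.mk (maximalIdeal A ^ (n + 1))).mapMatrix Z) : Y = Z := by
  ext i j
  refine sub_eq_zero.mp (eq_zero_of_forall_mem_pow fun n => ?_)
  have := congrFun (congrFun (h n) i) j
  exact Ideal.pow_le_pow_right (Nat.le_succ n) (Ideal.Quotient.eq.mp this)

/-- Residually unramified at `q ≠ p`, inertia has pro-`p` image, so Frobenius conjugation raises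
it to the `q`-th power. -/
theorem matRep_conj_eq_pow [IsHausdorff (maximalIdeal A) A] (ρ : GaloisRepAdic A)
    (b : Module.Basis (Fin 2) A ρ.V) {p q : ℕ} (hp : p.Prime) (hq : q.Prime) (hqp : q ≠ p)
    (hpA : (p : A) ∈ maximalIdeal A) {P : ValuationSubring (AlgebraicClosure ℚ)}
    (hP : P.LiesOverPrime q) {φ : Gal} (hφ : P.IsFrobeniusAt φ q)
    (hunr : ∀ σ ∈ P.inertiaSubgroupIn ℚ, ρ.residual.ρ σ = 1) {σ : Gal}
    (hσ : σ ∈ P.inertiaSubgroupIn ℚ) :
    matRep b ρ.ρ (φ * σ * φ⁻¹) = matRep b ρ.ρ σ ^ q := by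
  refine matrix_eq_of_forall_quotient fun n => ?_
  let Nn : Gal →* Matrix (Fin 2) (Fin 2) (A ⧸ maximalIdeal A ^ (n + 1)) :=
    ((Ideal.Quotient.mk (maximalIdeal A ^ (n + 1))).mapMatrix).toMonoidHom.comp (matRep b ρ.ρ)
  have hNp : ∀ σ ∈ P.inertiaSubgroupIn ℚ, Nn σ ^ p ^ n = 1 := by
    intro σ hσ
    have h1 : (matRep b ρ.ρ σ).map (Ideal.Quotient.mk (maximalIdeal A)) = 1 :=
      map_residue_matRep ρ b (hunr σ hσ)
    have h2 := pow_prime_pow_sub_one_mem hpA h1 n
    change ((Ideal.Quotient.mk (maximalIdeal A ^ (n + 1))).mapMatrix (matRep b ρ.ρ σ)) ^ p ^ n = 1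
    rw [← map_pow]
    exact h2
  obtain ⟨w, k, hw, hwk, he⟩ :=
    LocalInertia.exists_map_conj_eq Nn hq hP (exists_level_quotient ρ b (n + 1)) hφ hσ
  have hw1 : Nn w = 1 := eq_one_of_pow_coprime (((Nat.coprime_primes hq hp).2 hqp).pow k n)
    hwk (hNp w (LocalInertia.wildInertia_le_inertiaSubgroupIn hw))
  rw [hw1, one_mul] at he
  rw [map_pow]
  exact he

/-- A unit congruent to one and killed by `q - 1` is killed by the `p`-part of `q - 1`. -/
theorem pow_ordProj_eq_one {p q : ℕ} (hp : p.Prime) (hq : q.Prime)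
    (hpA : (p : A) ∈ maximalIdeal A) {x : Aˣ} (hx : residue A (x : A) = 1)
    (h : x ^ (q - 1) = 1) : x ^ p ^ (q - 1).factorization p = 1 := by
  have hq1' : q - 1 ≠ 0 := by have := hq.two_le; omega
  obtain ⟨m, hm⟩ := Nat.ordProj_dvd (q - 1) p
  have hpm : ¬ p ∣ m := fun h => by
    have h1 : p ^ ((q - 1).factorization p + 1) ∣ q - 1 := by
      conv_rhs => rw [hm]
      rw [pow_succ]
      exact mul_dvd_mul_left _ h
    have := (hp.pow_dvd_iff_le_factorization hq1').mp h1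
    omega
  refine Units.ext (eq_one_of_pow_eq_one hp hpA hpm ?_ ?_)
  · rw [Units.val_pow_eq_pow_val, map_pow, hx, one_pow]
  · rw [← Units.val_pow_eq_pow_val, ← pow_mul, ← hm, h, Units.val_one]

/-- If inertia has exponent the `p`-part of `q - 1` under `ρ`, a tame generator generates its
image. -/
theorem exists_matRep_eq_pow [IsHausdorff (maximalIdeal A) A] (ρ : GaloisRepAdic A)
    (b : Module.Basis (Fin 2) A ρ.V) {p q : ℕ} (hp : p.Prime) (hq : q.Prime) (hqp : q ≠ p)
    {P : ValuationSubring (AlgebraicClosure ℚ)} (hP : P.LiesOverPrime q)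
    (hexp : ∀ x ∈ P.inertiaSubgroupIn ℚ, matRep b ρ.ρ x ^ p ^ (q - 1).factorization p = 1)
    {τ : Gal} (hτ : IsTameGen p q P τ) {σ : Gal} (hσ : σ ∈ P.inertiaSubgroupIn ℚ) :
    ∃ j : ℕ, matRep b ρ.ρ σ = matRep b ρ.ρ τ ^ j := by
  by_contra hne
  push Not at hne
  let Nn : ∀ n : ℕ, Gal →* Matrix (Fin 2) (Fin 2) (A ⧸ maximalIdeal A ^ (n + 1)) :=
    fun n => ((Ideal.Quotient.mk (maximalIdeal A ^ (n + 1))).mapMatrix).toMonoidHom.comp
      (matRep b ρ.ρ)
  set K := p ^ (q - 1).factorization p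
  have hfail : ∀ j : ℕ, ∃ n : ℕ, Nn n σ ≠ Nn n τ ^ j := by
    intro j
    by_contra hall
    push Not at hall
    exact hne j (matrix_eq_of_forall_quotient fun n => by rw [map_pow]; exact hall n)
  choose n hn using hfail
  set M := (Finset.range K).sup n
  have hexpM : ∀ x ∈ P.inertiaSubgroupIn ℚ, Nn M x ^ K = 1 := fun x hx => by
    change ((Ideal.Quotient.mk (maximalIdeal A ^ (M + 1))).mapMatrix (matRep b ρ.ρ x)) ^ K = 1
    rw [← map_pow, hexp x hx, map_one]
  obtain ⟨j, hjK, hj⟩ :=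
    exists_map_eq_pow (Nn M) hp hq hqp hP (exists_level_quotient ρ b (M + 1)) hexpM hτ hσ
  refine hn j ?_
  have hle : n j ≤ M := Finset.le_sup (Finset.mem_range.mpr hjK)
  have e : maximalIdeal A ^ (M + 1) ≤ maximalIdeal A ^ (n j + 1) :=
    Ideal.pow_le_pow_right (by omega)
  have hcomp : ∀ x, Nn (n j) x = (Ideal.Quotient.factor e).mapMatrix (Nn M x) := fun x => by
    ext i j'
    rfl
  rw [hcomp, hcomp, hj, map_pow]

omit [IsLocalRing A] in
/-- A two dimensional representation of a group by diagonal matrices of determinant one is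
`diag(χ, χ⁻¹)`. -/
theorem exists_diagChar {G : Type*} [Group G] (N : G →* Matrix (Fin 2) (Fin 2) A)
    (hoff : ∀ σ, N σ 0 1 = 0 ∧ N σ 1 0 = 0) (hdet : ∀ σ, (N σ).det = 1) :
    ∃ χ : G →* Aˣ, ∀ σ, N σ = !![(χ σ : A), 0; 0, (((χ σ)⁻¹ : Aˣ) : A)] := by
  let χ : G →* Aˣ := MonoidHom.toHomUnits
    { toFun := fun σ => N σ 0 0
      map_one' := by simp
      map_mul' := fun σ σ' => by
        rw [map_mul, Matrix.mul_apply, Fin.sum_univ_two, (hoff σ).1, zero_mul, add_zero] }
  have hχ : ∀ σ, (χ σ : A) = N σ 0 0 := fun σ => rfl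
  refine ⟨χ, fun σ => ?_⟩
  have hinv : (((χ σ)⁻¹ : Aˣ) : A) = N σ 1 1 := by
    refine Units.inv_eq_of_mul_eq_one_right ?_
    have h1 := hdet σ
    rw [Matrix.det_fin_two, (hoff σ).1, zero_mul, sub_zero] at h1
    rwa [hχ]
  rw [hinv, hχ]
  ext i j
  fin_cases i <;> fin_cases j <;> simp [hoff σ]

/-- **Diagonalisation at a Taylor–Wiles prime.** -/
theorem exists_diagonal [IsAdicComplete (maximalIdeal A) A] (ρ : GaloisRepAdic A) {p q : ℕ}
    (hp : p.Prime) (hq : q.Prime) (hqp : q ≠ p) (hpA : (p : A) ∈ maximalIdeal A)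
    (hq1 : p ∣ q - 1) {P : ValuationSubring (AlgebraicClosure ℚ)} (hP : P.LiesOverPrime q)
    {φ : Gal} (hφ : P.IsFrobeniusAt φ q)
    (hunr : ∀ σ ∈ P.inertiaSubgroupIn ℚ, ρ.residual.ρ σ = 1)
    (hdet : ∀ σ ∈ P.inertiaSubgroupIn ℚ, LinearMap.det (ρ.ρ σ) = 1)
    {α β : ResidueField A} (hαβ : α ≠ β)
    (hchar : LinearMap.charpoly (ρ.residual.ρ φ) = (X - C α) * (X - C β)) :
    ∃ (b : Module.Basis (Fin 2) A ρ.V) (u v : A) (χ : P.inertiaSubgroupIn ℚ →* Aˣ),
      residue A u = α ∧ residue A v = β ∧ ρ.ρ φ (b 0) = u • b 0 ∧ ρ.ρ φ (b 1) = v • b 1 ∧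
      (∀ σ : P.inertiaSubgroupIn ℚ, ρ.ρ σ (b 0) = (χ σ : A) • b 0 ∧
        ρ.ρ σ (b 1) = ((χ σ)⁻¹ : Aˣ) • b 1 ∧
        LinearMap.charpoly (ρ.ρ σ) = (X - C (χ σ : A)) * (X - C (((χ σ)⁻¹ : Aˣ) : A)) ∧
        residue A (χ σ : A) = 1 ∧ χ σ ^ p ^ (q - 1).factorization p = 1) ∧
      ∀ (τ : Gal) (hτ : IsTameGen p q P τ) (σ : P.inertiaSubgroupIn ℚ),
        ∃ j : ℕ, χ σ = χ ⟨τ, hτ.1⟩ ^ j := by
  classical
  obtain ⟨b, u, v, hru, hrv, hNφ⟩ := exists_frobenius_basis ρ φ hαβ hchar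
  let N : Gal →* Matrix (Fin 2) (Fin 2) A := matRep b ρ.ρ
  replace hNφ : N φ = !![u, 0; 0, v] := hNφ
  have hNres : ∀ σ ∈ P.inertiaSubgroupIn ℚ, (N σ).map (residue A) = 1 := fun σ hσ =>
    map_residue_matRep ρ b (hunr σ hσ)
  have hrel : ∀ σ ∈ P.inertiaSubgroupIn ℚ, !![u, 0; 0, v] * N σ = N σ ^ q * !![u, 0; 0, v] := by
    intro σ hσ
    have h : N (φ * σ * φ⁻¹) = N σ ^ q := matRep_conj_eq_pow ρ b hp hq hqp hpA hP hφ hunr hσ
    rw [← hNφ, ← map_mul, ← h, ← map_mul, inv_mul_cancel_right]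
  have hqres : (q : ResidueField A) = 1 := by
    obtain ⟨c, hc⟩ := hq1
    rw [show q = p * c + 1 by have := hq.two_le; omega]
    push_cast
    rw [show (p : ResidueField A) = 0 by rw [← map_natCast (residue A), residue_eq_zero_iff]; exact hpA]
    ring
  have hoff : ∀ σ ∈ P.inertiaSubgroupIn ℚ, N σ 0 1 = 0 ∧ N σ 1 0 = 0 := fun σ hσ =>
    offDiag_eq_zero (hNres σ hσ) hqres (by rw [hru, hrv]; exact hαβ) (hrel σ hσ)
  obtain ⟨χ, hNdiag⟩ : ∃ χ : P.inertiaSubgroupIn ℚ →* Aˣ,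
      ∀ σ : P.inertiaSubgroupIn ℚ, N σ = !![(χ σ : A), 0; 0, (((χ σ)⁻¹ : Aˣ) : A)] :=
    exists_diagChar (N.comp (P.inertiaSubgroupIn ℚ).subtype) (fun σ => hoff _ σ.2) fun σ => by
      rw [MonoidHom.comp_apply, RepTheory.det_matRep]
      exact hdet _ σ.2
  have hχ : ∀ σ : P.inertiaSubgroupIn ℚ, (χ σ : A) = N σ 0 0 := fun σ => by rw [hNdiag σ]; simp
  have happly : ∀ σ, ∀ j, ρ.ρ σ (b j) = ∑ i, N σ i j • b i := fun σ j => by
    conv_lhs => rw [← b.sum_repr (ρ.ρ σ (b j))]
    simp [N, matRep_apply, LinearMap.toMatrix_apply]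
  have hχres : ∀ σ : P.inertiaSubgroupIn ℚ, residue A (χ σ : A) = 1 := fun σ => by
    simpa [hχ] using congrFun (congrFun (hNres _ σ.2) 0) 0
  have hχq : ∀ σ : P.inertiaSubgroupIn ℚ, χ σ ^ (q - 1) = 1 := by
    intro σ
    have h1 := hrel _ σ.2
    rw [hNdiag, show !![(χ σ : A), 0; 0, (((χ σ)⁻¹ : Aˣ) : A)] =
      Matrix.diagonal ![(χ σ : A), (((χ σ)⁻¹ : Aˣ) : A)] by
        ext i j; fin_cases i <;> fin_cases j <;> simp,
      Matrix.diagonal_pow] at h1
    have h2 := congrFun (congrFun h1 0) 0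
    simp [Matrix.mul_apply, Matrix.diagonal] at h2
    have hu : IsUnit u := by
      rw [← residue_ne_zero_iff_isUnit]
      intro h0
      have hunit : IsUnit (N φ).det := by
        refine IsUnit.of_mul_eq_one (N φ⁻¹).det ?_
        rw [← Matrix.det_mul, ← map_mul, mul_inv_cancel, map_one, Matrix.det_one]
      rw [hNφ, Matrix.det_fin_two_of, mul_zero, sub_zero] at hunit
      exact (residue_ne_zero_iff_isUnit u).mpr (isUnit_of_mul_isUnit_left hunit) h0
    refine Units.ext ((χ σ).isUnit.mul_right_cancel ?_)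
    rw [Units.val_pow_eq_pow_val, ← pow_succ, Nat.sub_add_cancel hq.one_le, Units.val_one, one_mul]
    refine hu.mul_left_cancel ?_
    linear_combination -h2
  have hχp : ∀ σ : P.inertiaSubgroupIn ℚ, χ σ ^ p ^ (q - 1).factorization p = 1 := fun σ =>
    pow_ordProj_eq_one hp hq hpA (hχres σ) (hχq σ)
  refine ⟨b, u, v, χ, hru, hrv, ?_, ?_, fun σ => ⟨?_, ?_, ?_, hχres σ, hχp σ⟩, fun τ hτ σ => ?_⟩
  · simp [happly, hNφ, Fin.sum_univ_two]
  · simp [happly, hNφ, Fin.sum_univ_two]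
  · simp [happly, hNdiag, Fin.sum_univ_two]
  · simp [happly, hNdiag, Fin.sum_univ_two, Units.smul_def]
  · rw [← LinearMap.charpoly_toMatrix (ρ.ρ σ) b,
      show LinearMap.toMatrix b b (ρ.ρ σ) = N σ from (matRep_apply b ρ.ρ _).symm, hNdiag,
      Matrix.charpoly_fin_two]
    simp [Matrix.trace_fin_two, Matrix.det_fin_two, map_add]
    ring_nf
    rw [← C_mul, Units.mul_inv, map_one]
    ring
  · have hexp : ∀ x ∈ P.inertiaSubgroupIn ℚ,
        N x ^ p ^ (q - 1).factorization p = 1 := fun x hx => by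
      have h2 : N ((⟨x, hx⟩ : P.inertiaSubgroupIn ℚ) ^ p ^ (q - 1).factorization p :) = 1 := by
        rw [hNdiag, map_pow, hχp ⟨x, hx⟩]
        simp [Matrix.one_fin_two]
      rwa [SubmonoidClass.coe_pow, map_pow] at h2
    obtain ⟨j, hj⟩ := exists_matRep_eq_pow ρ b hp hq hqp hP hexp hτ σ.2
    refine ⟨j, Units.ext ?_⟩
    change N σ = N τ ^ j at hj
    rw [← map_pow N, ← SubmonoidClass.coe_pow (⟨τ, hτ.1⟩ : P.inertiaSubgroupIn ℚ)] at hj
    rw [← map_pow, hχ, hχ, hj]

end Fermat.Agent.TWTwist
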