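import Fermat.Agent.ConductorLevel.Inputs
import Fermat.Agent.ConductorLevel.Compare
import Fermat.Agent.RepTheory.FrobTrace
import Fermat.Agent.HeckeEigen.Characters
import Fermat.Agent.Chebotarev.Basic
import Fermat.Agent.GaloisBasics.Galois
import Fermat.Prelude.Def_GaloisRep_LocalConditions

/-!
# A point with a newform of exponent two at `q` is not unipotent at `q`

Carayol's theorem gives a representation attached to the newform which is not unipotent at `q`;
by Chebotarev every representation with the same Frobenius polynomials has the same characteristic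
polynomials everywhere.
-/

set_option autoImplicit false

noncomputable section

open Polynomial IsLocalRing
open scoped Pointwise

namespace Fermat.Agent.TWTwist

open Fermat.Agent.RepTheory (Gal FrobGenerates IsFrobOutside)

/-- Frobenius elements outside a finite set of primes are dense (Chebotarev). -/
theorem frobGenerates_chebotarev (S : Finset ℕ) : FrobGenerates (↑S : Set ℕ) :=
  RepTheory.frobGenerates_finset (fun L hL σ S₀ => by
    have := hL
    obtain ⟨ℓ, hℓ, hℓS, -, P, hP, φ, hφ, -, -, a, -, -, -, -, ha⟩ :=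
      Chebotarev.exists_isFrobeniusAt_pow L σ S₀
    exact ⟨ℓ, hℓ, hℓS, P, hP, φ, hφ, a, ha⟩) S

section BaseChange

variable {A B : Type} [CommRing A] [IsLocalRing A] [CommRing B] [IsLocalRing B] (f : A →+* B)
  (hf : IsLocalHom f) (ρ : GaloisRepAdic A) (σ : Gal)

/-- Characteristic polynomials commute with extension of scalars. -/
theorem charpoly_baseChangeAlong_apply :
    LinearMap.charpoly ((ρ.baseChangeAlong f hf).ρ σ) = (LinearMap.charpoly (ρ.ρ σ)).map f := by
  let _ : Algebra A B := f.toAlgebra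
  exact LinearMap.charpoly_baseChange (ρ.ρ σ) B

/-- Traces commute with extension of scalars. -/
theorem trace_baseChangeAlong_apply :
    (ρ.baseChangeAlong f hf).trace σ = f (ρ.trace σ) := by
  let _ : Algebra A B := f.toAlgebra
  exact LinearMap.trace_baseChange (ρ.ρ σ) B

/-- Determinants commute with extension of scalars. -/
theorem det_baseChangeAlong_apply :
    LinearMap.det ((ρ.baseChangeAlong f hf).ρ σ) = f (LinearMap.det (ρ.ρ σ)) := by
  let _ : Algebra A B := f.toAlgebra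
  exact LinearMap.det_baseChange (A := B) (ρ.ρ σ)

end BaseChange

theorem two_mul_det_eq {R : Type*} [CommRing R] (M : Matrix (Fin 2) (Fin 2) R) :
    2 * M.det = M.trace ^ 2 - (M ^ 2).trace := by
  simp [pow_two, Matrix.det_fin_two, Matrix.trace_fin_two, Matrix.mul_apply, Fin.sum_univ_two]
  ring

/-- With two invertible as a scalar, traces determine characteristic polynomials. -/
theorem charpoly_eq_of_trace_eq {B : Type} [CommRing B] [IsLocalRing B] [IsDomain B]
    (h2 : (2 : B) ≠ 0) (ρ₁ ρ₂ : GaloisRepAdic B) (h : ∀ σ, ρ₁.trace σ = ρ₂.trace σ) (σ : Gal) :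
    LinearMap.det (ρ₁.ρ σ) = LinearMap.det (ρ₂.ρ σ) ∧
      LinearMap.charpoly (ρ₁.ρ σ) = LinearMap.charpoly (ρ₂.ρ σ) := by
  have key : ∀ ρ : GaloisRepAdic B,
      2 * LinearMap.det (ρ.ρ σ) = ρ.trace σ ^ 2 - ρ.trace (σ ^ 2) := by
    intro ρ
    have h1 : ∀ τ, ρ.trace τ = (RepTheory.matRep (RepTheory.adicBasis ρ) ρ.ρ τ).trace := fun τ =>
      (RepTheory.trace_matRep (RepTheory.adicBasis ρ) ρ.ρ τ).symm
    rw [h1, h1, map_pow, ← RepTheory.det_matRep (RepTheory.adicBasis ρ) ρ.ρ σ, two_mul_det_eq]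
  have hd : LinearMap.det (ρ₁.ρ σ) = LinearMap.det (ρ₂.ρ σ) :=
    mul_left_cancel₀ h2 (by rw [key, key, h, h])
  refine ⟨hd, ?_⟩
  have ht := h σ
  rw [ConductorLevel.charpoly_eq_of_finrank_two ρ₁.finrank_eq,
    ConductorLevel.charpoly_eq_of_finrank_two ρ₂.finrank_eq, hd]
  unfold GaloisRepAdic.trace at ht
  rw [ht]

/-- A character of the Hecke algebra with all bad primes left out takes its values in any subring
containing the values at the `T`s. -/
theorem apply_mem_of_forall_T {M : ℕ} [NeZero M] {T : Set ℕ}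
    (hT : ∀ q : ℕ, q.Prime → q ∣ M → q ∈ T) (χ : CuspForm.heckeAlgebra M 2 T →+* ℂ) {R : Subring ℂ}
    (h : ∀ (ℓ : ℕ) (hℓ : ℓ.Prime) (hℓM : ¬ ℓ ∣ M) (hℓT : ℓ ∉ T),
      χ (CuspForm.heckeAlgebra.T hℓ hℓM hℓT) ∈ R) (t : CuspForm.heckeAlgebra M 2 T) :
    χ t ∈ R := by
  obtain ⟨t, ht⟩ := t
  induction ht using Algebra.adjoin_induction with
  | mem t ht =>
    rcases ht with ⟨ℓ, hℓ, hℓM, hℓT, rfl⟩ | ⟨ℓ, hℓM, hℓ, hℓT, rfl⟩
    · exact h ℓ hℓ hℓM hℓT
    · exact absurd (hT ℓ hℓ hℓM) hℓT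
  | algebraMap c =>
    have e : (⟨algebraMap ℤ _ c, Subalgebra.algebraMap_mem _ c⟩ : CuspForm.heckeAlgebra M 2 T) =
        (c : CuspForm.heckeAlgebra M 2 T) := by
      ext1
      simp
    rw [e, map_intCast]
    exact intCast_mem R c
  | add x y hx hy ihx ihy =>
    have e : (⟨x + y, add_mem hx hy⟩ : CuspForm.heckeAlgebra M 2 T) = ⟨x, hx⟩ + ⟨y, hy⟩ := rfl
    rw [e, map_add]
    exact add_mem ihx ihy
  | mul x y hx hy ihx ihy =>
    have e : (⟨x * y, mul_mem hx hy⟩ : CuspForm.heckeAlgebra M 2 T) = ⟨x, hx⟩ * ⟨y, hy⟩ := rfl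
    rw [e, map_mul]
    exact mul_mem ihx ihy

/-- **Not unipotent at a prime where the newform has exponent two.** -/
theorem not_isUnipotentOnInertiaAt_of_newform (h36 : ConductorLevel.NewformCarayol)
    {O : Type} [CommRing O] [IsDomain O] [IsDiscreteValuationRing O]
    [IsAdicComplete (maximalIdeal O) O] [Finite (ResidueField O)] [CharZero O]
    {p : ℕ} [Fact p.Prime] (hp2 : p ≠ 2) (hpO : (p : O) ∈ maximalIdeal O)
    (ρ : GaloisRepAdic O) (habs : ρ.residual.IsAbsolutelyIrreducible) (hodd : ρ.residual.IsOdd)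
    {M : ℕ} [NeZero M] {g : CuspForm (CongruenceSubgroup.Gamma0 M) 2} (hg : g.IsNewform)
    (S : Finset ℕ) {R : Subring ℂ}
    (hR : ∀ ℓ : ℕ, ℓ.Prime → ¬ ℓ ∣ M → ℓ ∉ S → ModularFormClass.qCoeff g ℓ ∈ R) (ι : R →+* O)
    (hfrob : ∀ (ℓ : ℕ) (hℓ : ℓ.Prime) (hℓM : ¬ ℓ ∣ M) (hℓS : ℓ ∉ S), ℓ ≠ p →
      ∀ A : ValuationSubring (AlgebraicClosure ℚ), A.LiesOverPrime ℓ →
        ∀ σ : Gal, A.IsFrobeniusAt σ ℓ →
          LinearMap.charpoly (ρ.ρ σ) =
            X ^ 2 - C (ι ⟨_, hR ℓ hℓ hℓM hℓS⟩) * X + C (ℓ : O))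
    {q : ℕ} (hq : q.Prime) (hqp : q ≠ p) (hM2 : M.factorization q = 2) :
    ¬ ρ.IsUnipotentOnInertiaAt q := by
  classical
  intro huni
  set T : Finset ℕ := insert p (S ∪ M.primeFactors) with hT
  have hTout : ∀ ℓ : ℕ, ℓ.Prime → ℓ ∉ T → ℓ ≠ p ∧ ¬ ℓ ∣ M ∧ ℓ ∉ S := fun ℓ hℓ h => by
    simp only [hT, Finset.mem_insert, Finset.mem_union, Nat.mem_primeFactors, not_or] at h
    exact ⟨h.1, fun hd => h.2.2 ⟨hℓ, hd, NeZero.ne M⟩, h.2.1⟩
  let chig := HeckeEigen.eigenChar hg.1 (↑T : Set ℕ)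
  have hrange : ∀ t, chig t ∈ R :=
    apply_mem_of_forall_T (fun r hr hrM => by
      by_contra hrT
      exact (hTout r hr (by simpa using hrT)).2.1 hrM) chig fun ℓ hℓ hℓM hℓT => by
        rw [HeckeEigen.eigenChar_T hg.1 hℓ hℓM hℓT]
        exact hR ℓ hℓ hℓM (hTout ℓ hℓ (by simpa using hℓT)).2.2
  have hle : chig.range ≤ R := by
    rintro _ ⟨t, rfl⟩
    exact hrange t
  let iota : chig.range →+* O := ι.comp (Subring.inclusion hle)
  have hiota : ∀ (ℓ : ℕ) (hℓ : ℓ.Prime) (hℓM : ¬ ℓ ∣ M) (hℓT : ℓ ∉ (↑T : Set ℕ)) (hℓS : ℓ ∉ S),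
      (iota.comp chig.rangeRestrict) (CuspForm.heckeAlgebra.T hℓ hℓM hℓT) =
        ι ⟨_, hR ℓ hℓ hℓM hℓS⟩ := fun ℓ hℓ hℓM hℓT hℓS =>
    congrArg ι (Subtype.ext (HeckeEigen.eigenChar_T hg.1 hℓ hℓM hℓT))
  -- any representation with these Frobenius polynomials has the characters of `ρ`
  have key : ∀ (O'' : Type) [CommRing O''] [IsDomain O''] [IsDiscreteValuationRing O'']
      [CharZero O''] [Algebra O O''] (hloc : IsLocalHom (algebraMap O O'')) (ρ' : GaloisRepAdic O''),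
      (∀ (ℓ : ℕ) (hℓ : ℓ.Prime) (hℓp : ℓ ≠ p) (hℓM : ¬ ℓ ∣ M) (hℓT : ℓ ∉ (↑T : Set ℕ)),
        ∀ A : ValuationSubring (AlgebraicClosure ℚ), A.LiesOverPrime ℓ →
          ∀ σ : Gal, A.IsFrobeniusAt σ ℓ →
            LinearMap.charpoly (ρ'.ρ σ) =
              X ^ 2 - C (algebraMap O O'' ((iota.comp chig.rangeRestrict)
                (CuspForm.heckeAlgebra.T hℓ hℓM hℓT))) * X + C ((ℓ : O''))) →
      ∀ σ, ρ'.trace σ = algebraMap O O'' (ρ.trace σ) ∧
        LinearMap.det (ρ'.ρ σ) = algebraMap O O'' (LinearMap.det (ρ.ρ σ)) ∧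
        LinearMap.charpoly (ρ'.ρ σ) = (LinearMap.charpoly (ρ.ρ σ)).map (algebraMap O O'') := by
    intro O'' _ _ _ _ _ hloc ρ' hρ'
    have htr := RepTheory.trace_eq_of_frobenius (frobGenerates_chebotarev T) ρ'
      (ρ.baseChangeAlong (algebraMap O O'') hloc) (by
        rintro φ ⟨ℓ, hℓ, hℓT, P, hP, hφ⟩
        obtain ⟨h1, h2, h3⟩ := hTout ℓ hℓ (by simpa using hℓT)
        rw [charpoly_baseChangeAlong_apply, hρ' ℓ hℓ h1 h2 hℓT P hP φ hφ,
          hfrob ℓ hℓ h2 h3 h1 P hP φ hφ, hiota ℓ hℓ h2 hℓT h3]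
        simp)
    intro σ
    obtain ⟨hd, hc⟩ := charpoly_eq_of_trace_eq (by norm_num) ρ'
      (ρ.baseChangeAlong (algebraMap O O'') hloc) htr σ
    exact ⟨(htr σ).trans (trace_baseChangeAlong_apply _ _ _ _),
      hd.trans (det_baseChangeAlong_apply _ _ _ _),
      hc.trans (charpoly_baseChangeAlong_apply _ _ _ _)⟩
  obtain ⟨O'', _, _, _, _, _, _, _, _, hloc, -, ρ', hρ', hnot⟩ :=
    h36 hg p T O hpO hp2 chig (fun ℓ hℓ hℓM hℓS => HeckeEigen.eigenChar_T hg.1 hℓ hℓM hℓS) iota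
      (Finset.mem_insert_self p _)
      (fun r hr hrM => Finset.mem_insert_of_mem
        (Finset.mem_union_right _ (Nat.mem_primeFactors.mpr ⟨hr, hrM, NeZero.ne M⟩)))
      (by
        intro O'' _ _ _ _ _ _ _ _ hloc _ ρ' hρ'
        have h := key O'' hloc ρ' hρ'
        let e : ResidueField O →+* ResidueField O'' := ResidueField.map (algebraMap O O'')
        refine ⟨RepTheory.isAbsolutelyIrreducible_of_isEquiv
          (RepTheory.residual_isEquiv_of_trace_eq (ρ.residual.baseChangeAlong e) ρ'.residual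
            (RepTheory.isAbsolutelyIrreducible_baseChangeAlong e _ habs) fun σ => ?_)
          (RepTheory.isAbsolutelyIrreducible_baseChangeAlong e _ habs), ?_⟩
        · let _ : Algebra (ResidueField O) (ResidueField O'') := e.toAlgebra
          have h1 : LinearMap.trace (ResidueField O) ρ.residual.V (ρ.residual.ρ σ) =
              residue O (ρ.trace σ) := LinearMap.trace_baseChange (ρ.ρ σ) (ResidueField O)
          have h2 : LinearMap.trace (ResidueField O'') ρ'.residual.V (ρ'.residual.ρ σ) =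
              residue O'' (ρ'.trace σ) := LinearMap.trace_baseChange (ρ'.ρ σ) (ResidueField O'')
          rw [h2, (h σ).1]
          refine (LinearMap.trace_baseChange (ρ.residual.ρ σ) (ResidueField O'')).trans ?_
          rw [h1]
          rfl
        · intro c hcc hc
          have h1 : LinearMap.det (ρ.residual.ρ c) = residue O (LinearMap.det (ρ.ρ c)) :=
            LinearMap.det_baseChange (A := ResidueField O) (ρ.ρ c)
          have h2 : LinearMap.det (ρ'.residual.ρ c) = residue O'' (LinearMap.det (ρ'.ρ c)) :=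
            LinearMap.det_baseChange (A := ResidueField O'') (ρ'.ρ c)
          rw [h2, (h c).2.1]
          change e (residue O (LinearMap.det (ρ.ρ c))) = -1
          rw [← h1, hodd c hcc hc, map_neg, map_one])
  refine hnot q hq hqp hM2 fun P hP σ hσ => ?_
  rw [(key O'' hloc ρ' (fun ℓ hℓ _ hℓM hℓS => hρ' ℓ hℓ hℓM hℓS) σ).2.2, huni P hP σ hσ]
  simp

/-- Not unipotent in terms of a diagonalising character at one place: it is nontrivial on any
element generating its image. -/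
theorem map_char_ne_one {A O : Type} [CommRing A] [CommRing O] [IsLocalRing O]
    (ρ : GaloisRepAdic O) {q : ℕ} (hq : q.Prime) (hnu : ¬ ρ.IsUnipotentOnInertiaAt q)
    {P : ValuationSubring (AlgebraicClosure ℚ)} (hP : P.LiesOverPrime q) (π : A →+* O)
    (χ : P.inertiaSubgroupIn ℚ →* Aˣ)
    (hchar : ∀ σ : P.inertiaSubgroupIn ℚ, LinearMap.charpoly (ρ.ρ σ) =
      ((X - C (χ σ : A)) * (X - C (((χ σ)⁻¹ : Aˣ) : A))).map π)
    (τ : P.inertiaSubgroupIn ℚ) (hgen : ∀ σ, ∃ j : ℕ, χ σ = χ τ ^ j) :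
    π (χ τ : A) ≠ 1 := by
  intro h1
  have hu : Units.map (π : A →* O) (χ τ) = 1 := Units.ext h1
  have hall : ∀ σ : P.inertiaSubgroupIn ℚ, LinearMap.charpoly (ρ.ρ σ) = (X - 1) ^ 2 := by
    intro σ
    obtain ⟨j, hj⟩ := hgen σ
    have hσ : Units.map (π : A →* O) (χ σ) = 1 := by rw [hj, map_pow, hu, one_pow]
    have e1 : π (χ σ : A) = 1 := congrArg Units.val hσ
    have e2 : π (((χ σ)⁻¹ : Aˣ) : A) = 1 := by
      have := congrArg Units.val (congrArg (·⁻¹) hσ)
      simpa using this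
    rw [hchar σ, Polynomial.map_mul, Polynomial.map_sub, Polynomial.map_sub, map_X, map_C, map_C,
      e1, e2, C_1, pow_two]
  refine hnu fun P' hP' σ hσ => ?_
  obtain ⟨g, rfl⟩ := GaloisBasics.exists_smul_eq hP hP' hq
  have hmem : g⁻¹ * σ * g ∈ P.inertiaSubgroupIn ℚ := by
    rw [← GaloisBasics.inertiaSubgroupIn_smul_iff (g⁻¹ * σ * g) g]
    simpa [mul_assoc] using hσ
  have h := hall ⟨_, hmem⟩
  rw [← h, ConductorLevel.charpoly_eq_of_finrank_two ρ.finrank_eq,
    ConductorLevel.charpoly_eq_of_finrank_two ρ.finrank_eq]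
  simp only [map_mul]
  rw [← C_mul, ← C_mul]
  have hgg : ρ.ρ g * ρ.ρ g⁻¹ = 1 := by rw [← map_mul, mul_inv_cancel, map_one]
  have hdg : LinearMap.det (ρ.ρ g⁻¹) * LinearMap.det (ρ.ρ g) = 1 := by
    rw [← map_mul, ← map_mul, inv_mul_cancel, map_one, map_one]
  rw [LinearMap.trace_mul_cycle, hgg, one_mul,
    show LinearMap.det (ρ.ρ g⁻¹) * LinearMap.det (ρ.ρ σ) * LinearMap.det (ρ.ρ g) =
      LinearMap.det (ρ.ρ σ) by rw [mul_right_comm, hdg, one_mul]]

end Fermat.Agent.TWTwist
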