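import Fermat.Agent.TWTwist.Newform
import Fermat.Agent.HeckeEigen.Characters

/-!
# The newform of a twist, for forms which are only eigen at the good primes

`F` has character `χ` and satisfies the Hecke relations at the primes outside the level; its first
coefficient may vanish.  The newform with the eigensystem of the twist still has exponent two at
`q`.
-/

set_option autoImplicit false

noncomputable section

open UpperHalfPlane ModularForm Function Matrix.SpecialLinearGroup CongruenceSubgroup ModularFormClass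
open scoped MatrixGroups ModularForm

namespace Fermat.Agent.TWTwist

open Fermat.Agent.Newforms (IsCuspidalFun exists_newform)

/-- The Hecke relations at good primes for a form of weight two with character `χ`. -/
def CharGoodEigen (N₀ : ℕ) {Q : ℕ} (χ : DirichletCharacter ℂ Q) (a lam : ℕ → ℂ) : Prop :=
  ∀ ℓ : ℕ, ℓ.Prime → ¬ ℓ ∣ N₀ → ∀ n : ℕ,
    a (n * ℓ) + (if ℓ ∣ n then χ (ℓ : ZMod Q) * ℓ * a (n / ℓ) else 0) = lam ℓ * a n

/-- `n = d n'` with `d` supported on `M` and `n'` prime to `M`. -/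
theorem exists_eq_mul_coprime (M : ℕ) : ∀ n : ℕ, n ≠ 0 →
    ∃ d n' : ℕ, n = d * n' ∧ n'.Coprime M ∧ ∀ p : ℕ, p.Prime → p ∣ d → p ∣ M := by
  intro n
  induction n using Nat.strong_induction_on with
  | _ n ih =>
    intro hn
    by_cases hc : n.Coprime M
    · exact ⟨1, n, (one_mul n).symm, hc, fun p hp h => absurd h hp.not_dvd_one⟩
    obtain ⟨p, hp, hpn, hpM⟩ := Nat.Prime.not_coprime_iff_dvd.mp hc
    obtain ⟨m, rfl⟩ := hpn
    have hm : m ≠ 0 := (mul_ne_zero_iff.mp hn).2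
    obtain ⟨d, n', rfl, h1, h2⟩ :=
      ih m (lt_mul_left (Nat.pos_of_ne_zero hm) hp.one_lt) hm
    refine ⟨p * d, n', (mul_assoc _ _ _).symm, h1, fun r hr h => ?_⟩
    rcases hr.dvd_mul.mp h with h | h
    · rwa [(Nat.prime_dvd_prime_iff_eq hr hp).mp h]
    · exact h2 r hr h

/-- The coefficients on `d · n'`, `n'` prime to the level, come from the eigensystem. -/
theorem twist_coeff_eq {N₀ Q M' D : ℕ} {χ ψ : DirichletCharacter ℂ Q} (hψ : χ * ψ * ψ = 1)
    {a lam : ℕ → ℂ} (ha : CharGoodEigen N₀ χ a lam) {g : CuspForm (Gamma0 M') 2}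
    (hg : g.IsNormalizedEigenform) (hD1 : D ≠ 1) (hN : ∀ p : ℕ, p.Prime → p ∣ N₀ * Q → p ∣ D)
    (hN' : ∀ p : ℕ, p.Prime → p ∣ M' → p ∣ D)
    (hgood : ∀ ℓ : ℕ, ℓ.Prime → ¬ ℓ ∣ D → qCoeff ⇑g ℓ = ψ (ℓ : ZMod Q) * lam ℓ)
    {d : ℕ} (hd : ∀ p : ℕ, p.Prime → p ∣ d → p ∣ D) :
    ∀ n : ℕ, n.Coprime D → ψ (n : ZMod Q) * a (d * n) = a d * qCoeff ⇑g n := by
  intro n
  induction n using Nat.strong_induction_on with
  | _ n ih =>
    intro hn
    rcases eq_or_ne n 1 with rfl | hn1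
    · simp [hg.qCoeff_one]
    have hn0 : n ≠ 0 := fun h => hD1 (by simpa [h] using hn)
    obtain ⟨ℓ, hℓ, hℓn⟩ := Nat.exists_prime_and_dvd hn1
    obtain ⟨m, rfl⟩ := hℓn
    have hm : m.Coprime D := Nat.Coprime.coprime_mul_left hn
    have hℓD : ¬ ℓ ∣ D := hℓ.coprime_iff_not_dvd.mp (Nat.Coprime.coprime_mul_right hn)
    have hℓN : ¬ ℓ ∣ N₀ := fun h => hℓD (hN ℓ hℓ (h.mul_right Q))
    have hℓQ : ¬ ℓ ∣ Q := fun h => hℓD (hN ℓ hℓ (dvd_mul_of_dvd_right h N₀))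
    have hℓd : ¬ ℓ ∣ d := fun h => hℓD (hd ℓ hℓ h)
    have hu : IsUnit (ℓ : ZMod Q) := by
      rw [ZMod.isUnit_iff_coprime]
      exact hℓ.coprime_iff_not_dvd.mpr hℓQ
    have hψℓ : χ (ℓ : ZMod Q) * ψ ℓ * ψ ℓ = 1 := by
      simpa [MulChar.one_apply hu] using congrArg (fun x : DirichletCharacter ℂ Q => x ℓ) hψ
    have hm0 : m ≠ 0 := (mul_ne_zero_iff.mp hn0).2
    have hlt : m < ℓ * m := lt_mul_left (Nat.pos_of_ne_zero hm0) hℓ.one_lt
    have h1 := ha ℓ hℓ hℓN (d * m)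
    have h2 := HeckeEigen.qCoeff_mul_good hg hℓ (fun h => hℓD (hN' ℓ hℓ h)) m
    rw [hgood ℓ hℓ hℓD] at h2
    rw [show d * (ℓ * m) = d * m * ℓ by ring, Nat.cast_mul, map_mul, mul_comm ℓ m]
    by_cases hdvd : ℓ ∣ m
    · obtain ⟨m', rfl⟩ := hdvd
      have hi := ih (ℓ * m') hlt hm
      have hi' := ih m' (lt_of_le_of_lt (Nat.le_mul_of_pos_left _ hℓ.pos) hlt)
        (Nat.Coprime.coprime_mul_left hm)
      rw [if_pos (dvd_mul_of_dvd_right (dvd_mul_right _ _) d),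
        show d * (ℓ * m') / ℓ = d * m' by
          rw [show d * (ℓ * m') = ℓ * (d * m') by ring, Nat.mul_div_cancel_left _ hℓ.pos]] at h1
      rw [if_pos (dvd_mul_right _ _), Nat.mul_div_cancel_left _ hℓ.pos] at h2
      simp only [Nat.cast_mul, map_mul] at hi ⊢
      linear_combination ψ (ℓ : ZMod Q) * (ψ (ℓ : ZMod Q) * ψ (m' : ZMod Q)) * h1 - a d * h2 +
        ψ (ℓ : ZMod Q) * lam ℓ * hi - (ℓ : ℂ) * hi' -
        (ψ (m' : ZMod Q) * (ℓ : ℂ) * a (d * m')) * hψℓ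
    · rw [if_neg fun h => (hℓ.dvd_mul.mp h).elim hℓd hdvd] at h1
      rw [if_neg hdvd] at h2
      linear_combination ψ (ℓ : ZMod Q) * ψ (m : ZMod Q) * h1 - a d * h2 +
        ψ (ℓ : ZMod Q) * lam ℓ * ih m hlt hm

/-- `τ ↦ d τ`. -/
def degGL {d : ℕ} (hd : d ≠ 0) : GL (Fin 2) ℝ :=
  upperTriangularGL (d : ℝ) 0 1 (by simpa using hd)

@[simp] theorem val_degGL {d : ℕ} (hd : d ≠ 0) :
    ((degGL hd : GL (Fin 2) ℝ) : Matrix (Fin 2) (Fin 2) ℝ) = !![(d : ℝ), 0; 0, 1] := rfl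

theorem det_degGL {d : ℕ} (hd : d ≠ 0) : ((degGL hd).det : ℝ) = d := by
  rw [Matrix.GeneralLinearGroup.val_det_apply, val_degGL, Matrix.det_fin_two_of]
  ring

/-- The expansion of `g(dτ)`, up to the normalisation of the slash action. -/
theorem hasExp_degGL {G : ℍ → ℂ} {b : ℕ → ℂ} (hG : HasExp 1 G b) {d : ℕ} (hd : d ≠ 0) :
    HasExp 1 (G ∣[(2 : ℤ)] degGL hd) fun n => if d ∣ n then (d : ℂ) * b (n / d) else 0 := by
  intro τ
  have hdpos : (0 : ℝ) < d := by exact_mod_cast Nat.pos_of_ne_zero hd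
  have hval : (G ∣[(2 : ℤ)] degGL hd) τ = (d : ℂ) * G (degGL hd • τ) := by
    rw [ModularForm.slash_apply, UpperHalfPlane.σ, if_pos (by rw [det_degGL]; exact hdpos),
      det_degGL]
    simp [UpperHalfPlane.denom, mul_comm]
  have hsm : ((degGL hd • τ : ℍ) : ℂ) = d * (τ : ℂ) := by
    rw [UpperHalfPlane.coe_smul_of_det_pos (by rw [det_degGL]; exact hdpos)]
    simp [UpperHalfPlane.num, UpperHalfPlane.denom]
  have h := (hG (degGL hd • τ)).mul_left (d : ℂ)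
  rw [← hval] at h
  have hinj : Function.Injective fun m : ℕ => d * m := fun x y h => mul_left_cancel₀ hd h
  refine (hinj.hasSum_iff fun n hn => ?_).mp (h.congr_fun fun m => ?_)
  · beta_reduce
    rw [if_neg (fun hdvd => by obtain ⟨m, hm⟩ := hdvd; exact hn ⟨m, hm.symm⟩), zero_mul]
  · simp only [Function.comp_apply]
    rw [if_pos (dvd_mul_right d m), Nat.mul_div_cancel_left m (Nat.pos_of_ne_zero hd), hsm,
      mul_assoc, pow_mul]
    congr 3
    simp only [Periodic.qParam, ← Complex.exp_nat_mul]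
    congr 1
    push_cast
    ring

/-- **A form compared with the twist of an eigenform has exponent two at `q`.** -/
theorem factorization_eq_two_of_compare {N₀ Q q M : ℕ} [NeZero N₀] [NeZero Q] (hq : q.Prime)
    (hqM : ¬ q ∣ M) (hM : M ≠ 0) (hQ : Q ∣ N₀) (hN₀ : N₀ ∣ q * M) (hlev : N₀ * Q ∣ q ^ 2 * M)
    {χ ψ : DirichletCharacter ℂ Q} {F : ℍ → ℂ}
    (hF : ∀ γ : SL(2, ℤ), (N₀ : ℤ) ∣ γ 1 0 → F ∣[(2 : ℤ)] mapGL ℝ γ = χ ((γ 1 1 : ℤ) : ZMod Q) • F)
    {a : ℕ → ℂ} (hFa : HasExp 1 F a) (hne : ∃ n, ¬ q ∣ n ∧ a n ≠ 0)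
    (hχq : ∀ (h : q.Coprime M) (hQM : Q ∣ q * M),
      localChar h hQM χ * localChar h hQM χ ≠ 1)
    {M' : ℕ} (hM' : M' ∣ N₀ * Q) {g : CuspForm (Gamma0 M') 2} (hg : g.IsNormalizedEigenform)
    (hcmp : ∀ d : ℕ, (∀ p : ℕ, p.Prime → p ∣ d → p ∣ M) → ¬ q ∣ d → ∀ n : ℕ, n.Coprime (q * M) →
      ψ (n : ZMod Q) * a (d * n) = a d * qCoeff ⇑g n) :
    M'.factorization q = 2 := by
  classical
  have := Fact.mk hq
  have hM'0 : M' ≠ 0 := fun h => by
    rw [h, zero_dvd_iff] at hM'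
    exact mul_ne_zero (NeZero.ne N₀) (NeZero.ne Q) hM'
  have hdvd : M' ∣ q ^ 2 * M := hM'.trans hlev
  have hfac := fun r => (Nat.factorization_le_iff_dvd hM'0
    (mul_ne_zero (pow_ne_zero 2 hq.ne_zero) hM)).mpr hdvd r
  simp only [Nat.factorization_mul (pow_ne_zero 2 hq.ne_zero) hM, Finsupp.add_apply,
    Nat.Prime.factorization_pow hq] at hfac
  have hle : M'.factorization q ≤ 2 := by
    simpa [Nat.factorization_eq_zero_of_not_dvd hqM] using hfac q
  by_contra hne2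
  have hM'qM : M' ∣ q * M := by
    rw [← Nat.factorization_le_iff_dvd hM'0 (mul_ne_zero hq.ne_zero hM)]
    intro r
    have h1 := hfac r
    rw [Nat.factorization_mul hq.ne_zero hM, Finsupp.add_apply, Nat.Prime.factorization hq]
    rcases eq_or_ne r q with rfl | hr
    · rw [Finsupp.single_eq_same, Nat.factorization_eq_zero_of_not_dvd hqM]
      omega
    · rw [Finsupp.single_eq_of_ne hr] at h1 ⊢
      exact h1
  have hcop : q.Coprime M := hq.coprime_iff_not_dvd.mpr hqM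
  have hQM : Q ∣ q * M := hQ.trans hN₀
  have : NeZero M' := ⟨hM'0⟩
  have : NeZero M := ⟨hM⟩
  obtain ⟨n₀, hn₀q, hn₀⟩ := hne
  obtain ⟨d, n', rfl, hn'M, hdM⟩ := exists_eq_mul_coprime M n₀ (fun h => hn₀q (h ▸ dvd_zero q))
  have hqd : ¬ q ∣ d := fun h => hn₀q (h.mul_right n')
  have hd0 : d ≠ 0 := fun h => hqd (h ▸ dvd_zero q)
  have hqn' : ¬ q ∣ n' := fun h => hn₀q (dvd_mul_of_dvd_right h d)
  have hcompare := hcmp d hdM hqd
  have hcop' : ∀ m : ℕ, ¬ q ∣ m → m.Coprime M → m.Coprime (q * M) := fun m h1 h2 =>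
    Nat.Coprime.mul_right (hq.coprime_iff_not_dvd.mpr h1).symm h2
  have had : a d ≠ 0 := fun h => by
    have h1 := hcompare n' (hcop' n' hqn' hn'M)
    rw [h, zero_mul] at h1
    have hu : IsUnit (n' : ZMod Q) := by
      rw [ZMod.isUnit_iff_coprime]
      exact (hcop' n' hqn' hn'M).coprime_dvd_right hQM
    exact hn₀ ((mul_eq_zero.mp h1).resolve_left (by
      rw [← hu.unit_spec]
      exact (IsUnit.map ψ hu.unit.isUnit).ne_zero))
  obtain ⟨φ₀, hφ₀⟩ := exists_local_factorisation hcop hQM ψ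
  set lψ := localChar hcop hQM ψ with hlψ
  have hlψd : lψ (d : ZMod q) ≠ 0 :=
    (IsUnit.map lψ (by
      rw [ZMod.isUnit_iff_coprime]
      exact (hq.coprime_iff_not_dvd.mpr hqd).symm)).ne_zero
  have hF' : ∀ γ : SL(2, ℤ), (q : ℤ) * (M * d : ℕ) ∣ γ 1 0 →
      ((M * d : ℕ) : ℤ) ∣ γ 0 0 - 1 → ((M * d : ℕ) : ℤ) ∣ γ 1 1 - 1 →
      F ∣[(2 : ℤ)] mapGL ℝ γ = localChar hcop hQM χ ((γ 1 1 : ℤ) : ZMod q) • F := by
    intro γ h1 h2 h3
    have h1' : ((q * M : ℕ) : ℤ) ∣ γ 1 0 := by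
      refine dvd_trans ?_ h1
      exact ⟨d, by push_cast; ring⟩
    have h3' : (M : ℤ) ∣ γ 1 1 - 1 := dvd_trans ⟨d, by push_cast; ring⟩ h3
    have hdet : γ 0 0 * γ 1 1 - γ 0 1 * γ 1 0 = 1 := by
      rw [← Matrix.det_fin_two]
      exact γ.2
    have hu : IsUnit ((γ 1 1 : ℤ) : ZMod q) := by
      have e := congrArg (Int.cast : ℤ → ZMod q) hdet
      push_cast at e
      rw [(ZMod.intCast_zmod_eq_zero_iff_dvd _ _).mpr (dvd_trans (dvd_mul_right _ _) h1),
        mul_zero, sub_zero] at e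
      exact IsUnit.of_mul_eq_one_right _ e
    rw [hF γ ((Int.natCast_dvd_natCast.mpr hN₀).trans h1'),
      localChar_apply_intCast hcop hQM χ h3' hu]
  have hG' : ∀ γ : SL(2, ℤ), (q : ℤ) * (M * d : ℕ) ∣ γ 1 0 →
      ((M * d : ℕ) : ℤ) ∣ γ 0 0 - 1 → ((M * d : ℕ) : ℤ) ∣ γ 1 1 - 1 →
      (⇑g ∣[(2 : ℤ)] degGL hd0) ∣[(2 : ℤ)] mapGL ℝ γ = ⇑g ∣[(2 : ℤ)] degGL hd0 := by
    intro γ h1 _ _
    obtain ⟨c, hc⟩ := h1
    push_cast at hc
    have hdet : γ 0 0 * γ 1 1 - γ 0 1 * γ 1 0 = 1 := by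
      rw [← Matrix.det_fin_two]
      exact γ.2
    obtain ⟨γ', hγ'⟩ : ∃ γ' : SL(2, ℤ), (γ' : Matrix (Fin 2) (Fin 2) ℤ) =
        !![γ 0 0, (d : ℤ) * γ 0 1; (q : ℤ) * M * c, γ 1 1] :=
      ⟨mkZ _ _ _ _ (by linear_combination hdet + γ 0 1 * hc), rfl⟩
    have hmul : degGL hd0 * mapGL ℝ γ = mapGL ℝ γ' * degGL hd0 := by
      have hcR := congrArg (Int.cast : ℤ → ℝ) hc
      push_cast at hcR
      ext r t
      fin_cases r <;> fin_cases t <;>
        simp [hγ', hcR, Matrix.mul_apply, Fin.sum_univ_two,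
          Matrix.SpecialLinearGroup.map_apply_coe] <;> ring
    have hM'c : (M' : ℤ) ∣ γ' 1 0 := by
      simp [hγ']
      exact dvd_mul_of_dvd_left (by exact_mod_cast Int.natCast_dvd_natCast.mpr hM'qM) c
    rw [← SlashAction.slash_mul, hmul, SlashAction.slash_mul,
      SlashInvariantFormClass.slash_action_eq g _ (Fermat.Agent.Newforms.mapGL_mem_gamma0GL hM'c)]
  have hga : HasExp 1 ⇑g fun n => qCoeff ⇑g n :=
    hasExp_of_modularFormClass g one_pos (CongruenceSubgroup.one_mem_strictPeriods_Gamma0 M')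
  have : NeZero (M * d) := ⟨mul_ne_zero hM hd0⟩
  have hqMd : ¬ q ∣ M * d := fun h => (hq.dvd_mul.mp h).elim hqM hqd
  let P : ZMod (M * d) → Prop := fun r => d ∣ r.val ∧ (r.val / d).Coprime M
  have hP : ∀ n : ℕ, P (n : ZMod (M * d)) ↔ d ∣ n ∧ (n / d).Coprime M := fun n => by
    simp only [P, ZMod.val_natCast, Nat.dvd_mod_iff (dvd_mul_left d M), Nat.mod_mul_left_div_self,
      ← ZMod.isUnit_iff_coprime, ZMod.natCast_mod]
  have key := mul_coeff_eq_zero_of_twist_eq (D := M * d) (mul_ne_zero hM hd0) hqMd hqMd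
    (hχq hcop hQM) hF' hG' hFa (hasExp_degGL hga hd0) (ψ := fun r => lψ r) (MulChar.map_zero _)
    (fun r => if P r then (d : ℂ) * φ₀ ((r.val / d : ℕ) : ZMod M) / (lψ (d : ZMod q) * a d) else 0)
    (fun r => if P r then 1 else 0) (fun n hqn => by
      simp only [hP, ZMod.val_natCast, Nat.mod_mul_left_div_self, ZMod.natCast_mod]
      split_ifs with h h'
      · obtain ⟨⟨m, rfl⟩, hm⟩ := h
        rw [Nat.mul_div_cancel_left m (Nat.pos_of_ne_zero hd0)] at hm ⊢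
        have hmc := hcop' m (fun h' => hqn (dvd_mul_of_dvd_right h' d)) hm
        have e1 := hcompare m hmc
        rw [← hφ₀ m hmc] at e1
        rw [Nat.cast_mul, map_mul]
        field_simp
        linear_combination e1
      · exact absurd h.1 h'
      · ring
      · ring) d hqd
  simp only [hP, dvd_refl, Nat.div_self (Nat.pos_of_ne_zero hd0), Nat.coprime_one_left_iff,
    and_self, if_true, one_mul, hg.qCoeff_one, mul_one] at key
  exact hd0 (by exact_mod_cast key)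

section PrimeLevel

variable {q M : ℕ}

/-- The component at `q` of a character of conductor dividing `q` is the character itself. -/
theorem localChar_self (h : q.Coprime M) (χ : DirichletCharacter ℂ q) :
    localChar h (dvd_mul_right q M) χ = χ := by
  refine MulChar.ext fun r => ?_
  change χ.changeLevel (dvd_mul_right q M) (crtLift h (r : ZMod q)) = χ r
  have hu : IsUnit (crtLift h (r : ZMod q)) := r.isUnit.map (crtLift h)
  rw [← hu.unit_spec, DirichletCharacter.changeLevel_eq_cast_of_dvd χ _ hu.unit, IsUnit.unit_spec]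
  congr 1
  change ((ZMod.chineseRemainder h).symm ((r : ZMod q), (1 : ZMod M))).cast = _
  have := congrArg Prod.fst
    ((ZMod.chineseRemainder h).apply_symm_apply ((r : ZMod q), (1 : ZMod M)))
  simpa [ZMod.chineseRemainder] using this

end PrimeLevel

end Fermat.Agent.TWTwist
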