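import Fermat.Agent.TWTwist.PadicEnd
import Fermat.Agent.Patching.GroupAlgebra

/-!
# Inertia operators and diamond operators generate the same augmentation submodule

`M` is free over `Λ = 𝒪[Δ]`, `D = δ γⱼ` and `S` commutes with `Λ`.  If `S - 1` maps `M` into
`(D - 1)M`, has `p`-power order and is injective modulo the image of `1 + D + ⋯ + D^(p-1)`, then
`(S - 1)M = (D - 1)M`.
-/

set_option autoImplicit false

namespace Fermat.Agent.TWTwist

open Fermat.Agent.Patching

variable {O : Type} [CommRing O] {p r : ℕ} [Fact p.Prime] {v : Fin r → ℕ}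

/-- The element `1 + γⱼ + ⋯ + γⱼ^(p-1)` of the group algebra. -/
noncomputable def cycloElt (O : Type) [CommRing O] (p : ℕ) {r : ℕ} (v : Fin r → ℕ) (j : Fin r) :
    GroupAlgV O p v :=
  ∑ i ∈ Finset.range p, MonoidAlgebra.of O _ (genV j) ^ i

theorem val_neg_one_eq (n : ℕ) [NeZero n] : (-1 : ZMod n).val = n - 1 := by
  obtain ⟨m, rfl⟩ := Nat.exists_eq_add_one_of_ne_zero (NeZero.ne n)
  rw [ZMod.val_neg_one, Nat.add_sub_cancel]

/-- The multiples of `1 + γⱼ + ⋯ + γⱼ^(p-1)` in the group algebra are `p`-saturated. -/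
theorem exists_cycloElt_mul_of_natCast_mul (htf : ∀ a : O, (p : O) * a = 0 → a = 0) {j : Fin r}
    (hv : v j ≠ 0) {x y : GroupAlgV O p v}
    (h : (p : GroupAlgV O p v) * x = cycloElt O p v j * y) :
    ∃ y', x = cycloElt O p v j * y' := by
  classical
  set γ : GroupAlgV O p v := MonoidAlgebra.of O _ (genV j) with hγ
  set c : ZMod (p ^ v j) →+* ZMod p := ZMod.castHom (dvd_pow_self p hv) (ZMod p)
  set cls : DeltaV p v → ZMod p := fun g => c (g j).toAdd with hcls
  set base : DeltaV p v → DeltaV p v := fun g => Function.update g j 1 with hbase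
  let F : DeltaV p v → ZMod p → GroupAlgV O p v := fun g' t =>
    if t = -1 then -∑ i ∈ Finset.range (p - 1), MonoidAlgebra.of O _ g' * γ ^ i
    else MonoidAlgebra.of O _ g' * γ ^ t.val
  set ρ : GroupAlgV O p v →ₗ[O] GroupAlgV O p v :=
    (MonoidAlgebra.basis (DeltaV p v) O).constr O (fun g => F (base g) (cls g)) with hρ
  have hρof : ∀ g, ρ (MonoidAlgebra.of O _ g) = F (base g) (cls g) := fun g => by
    have := (MonoidAlgebra.basis (DeltaV p v) O).constr_basis O
      (fun g => F (base g) (cls g)) g
    rwa [MonoidAlgebra.basis_apply] at this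
  have hp : p.Prime := Fact.out
  have hΦ : cycloElt O p v j * (γ - 1) = γ ^ p - 1 := geom_sum_mul γ p
  have hdvdp : cycloElt O p v j ∣ γ ^ p - 1 := ⟨_, hΦ.symm⟩
  have hsplit : ∀ g : DeltaV p v, g = base g * genV j ^ (g j).toAdd.val := by
    intro g
    funext i
    by_cases hi : i = j
    · subst hi
      rw [Pi.mul_apply, Pi.pow_apply]
      simp only [hbase, genV, Function.update_self, Pi.mulSingle_eq_same, one_mul]
      rw [← ofAdd_nsmul, nsmul_eq_mul, mul_one, ZMod.natCast_zmod_val, ofAdd_toAdd]
    · simp [hbase, genV, hi]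
  -- `x - ρ x` is a multiple of the cyclotomic element
  have hdiff : ∀ x, cycloElt O p v j ∣ x - ρ x := by
    intro x
    induction x using MonoidAlgebra.induction_on with
    | of g =>
      rw [hρof]
      set m := (g j).toAdd.val with hm
      have hg : MonoidAlgebra.of O _ g = MonoidAlgebra.of O _ (base g) * γ ^ m := by
        conv_lhs => rw [hsplit g]
        rw [map_mul, map_pow]
      have hcm : cls g = (m : ZMod p) := by
        simp only [hcls, hm]
        conv_lhs => rw [← ZMod.natCast_zmod_val (g j).toAdd]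
        rw [map_natCast]
      have hmod : cycloElt O p v j ∣ γ ^ m - γ ^ (cls g).val := by
        rw [hcm, ZMod.val_natCast]
        rw [show γ ^ m = γ ^ (m % p + p * (m / p)) by rw [Nat.mod_add_div]]
        rw [pow_add, pow_mul, ← mul_sub_one]
        exact Dvd.dvd.mul_left (hdvdp.trans (sub_one_dvd_pow_sub_one _ _)) _
      rw [hg]
      by_cases hc : cls g = -1
      · simp only [F, if_pos hc, sub_neg_eq_add, ← Finset.mul_sum, ← mul_add]
        refine Dvd.dvd.mul_left ?_ _
        have hval : (cls g).val = p - 1 := by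
          rw [hc, val_neg_one_eq]
        have hsum : cycloElt O p v j = γ ^ (p - 1) + ∑ i ∈ Finset.range (p - 1), γ ^ i := by
          have := Finset.sum_range_succ (fun i => γ ^ i) (p - 1)
          rw [Nat.sub_add_cancel hp.one_le, add_comm] at this
          exact this
        have he : γ ^ m + ∑ i ∈ Finset.range (p - 1), γ ^ i =
            (γ ^ m - γ ^ (cls g).val) + cycloElt O p v j := by
          rw [hsum, hval]; abel
        rw [he]
        exact dvd_add hmod dvd_rfl
      · simp only [F, if_neg hc, ← mul_sub]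
        exact Dvd.dvd.mul_left hmod _
    | add a b ha hb => rw [map_add, add_sub_add_comm]; exact dvd_add ha hb
    | smul a b hb =>
      rw [map_smul, ← smul_sub, Algebra.smul_def]
      exact Dvd.dvd.mul_left hb _
  -- `ρ` kills the multiples of the cyclotomic element
  have hkill : ∀ z, ρ (cycloElt O p v j * z) = 0 := by
    intro z
    induction z using MonoidAlgebra.induction_on with
    | of g =>
      have hterm : ∀ i : ℕ, ρ (γ ^ i * MonoidAlgebra.of O _ g) = F (base g) (cls g + i) := by
        intro i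
        rw [hγ, ← map_pow, ← map_mul, hρof]
        congr 1
        · funext l
          by_cases hl : l = j
          · subst hl; simp [hbase]
          · simp [hbase, genV, hl]
        · simp [hcls, genV, add_comm]
      have hzero : ∀ g', ∑ t : ZMod p, F g' t = 0 := by
        intro g'
        rw [← Finset.add_sum_erase _ _ (Finset.mem_univ (-1 : ZMod p))]
        simp only [F, if_pos, neg_add_eq_zero]
        refine Finset.sum_bij (fun i _ => (i : ZMod p)) ?_ ?_ ?_ ?_
        · intro i hi
          rw [Finset.mem_range] at hi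
          refine Finset.mem_erase.mpr ⟨fun h' => ?_, Finset.mem_univ _⟩
          have h2 := congrArg ZMod.val h'
          rw [ZMod.val_natCast, Nat.mod_eq_of_lt (by omega), val_neg_one_eq] at h2
          omega
        · intro a ha b hb hab
          rw [Finset.mem_range] at ha hb
          have h2 := congrArg ZMod.val hab
          rwa [ZMod.val_natCast, ZMod.val_natCast, Nat.mod_eq_of_lt (by omega),
            Nat.mod_eq_of_lt (by omega)] at h2
        · intro t ht
          have hne := (Finset.mem_erase.mp ht).1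
          refine ⟨t.val, Finset.mem_range.mpr ?_, ZMod.natCast_zmod_val t⟩
          have hlt := t.val_lt
          by_contra hge
          refine hne (ZMod.val_injective p ?_)
          rw [val_neg_one_eq]
          omega
        · intro i hi
          rw [Finset.mem_range] at hi
          have hne : ((i : ZMod p)) ≠ -1 := fun h' => by
            have h2 := congrArg ZMod.val h'
            rw [ZMod.val_natCast, Nat.mod_eq_of_lt (by omega), val_neg_one_eq] at h2
            omega
          rw [if_neg hne, ZMod.val_natCast, Nat.mod_eq_of_lt (by omega)]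
      rw [cycloElt, Finset.sum_mul, map_sum]
      simp only [← hγ, hterm]
      rw [← hzero (base g), ← Equiv.sum_comp (Equiv.addLeft (cls g)) (F (base g))]
      simp only [Equiv.coe_addLeft]
      refine Finset.sum_bij (fun i _ => (i : ZMod p)) (fun _ _ => Finset.mem_univ _) ?_ ?_ ?_
      · intro a ha b hb hab
        rw [Finset.mem_range] at ha hb
        have h2 := congrArg ZMod.val hab
        rwa [ZMod.val_natCast, ZMod.val_natCast, Nat.mod_eq_of_lt ha, Nat.mod_eq_of_lt hb] at h2
      · intro t _
        exact ⟨t.val, Finset.mem_range.mpr t.val_lt, ZMod.natCast_zmod_val t⟩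
      · intro i _; rfl
    | add a b ha hb => rw [mul_add, map_add, ha, hb, add_zero]
    | smul a b hb => rw [mul_smul_comm, map_smul, hb, smul_zero]
  have hρx : ρ x = 0 := by
    have h1 : (p : O) • ρ x = 0 := by
      rw [← map_smul, Nat.cast_smul_eq_nsmul, nsmul_eq_mul, h, hkill]
    refine MonoidAlgebra.coeff_injective (Finsupp.ext fun g => htf _ ?_)
    simpa using congrArg (fun z => z.coeff g) h1
  obtain ⟨y', hy'⟩ := hdiff x
  exact ⟨y', by rwa [hρx, sub_zero] at hy'⟩

variable {M : Type} [AddCommGroup M] [Module O M] {d : ℕ}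

/-- `c ↦ ∑ cᵢ bᵢ`, for `b` a family in a module with action `δ` of `Δ`. -/
noncomputable def diamondComb (δ : DeltaV p v →* Module.End O M) (b : Fin d → M) :
    (Fin d → GroupAlgV O p v) →ₗ[O] M where
  toFun c := ∑ i, MonoidAlgebra.lift O (Module.End O M) (DeltaV p v) δ (c i) (b i)
  map_add' c c' := by simp [Finset.sum_add_distrib]
  map_smul' a c := by simp [Finset.smul_sum]

omit [Fact p.Prime] in
/-- `diamondComb` is linear over the group algebra. -/
theorem diamondComb_smul (δ : DeltaV p v →* Module.End O M) (b : Fin d → M) (x : GroupAlgV O p v)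
    (c : Fin d → GroupAlgV O p v) :
    diamondComb δ b (x • c) =
      MonoidAlgebra.lift O (Module.End O M) (DeltaV p v) δ x (diamondComb δ b c) := by
  simp [diamondComb, map_sum, Module.End.mul_apply]

omit [Fact p.Prime] in
/-- An endomorphism commuting with every `δ g` commutes with the group algebra. -/
theorem commute_lift_of_commute (δ : DeltaV p v →* Module.End O M) {S : Module.End O M}
    (hcomm : ∀ g, Commute S (δ g)) (x : GroupAlgV O p v) :
    Commute S (MonoidAlgebra.lift O (Module.End O M) (DeltaV p v) δ x) := by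
  induction x using MonoidAlgebra.induction_on with
  | of g => rw [MonoidAlgebra.lift_of]; exact hcomm g
  | add a b ha hb => rw [map_add]; exact ha.add_right hb
  | smul a b hb => rw [map_smul]; exact hb.smul_right a

omit [Fact p.Prime] in
/-- On a free module, `(S - 1) M ⊆ (δⱼ - 1) M` gives a factor `A` with `S - 1 = (δⱼ - 1) A`
commuting with `Δ`. -/
theorem exists_commute_factor (δ : DeltaV p v →* Module.End O M) (b : Fin d → M)
    (hb : Function.Bijective (diamondComb δ b)) (j : Fin r) (S : Module.End O M)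
    (hcomm : ∀ g, Commute S (δ g)) (hle : ∀ x, ∃ y, S x - x = δ (genV j) y - y) :
    ∃ A : Module.End O M, (∀ g, Commute A (δ g)) ∧ S - 1 = (δ (genV j) - 1) * A := by
  let e := LinearEquiv.ofBijective (diamondComb δ b) hb
  choose a ha using fun i => hle (b i)
  set A : Module.End O M := diamondComb δ a ∘ₗ e.symm.toLinearMap with hA
  have hAe : ∀ c, A (diamondComb δ b c) = diamondComb δ a c := fun c => by
    rw [hA, LinearMap.comp_apply, show diamondComb δ b c = e c from rfl]
    simp
  refine ⟨A, fun g => LinearMap.ext fun m => ?_, LinearMap.ext fun m => ?_⟩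
  · obtain ⟨c, rfl⟩ := hb.2 m
    rw [Module.End.mul_apply, Module.End.mul_apply, ← MonoidAlgebra.lift_of (R := O) δ g,
      ← diamondComb_smul, hAe, hAe, diamondComb_smul]
  · obtain ⟨c, rfl⟩ := hb.2 m
    rw [Module.End.mul_apply, hAe]
    simp only [diamondComb, LinearMap.coe_mk, AddHom.coe_mk, map_sum]
    refine Finset.sum_congr rfl fun i _ => ?_
    have hc1 := LinearMap.congr_fun
      ((commute_lift_of_commute δ hcomm (c i)).sub_left (Commute.one_left _)).eq (b i)
    have hc2 := LinearMap.congr_fun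
      ((commute_lift_of_commute δ (fun g => (Commute.all (genV j) g).map δ) (c i)).sub_left
        (Commute.one_left _)).eq (a i)
    rw [Module.End.mul_apply, Module.End.mul_apply] at hc1 hc2
    rw [hc1, hc2, LinearMap.sub_apply, LinearMap.sub_apply, Module.End.one_apply,
      Module.End.one_apply, ha]

/-- In a free module the image of `1 + δⱼ + ⋯ + δⱼ^(p-1)` is `p`-saturated. -/
theorem exists_eq_sum_pow_of_smul (htf : ∀ a : O, (p : O) * a = 0 → a = 0)
    (δ : DeltaV p v →* Module.End O M) (b : Fin d → M)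
    (hb : Function.Bijective (diamondComb δ b)) {j : Fin r} (hv : v j ≠ 0) {x y : M}
    (h : (p : O) • x = (∑ i ∈ Finset.range p, δ (genV j) ^ i) y) :
    ∃ z, x = (∑ i ∈ Finset.range p, δ (genV j) ^ i) z := by
  have hΦ : ∑ i ∈ Finset.range p, δ (genV j) ^ i =
      MonoidAlgebra.lift O (Module.End O M) (DeltaV p v) δ (cycloElt O p v j) := by
    simp only [cycloElt, map_sum, map_pow, MonoidAlgebra.lift_of]
  rw [hΦ] at h ⊢
  obtain ⟨c, rfl⟩ := hb.2 x
  obtain ⟨c', rfl⟩ := hb.2 y
  rw [← diamondComb_smul, ← map_smul] at h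
  have h' := hb.1 h
  choose z hz using fun i => exists_cycloElt_mul_of_natCast_mul htf hv
    (x := c i) (y := c' i) (by
      have := congrFun h' i
      rw [Pi.smul_apply, Pi.smul_apply, smul_eq_mul, Nat.cast_smul_eq_nsmul, nsmul_eq_mul] at this
      exact this)
  refine ⟨diamondComb δ b z, ?_⟩
  rw [← diamondComb_smul]
  exact congrArg (diamondComb δ b) (funext fun i => hz i)

/-- The factor is surjective modulo the image of `Φ = 1 + D + ⋯ + D^(p-1)`, by
`isUnit_of_sub_one_eq` on the quotient. -/
theorem exists_eq_add_sum_pow [IsLocalRing O] [Module.Finite O M] (hp2 : p ≠ 2)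
    (hpO : (p : O) ∈ IsLocalRing.maximalIdeal O) {D S A : Module.End O M} {k : ℕ}
    (hS : S ^ p ^ k = 1) (hSD : Commute S D) (hAD : Commute A D) (hSA : S - 1 = (D - 1) * A)
    (hsat : ∀ x y, (p : O) • x = (∑ i ∈ Finset.range p, D ^ i) y →
      ∃ z, x = (∑ i ∈ Finset.range p, D ^ i) z)
    (hinj : ∀ x, (∃ y, S x - x = ∑ i ∈ Finset.range p, (D ^ i) y) →
      ∃ y, x = ∑ i ∈ Finset.range p, (D ^ i) y) (z : M) :
    ∃ u t, z = A u + (∑ i ∈ Finset.range p, D ^ i) t := by
  set Φ : Module.End O M := ∑ i ∈ Finset.range p, D ^ i with hΦ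
  set W := LinearMap.range Φ with hW
  have hmem : ∀ x, x ∈ W ↔ ∃ y, x = ∑ i ∈ Finset.range p, (D ^ i) y := fun x => by
    simp [hW, hΦ, LinearMap.mem_range, eq_comm]
  have hstable : ∀ f : Module.End O M, Commute f D → W ≤ W.comap f := by
    rintro f hf _ ⟨y, rfl⟩
    exact ⟨f y, (LinearMap.congr_fun (Commute.sum_right _ _ _ fun i _ => hf.pow_right i).eq y).symm⟩
  let q (f : Module.End O M) (hf : Commute f D) : Module.End O (M ⧸ W) :=
    W.mapQ W f (hstable f hf)
  have hqap : ∀ f hf x, q f hf (Submodule.Quotient.mk x) = Submodule.Quotient.mk (f x) :=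
    fun _ _ _ => rfl
  have hqpow : ∀ f hf (n : ℕ) x, (q f hf ^ n) (Submodule.Quotient.mk x) =
      Submodule.Quotient.mk ((f ^ n) x) := fun f hf n => by
    induction n with
    | zero => simp
    | succ n ih =>
      intro x
      rw [pow_succ', Module.End.mul_apply, ih, hqap f hf, pow_succ', Module.End.mul_apply]
  have htfN : ∀ x : M ⧸ W, (p : O) • x = 0 → x = 0 := by
    intro x hx
    obtain ⟨x, rfl⟩ := Submodule.Quotient.mk_surjective W x
    rw [← Submodule.Quotient.mk_smul, Submodule.Quotient.mk_eq_zero, hW, LinearMap.mem_range] at hx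
    obtain ⟨y, hy⟩ := hx
    obtain ⟨z, hz⟩ := hsat x y hy.symm
    rw [Submodule.Quotient.mk_eq_zero, hW, LinearMap.mem_range]
    exact ⟨z, hz.symm⟩
  have hunit : IsUnit (q A hAD) := by
    refine isUnit_of_sub_one_eq (k := k) (d := q D (Commute.refl D)) (s := q S hSD) Fact.out hp2
      hpO htfN ?_ ?_ ?_ ?_ ?_
    · refine Submodule.linearMap_qext _ (LinearMap.ext fun x => ?_)
      simp only [LinearMap.comp_apply, Submodule.mkQ_apply, LinearMap.sum_apply, hqpow,
        LinearMap.zero_apply]
      simp only [← Submodule.mkQ_apply, ← map_sum]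
      rw [Submodule.mkQ_apply, Submodule.Quotient.mk_eq_zero, hmem]
      exact ⟨x, rfl⟩
    · refine Submodule.linearMap_qext _ (LinearMap.ext fun x => ?_)
      simp [hqpow, hS]
    · refine Submodule.linearMap_qext _ (LinearMap.ext fun x => ?_)
      have := LinearMap.congr_fun hSA x
      simp only [LinearMap.sub_apply, Module.End.one_apply, Module.End.mul_apply] at this
      simp only [LinearMap.comp_apply, Submodule.mkQ_apply, LinearMap.sub_apply,
        Module.End.one_apply, Module.End.mul_apply, hqap]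
      rw [← Submodule.Quotient.mk_sub, ← Submodule.Quotient.mk_sub, this]
    · refine Submodule.linearMap_qext _ (LinearMap.ext fun x => ?_)
      simp only [LinearMap.comp_apply, Submodule.mkQ_apply, Module.End.mul_apply, hqap]
      exact congrArg Submodule.Quotient.mk (LinearMap.congr_fun hAD.eq.symm x)
    · intro x hx
      obtain ⟨x, rfl⟩ := Submodule.Quotient.mk_surjective W x
      rw [LinearMap.sub_apply, Module.End.one_apply, hqap S hSD, ← Submodule.Quotient.mk_sub,
        Submodule.Quotient.mk_eq_zero, hmem] at hx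
      rw [Submodule.Quotient.mk_eq_zero, hmem]
      exact hinj x hx
  obtain ⟨u, hu⟩ := ((Module.End.isUnit_iff _).mp hunit).2 (Submodule.Quotient.mk z)
  obtain ⟨u, rfl⟩ := Submodule.Quotient.mk_surjective W u
  rw [hqap A hAD, eq_comm, Submodule.Quotient.eq, hW, LinearMap.mem_range] at hu
  obtain ⟨t, ht⟩ := hu
  exact ⟨u, t, by rw [ht, add_sub_cancel]⟩

/-- Surjectivity modulo the image of `Φ` gives surjectivity: `Φ ≡ (D - 1)^(p-1)` modulo `p` and
`D - 1` is nilpotent modulo `p`. -/
theorem surjective_of_eq_add_sum_pow [IsLocalRing O] [Module.Finite O M] (hp2 : p ≠ 2)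
    (hpO : (p : O) ∈ IsLocalRing.maximalIdeal O) {D A : Module.End O M} {e : ℕ}
    (hD : D ^ p ^ e = 1) (hAD : Commute A D)
    (h : ∀ z, ∃ u t, z = A u + (∑ i ∈ Finset.range p, D ^ i) t) : Function.Surjective A := by
  obtain ⟨Wc, hWc⟩ := exists_geom_sum_shift (Fact.out : p.Prime)
  set T := D - 1 with hT
  have hΦT : ∀ y, ∃ z, (∑ i ∈ Finset.range p, D ^ i) y = (T ^ (p - 1)) y + (p : O) • z := by
    intro y
    refine ⟨(1 + T * Polynomial.aeval T Wc) y, ?_⟩
    have h1 := hWc _ T
    rw [show 1 + T = D by rw [hT, add_sub_cancel]] at h1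
    rw [h1, LinearMap.add_apply, Module.End.mul_apply, Module.End.natCast_apply,
      Nat.cast_smul_eq_nsmul]
  have hAT : Commute A T := hAD.sub_right (Commute.one_right A)
  have hstep : ∀ (n : ℕ) x, ∃ y z w, x = A y + (T ^ n) z + (p : O) • w := by
    intro n
    induction n with
    | zero => intro x; exact ⟨0, x, 0, by simp⟩
    | succ n ih =>
      intro x
      obtain ⟨y, z, w, rfl⟩ := ih x
      obtain ⟨u, t, rfl⟩ := h z
      obtain ⟨z', hz'⟩ := hΦT t
      refine ⟨y + (T ^ n) u, (T ^ (p - 2)) t, w + (T ^ n) z', ?_⟩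
      have hp1 : n + (p - 1) = n + 1 + (p - 2) := by
        have := (Fact.out : p.Prime).two_le
        omega
      have hc : (T ^ n) (A u) = A ((T ^ n) u) :=
        (LinearMap.congr_fun (hAT.pow_right n).eq u).symm
      have hpw : (T ^ n) ((T ^ (p - 1)) t) = (T ^ (n + 1)) ((T ^ (p - 2)) t) := by
        rw [← Module.End.mul_apply, ← Module.End.mul_apply, ← pow_add, ← pow_add, hp1]
      rw [hz', map_add (T ^ n), map_add (T ^ n), map_smul, hc, hpw, map_add A, smul_add]
      abel
  have hTnil : ∀ z, ∃ w, (T ^ p ^ e) z = (p : O) • w := by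
    obtain ⟨c, hc⟩ := exists_add_pow_prime_pow_eq (Fact.out : p.Prime)
      (-1 : Polynomial ℤ) Polynomial.X e
    intro z
    have h1 := congrArg (Polynomial.aeval D) hc
    simp only [map_pow, map_add, map_mul, map_neg, map_one, Polynomial.aeval_X, map_natCast,
      (((Fact.out : p.Prime).odd_of_ne_two hp2).pow).neg_one_pow] at h1
    rw [hD, neg_add_cancel, zero_add, show -1 + D = T by rw [hT]; abel] at h1
    simp only [mul_assoc] at h1
    rw [h1, Module.End.mul_apply, Module.End.natCast_apply]
    exact ⟨_, (Nat.cast_smul_eq_nsmul O _ _).symm⟩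
  exact surjective_of_sup_smul_eq_top A hpO fun x => by
    obtain ⟨y, z, w, hx⟩ := hstep (p ^ e) x
    obtain ⟨w', hw'⟩ := hTnil z
    exact ⟨y, w' + w, by rw [hx, hw', smul_add, add_assoc]⟩

/-- **The augmentation lemma.** -/
theorem exists_bijective_factor [IsLocalRing O] (hp2 : p ≠ 2)
    (hpO : (p : O) ∈ IsLocalRing.maximalIdeal O) (htf : ∀ a : O, (p : O) * a = 0 → a = 0)
    (δ : DeltaV p v →* Module.End O M) (b : Fin d → M)
    (hb : Function.Bijective fun c : Fin d → GroupAlgV O p v =>
      ∑ i, MonoidAlgebra.lift O (Module.End O M) (DeltaV p v) δ (c i) (b i))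
    {j : Fin r} (hv : v j ≠ 0) (S : Module.End O M) {k : ℕ} (hS : S ^ p ^ k = 1)
    (hcomm : ∀ g, Commute S (δ g))
    (hle : ∀ x, ∃ y, S x - x = δ (genV j) y - y)
    (hinj : ∀ x, (∃ y, S x - x = ∑ i ∈ Finset.range p, (δ (genV j) ^ i) y) →
      ∃ y, x = ∑ i ∈ Finset.range p, (δ (genV j) ^ i) y) :
    ∃ A : Module.End O M, Function.Bijective A ∧ (∀ g, Commute A (δ g)) ∧
      S - 1 = (δ (genV j) - 1) * A := by
  have hb' : Function.Bijective (diamondComb δ b) := hb
  obtain ⟨A, hAδ, hSA⟩ := exists_commute_factor δ b hb' j S hcomm hle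
  have : Module.Finite O M := Module.Finite.equiv (LinearEquiv.ofBijective _ hb')
  have hsurj : Function.Surjective A :=
    surjective_of_eq_add_sum_pow hp2 hpO (by rw [← map_pow, gen_pow_eq_one, map_one]) (hAδ _)
      (exists_eq_add_sum_pow hp2 hpO hS (hcomm _) (hAδ _) hSA
        (fun _ _ => exists_eq_sum_pow_of_smul htf δ b hb' hv) hinj)
  exact ⟨A, ⟨OrzechProperty.injective_of_surjective_endomorphism A hsurj, hsurj⟩, hAδ, hSA⟩

/-- Under the hypotheses of the augmentation lemma `(δⱼ - 1) M ⊆ (S - 1) M`, including the case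
`vⱼ = 0`. -/
theorem exists_sub_eq_of_diamond [IsLocalRing O] (hp2 : p ≠ 2)
    (hpO : (p : O) ∈ IsLocalRing.maximalIdeal O) (htf : ∀ a : O, (p : O) * a = 0 → a = 0)
    (δ : DeltaV p v →* Module.End O M) (b : Fin d → M)
    (hb : Function.Bijective fun c : Fin d → GroupAlgV O p v =>
      ∑ i, MonoidAlgebra.lift O (Module.End O M) (DeltaV p v) δ (c i) (b i))
    (j : Fin r) (S : Module.End O M) {k : ℕ} (hS : S ^ p ^ k = 1)
    (hcomm : ∀ g, Commute S (δ g))
    (hle : v j ≠ 0 → ∀ x, ∃ y, S x - x = δ (genV j) y - y)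
    (hinj : v j ≠ 0 → ∀ x, (∃ y, S x - x = ∑ i ∈ Finset.range p, (δ (genV j) ^ i) y) →
      ∃ y, x = ∑ i ∈ Finset.range p, (δ (genV j) ^ i) y) :
    ∀ z, ∃ w, δ (genV j) z - z = S w - w := by
  intro z
  by_cases hv : v j = 0
  · have h1 : (genV j : DeltaV p v) = 1 := by
      have := gen_pow_eq_one (ℓ := p) (v := v) j
      rwa [hv, pow_zero, pow_one] at this
    exact ⟨0, by simp [h1]⟩
  · obtain ⟨A, hA, -, hSA⟩ :=
      exists_bijective_factor hp2 hpO htf δ b hb hv S hS hcomm (hle hv) (hinj hv)
    obtain ⟨w, hw⟩ := hA.2 z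
    refine ⟨w, ?_⟩
    have := LinearMap.congr_fun hSA w
    rw [Module.End.mul_apply, hw, LinearMap.sub_apply, LinearMap.sub_apply, Module.End.one_apply,
      Module.End.one_apply] at this
    exact this.symm

end Fermat.Agent.TWTwist
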