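import Fermat.Prelude.Def_ModularForm_HeckeOperator
import Mathlib.Analysis.Fourier.ZMod
import Mathlib.NumberTheory.ModularForms.QExpansion

/-!
# Translations and Fourier filters on expansions at infinity
-/

set_option autoImplicit false

noncomputable section

open UpperHalfPlane ModularForm Function Filter Topology
open scoped MatrixGroups ModularForm

namespace Fermat.Agent.TWTwist

/-- `F(τ) = ∑ aₘ exp(2πi m τ / h)` on the whole upper half plane. -/
def HasExp (h : ℝ) (F : ℍ → ℂ) (a : ℕ → ℂ) : Prop :=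
  ∀ τ : ℍ, HasSum (fun m ↦ a m * Periodic.qParam h τ ^ m) (F τ)

/-- The `q`-expansion of a modular form. -/
theorem hasExp_of_modularFormClass {Φ : Type*} [FunLike Φ ℍ ℂ] {Γ : Subgroup (GL (Fin 2) ℝ)}
    {k : ℤ} [ModularFormClass Φ Γ k] [Fact (IsCusp .infty Γ)] (f : Φ) {h : ℝ} (hh : 0 < h)
    (hΓ : h ∈ Γ.strictPeriods) : HasExp h ⇑f fun n => (qExpansion h ⇑f).coeff n :=
  fun τ => ModularForm.hasSum_qExpansion f hh hΓ τ

/-- A function is determined by its expansion. -/
theorem HasExp.eq {h : ℝ} {F G : ℍ → ℂ} {a b : ℕ → ℂ} (hF : HasExp h F a) (hG : HasExp h G b)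
    (hab : ∀ n, a n = b n) : F = G := by
  funext τ
  have hF' := hF τ
  simp only [hab] at hF'
  exact hF'.unique (hG τ)

/-- The expansion of zero is zero. -/
theorem HasExp.coeff_eq_zero {h : ℝ} {a : ℕ → ℂ} (hh : 0 < h) (hF : HasExp h (0 : ℍ → ℂ) a)
    (n : ℕ) : a n = 0 := by
  have h0 : cuspFunction h (0 : ℍ → ℂ) = 0 := by
    simpa [cuspFunction, Periodic.cuspFunction]
      using! (tendsto_const_nhds.mono_left nhdsWithin_le_nhds).limUnder_eq
  let _ : FunLike (ℍ → ℂ) ℍ ℂ := ⟨id, fun _ _ h => h⟩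
  have := UpperHalfPlane.qExpansion_coeff_unique (f := (0 : ℍ → ℂ)) (c := a) hh
    (by change AnalyticAt ℂ (cuspFunction h (0 : ℍ → ℂ)) 0; rw [h0]; exact analyticAt_const)
    (fun τ => hF τ) n
  change a n = (qExpansion h (0 : ℍ → ℂ)).coeff n at this
  simpa [qExpansion_zero] using this

/-- Expansions commute with scalars. -/
theorem HasExp.smul {h : ℝ} {F : ℍ → ℂ} {a : ℕ → ℂ} (hF : HasExp h F a) (c : ℂ) :
    HasExp h (c • F) fun n => c * a n := fun τ => by
  simpa [mul_assoc] using (hF τ).mul_left c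

/-- Expansions commute with finite sums. -/
theorem HasExp.sum {h : ℝ} {ι : Type*} {s : Finset ι} {F : ι → ℍ → ℂ} {a : ι → ℕ → ℂ}
    (hF : ∀ i ∈ s, HasExp h (F i) (a i)) :
    HasExp h (∑ i ∈ s, F i) fun n => ∑ i ∈ s, a i n := fun τ => by
  have := hasSum_sum fun i hi => hF i hi τ
  simpa [Finset.sum_mul, Finset.sum_apply] using this

/-- The translation `τ ↦ τ + x`. -/
def transl (x : ℝ) : GL (Fin 2) ℝ := upperTriangularGL 1 x 1 (by norm_num)

@[simp] theorem val_transl (x : ℝ) :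
    ((transl x : GL (Fin 2) ℝ) : Matrix (Fin 2) (Fin 2) ℝ) = !![1, x; 0, 1] := rfl

theorem det_transl (x : ℝ) : ((transl x).det : ℝ) = 1 := by
  rw [Matrix.GeneralLinearGroup.val_det_apply, val_transl, Matrix.det_fin_two_of]
  ring

/-- Translations act trivially through `σ`. -/
theorem σ_transl (x : ℝ) : UpperHalfPlane.σ (transl x) = .refl ℝ ℂ := by
  rw [UpperHalfPlane.σ, if_pos (by rw [det_transl]; exact one_pos)]

/-- `transl x` acts by `τ ↦ τ + x`. -/
theorem coe_transl_smul (x : ℝ) (τ : ℍ) : ((transl x • τ : ℍ) : ℂ) = (τ : ℂ) + x := by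
  rw [UpperHalfPlane.coe_smul_of_det_pos (by rw [det_transl]; exact one_pos)]
  simp [UpperHalfPlane.num, UpperHalfPlane.denom]

/-- The slash action of a translation is composition with it. -/
theorem slash_transl_apply (k : ℤ) (x : ℝ) (F : ℍ → ℂ) (τ : ℍ) :
    (F ∣[k] transl x) τ = F (transl x • τ) := by
  rw [ModularForm.slash_apply, σ_transl, det_transl]
  simp [UpperHalfPlane.denom]

/-- Translation multiplies the `m`-th coefficient by an exponential. -/
theorem HasExp.transl {h : ℝ} {F : ℍ → ℂ} {a : ℕ → ℂ} (hF : HasExp h F a) (k : ℤ) (x : ℝ) :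
    HasExp h (F ∣[k] transl x)
      fun n => a n * Complex.exp (2 * Real.pi * Complex.I * x * n / h) := fun τ => by
  rw [slash_transl_apply]
  have := hF (TWTwist.transl x • τ)
  rw [coe_transl_smul] at this
  refine this.congr_fun fun n => ?_
  simp only [Periodic.qParam, ← Complex.exp_nat_mul]
  rw [mul_assoc, ← Complex.exp_add]
  congr 2
  ring

/-- The expansion after scaling by `q`. -/
theorem HasExp.scale {F : ℍ → ℂ} {a : ℕ → ℂ} (hF : HasExp 1 F a) (k : ℤ) {q : ℕ} (hq : q ≠ 0) :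
    HasExp q (F ∣[k] heckeMatrix q 0) fun n => (q : ℂ)⁻¹ * a n := fun τ => by
  rw [slash_heckeMatrix_apply k hq]
  have := (hF (heckeMatrix q 0 • τ)).mul_left (q : ℂ)⁻¹
  rw [coe_heckeMatrix_smul hq] at this
  refine this.congr_fun fun n => ?_
  simp only [Periodic.qParam, Nat.cast_zero, add_zero, Complex.ofReal_one, div_one,
    Complex.ofReal_natCast, mul_assoc, ← Complex.exp_nat_mul]
  congr 3
  ring

/-- Every function on `ZMod D` is the value at `n` of a combination of the characters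
`n ↦ ζ^(t n)`. -/
theorem exists_filter (D : ℕ) [NeZero D] (f : ZMod D → ℂ) :
    ∃ κ : ZMod D → ℂ, ∀ n : ℕ,
      ∑ t, κ t * Complex.exp (2 * Real.pi * Complex.I * ((t.val * n : ℕ) : ℂ) / D) = f n := by
  refine ⟨fun t => (D : ℂ)⁻¹ * ZMod.dft f t, fun n => ?_⟩
  have e : ∀ t : ZMod D, Complex.exp (2 * Real.pi * Complex.I * ((t.val * n : ℕ) : ℂ) / D)
      = ZMod.stdAddChar (t * (n : ZMod D)) := fun t => by
    have := ZMod.stdAddChar_coe (N := D) ((t.val * n : ℕ) : ℤ)
    simp only [Nat.cast_mul] at this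
    simpa using this.symm
  simp only [e]
  conv_rhs => rw [← (ZMod.dft (E := ℂ)).symm_apply_apply f, ZMod.invDFT_apply, smul_eq_mul,
    Finset.mul_sum]
  exact Finset.sum_congr rfl fun t _ => by rw [smul_eq_mul]; ring

end Fermat.Agent.TWTwist
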