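import Fermat.Agent.TWTwist.Twist

/-!
# The component at `q` of a character of level dividing `qM`
-/

set_option autoImplicit false

noncomputable section

open UpperHalfPlane ModularForm Function Matrix.SpecialLinearGroup CongruenceSubgroup ModularFormClass
open scoped MatrixGroups ModularForm

namespace Fermat.Agent.TWTwist

open Fermat.Agent.Newforms (IsCuspidalFun exists_newform)

section LocalPart

variable {q M Q : ℕ}

/-- `r ↦` the class congruent to `r` mod `q` and `1` mod `M`. -/
def crtLift (h : q.Coprime M) : ZMod q →* ZMod (q * M) where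
  toFun r := (ZMod.chineseRemainder h).symm (r, 1)
  map_one' := map_one (ZMod.chineseRemainder h).symm
  map_mul' r s := by rw [← map_mul, Prod.mk_mul_mk, one_mul]

/-- The component at `q` of a character of level dividing `q M`. -/
def localChar (h : q.Coprime M) (hQ : Q ∣ q * M) (χ : DirichletCharacter ℂ Q) :
    DirichletCharacter ℂ q where
  toFun r := (χ.changeLevel hQ) (crtLift h r)
  map_one' := by simp
  map_mul' r s := by simp [map_mul]
  map_nonunit' r hr := MulChar.map_nonunit _ fun hu => hr <| by
    have e : (ZMod.chineseRemainder h (crtLift h r)).1 = r := by simp [crtLift]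
    rw [← e]
    exact (Prod.isUnit_iff.mp (hu.map (ZMod.chineseRemainder h))).1

/-- On integers `≡ 1` modulo `M` a character agrees with its component at `q`. -/
theorem localChar_apply_intCast (h : q.Coprime M) (hQ : Q ∣ q * M) (χ : DirichletCharacter ℂ Q)
    {d : ℤ} (hd : (M : ℤ) ∣ d - 1) (hu : IsUnit ((d : ℤ) : ZMod q)) :
    χ (d : ZMod Q) = localChar h hQ χ (d : ZMod q) := by
  have hd1 : ((d : ℤ) : ZMod M) = 1 :=
    sub_eq_zero.mp (by simpa using (ZMod.intCast_zmod_eq_zero_iff_dvd _ _).mpr hd)
  have e : crtLift h (d : ZMod q) = (d : ZMod (q * M)) := by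
    refine (ZMod.chineseRemainder h).injective ?_
    simp [crtLift, hd1, map_intCast, Prod.ext_iff]
  have hu' : IsUnit ((d : ℤ) : ZMod (q * M)) := by
    rw [← e]
    exact hu.map (crtLift h)
  change _ = χ.changeLevel hQ (crtLift h _)
  rw [e, ← hu'.unit_spec, DirichletCharacter.changeLevel_eq_cast_of_dvd χ hQ hu'.unit, IsUnit.unit_spec]
  congr 1
  simp [ZMod.cast_intCast hQ]

/-- A character of level dividing `qM` is, at integers prime to `qM`, its component at `q`
times a function modulo `M`. -/
theorem exists_local_factorisation (h : q.Coprime M) (hQ : Q ∣ q * M)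
    (ψ : DirichletCharacter ℂ Q) :
    ∃ φ : ZMod M → ℂ, ∀ n : ℕ, n.Coprime (q * M) →
      localChar h hQ ψ (n : ZMod q) * φ (n : ZMod M) = ψ (n : ZMod Q) := by
  refine ⟨fun s => ψ.changeLevel hQ ((ZMod.chineseRemainder h).symm (1, s)), fun n hn => ?_⟩
  change ψ.changeLevel hQ (crtLift h _) * _ = _
  rw [← map_mul]
  have e : crtLift h (n : ZMod q) * (ZMod.chineseRemainder h).symm (1, (n : ZMod M)) =
      (n : ZMod (q * M)) := by
    refine (ZMod.chineseRemainder h).injective ?_
    simp [crtLift, map_natCast, Prod.ext_iff]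
  have hu : IsUnit (n : ZMod (q * M)) := (ZMod.isUnit_iff_coprime _ _).mpr hn
  rw [e, ← hu.unit_spec, DirichletCharacter.changeLevel_eq_cast_of_dvd ψ hQ hu.unit, IsUnit.unit_spec]
  congr 1
  simp [ZMod.cast_natCast hQ]

end LocalPart

end Fermat.Agent.TWTwist
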