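import Fermat.Agent.TWTwist.Separation
import Fermat.Agent.TWTwist.Expansion

/-!
# Newness of twists at a Taylor–Wiles prime

If `F` has a character `ε` at `q` (level `q` exactly at `q`) with `ε² ≠ 1` and `G` has trivial
character and level at most `q¹` at `q`, then the twist of `F` by a function on `ZMod q` agrees
with `G` on coefficients prime to `qD` only if these coefficients vanish.
-/

set_option autoImplicit false

noncomputable section

open UpperHalfPlane ModularForm Function Matrix.SpecialLinearGroup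
open scoped MatrixGroups ModularForm

namespace Fermat.Agent.TWTwist

variable {q : ℕ}

/-- The reduction map. -/
def red (q : ℕ) : SL(2, ℤ) →* SL(2, ZMod q) := Matrix.SpecialLinearGroup.map (Int.castRingHom _)

@[simp] theorem red_apply (q : ℕ) (γ : SL(2, ℤ)) (i j : Fin 2) :
    (red q γ : Matrix (Fin 2) (Fin 2) (ZMod q)) i j = ((γ i j : ℤ) : ZMod q) := rfl

/-- Membership of `Γ(q)` in terms of the entries. -/
theorem red_eq_one_iff (γ : SL(2, ℤ)) :
    red q γ = 1 ↔ (q : ℤ) ∣ γ 0 0 - 1 ∧ (q : ℤ) ∣ γ 0 1 ∧ (q : ℤ) ∣ γ 1 0 ∧ (q : ℤ) ∣ γ 1 1 - 1 := by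
  simp only [Matrix.SpecialLinearGroup.ext_iff, Fin.forall_fin_two, red_apply,
    Matrix.SpecialLinearGroup.coe_one, ← ZMod.intCast_zmod_eq_zero_iff_dvd, Int.cast_sub,
    Int.cast_one, sub_eq_zero]
  simp [and_assoc]

/-- Integral upper unipotent. -/
def upperZ (x : ℤ) : SL(2, ℤ) := ⟨!![1, x; 0, 1], by simp [Matrix.det_fin_two]⟩

/-- Integral lower unipotent. -/
def lowerZ (x : ℤ) : SL(2, ℤ) := ⟨!![1, 0; x, 1], by simp [Matrix.det_fin_two]⟩

@[simp] theorem coe_upperZ (x : ℤ) :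
    (upperZ x : Matrix (Fin 2) (Fin 2) ℤ) = !![1, x; 0, 1] := rfl

@[simp] theorem coe_lowerZ (x : ℤ) :
    (lowerZ x : Matrix (Fin 2) (Fin 2) ℤ) = !![1, 0; x, 1] := rfl

/-- An integral matrix of determinant one from its entries. -/
def mkZ (a b c d : ℤ) (h : a * d - b * c = 1) : SL(2, ℤ) :=
  ⟨!![a, b; c, d], by rw [Matrix.det_fin_two_of]; exact h⟩

@[simp] theorem coe_mkZ (a b c d : ℤ) (h : a * d - b * c = 1) :
    (mkZ a b c d h : Matrix (Fin 2) (Fin 2) ℤ) = !![a, b; c, d] := rfl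

variable [Fact q.Prime]

/-- Lower unipotent over `ZMod q`. -/
def lowerU (j : ZMod q) : SL(2, ZMod q) := ⟨!![1, 0; j, 1], by simp [Matrix.det_fin_two]⟩

@[simp] theorem coe_lowerU (j : ZMod q) :
    (lowerU j : Matrix (Fin 2) (Fin 2) (ZMod q)) = !![1, 0; j, 1] := rfl

/-- `L` is invertible modulo `q` when `q ∤ L`. -/
theorem exists_mul_natCast_eq {L : ℕ} (hL : ¬ q ∣ L) (j : ZMod q) :
    ∃ x : ℤ, ((L : ℤ) * x : ℤ) = (j : ZMod q) := by
  refine ⟨((j * ((L : ZMod q))⁻¹).val : ℤ), ?_⟩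
  have : (L : ZMod q) ≠ 0 := by rwa [ne_eq, ZMod.natCast_eq_zero_iff]
  push_cast
  rw [ZMod.natCast_zmod_val]
  field_simp

/-- `Γ(L) → SL₂(𝔽_q)` is surjective for `q ∤ L`. -/
theorem exists_lift {L : ℕ} (hL : ¬ q ∣ L) (s : SL(2, ZMod q)) :
    ∃ γ : SL(2, ℤ), red L γ = 1 ∧ red q γ = s := by
  let H : Subgroup SL(2, ZMod q) := (red L).ker.map (red q)
  suffices s ∈ H by
    obtain ⟨γ, hγ, rfl⟩ := this
    exact ⟨γ, hγ, rfl⟩
  have hu : ∀ j : ZMod q, upperU j ∈ H := fun j => by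
    obtain ⟨x, hx⟩ := exists_mul_natCast_eq hL j
    refine ⟨upperZ (L * x), ?_, ?_⟩
    · simp [MonoidHom.mem_ker, red_eq_one_iff]
    · ext r t
      fin_cases r <;> fin_cases t <;> simp [← hx]
  have hl : ∀ j : ZMod q, lowerU j ∈ H :=
    fun j => by
    obtain ⟨x, hx⟩ := exists_mul_natCast_eq hL j
    refine ⟨lowerZ (L * x), ?_, ?_⟩
    · simp [MonoidHom.mem_ker, red_eq_one_iff]
    · ext r t
      fin_cases r <;> fin_cases t <;> simp [← hx]
  have gen : ∀ t : SL(2, ZMod q), t 1 0 ≠ 0 → t ∈ H := fun t ht => by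
    have hdet : t 0 0 * t 1 1 - t 0 1 * t 1 0 = 1 := by
      rw [← Matrix.det_fin_two]
      exact t.2
    have e : t = upperU ((t 0 0 - 1) / t 1 0) *
        lowerU (t 1 0) * upperU ((t 1 1 - 1) / t 1 0) := by
      apply Subtype.ext
      simp only [Matrix.SpecialLinearGroup.coe_mul, coe_upperU, coe_lowerU, Matrix.mul_fin_two]
      ext r u
      fin_cases r <;> fin_cases u <;> simp <;> field_simp <;> first | ring1 | linear_combination -hdet
    rw [e]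
    exact mul_mem (mul_mem (hu _) (hl _)) (hu _)
  by_cases hs : s 1 0 = 0
  · have hdet : s 0 0 * s 1 1 - s 0 1 * s 1 0 = 1 := by
      rw [← Matrix.det_fin_two]
      exact s.2
    have hne : s 1 1 ≠ 0 := fun h => by simp [hs, h] at hdet
    have := gen (s * lowerU 1)
      (by simpa [Matrix.mul_apply, Fin.sum_univ_two, hs] using hne)
    exact (Subgroup.mul_mem_cancel_right H (hl 1)).mp this
  · exact gen s hs

theorem σ_mapGL (γ : SL(2, ℤ)) : UpperHalfPlane.σ (mapGL ℝ γ) = .refl ℝ ℂ := by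
  rw [UpperHalfPlane.σ, if_pos (by simp)]

theorem smul_slash_SL (k : ℤ) (γ : SL(2, ℤ)) (c : ℂ) (F : ℍ → ℂ) :
    (c • F) ∣[k] mapGL ℝ γ = c • (F ∣[k] mapGL ℝ γ) := by
  rw [ModularForm.smul_slash, σ_mapGL, ContinuousAlgEquiv.refl_apply]

theorem smul_slash_transl (k : ℤ) (x : ℝ) (c : ℂ) (F : ℍ → ℂ) :
    (c • F) ∣[k] transl x = c • (F ∣[k] transl x) := by
  rw [ModularForm.smul_slash, σ_transl, ContinuousAlgEquiv.refl_apply]

/-- Scaled transformation law: character `ε` at `q` on the lower Borel, principal level `L`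
elsewhere. -/
def BorelType (k : ℤ) (L : ℕ) (ε : DirichletCharacter ℂ q) (F : ℍ → ℂ) : Prop :=
  ∀ γ : SL(2, ℤ), (q : ℤ) ∣ γ 0 1 → (L : ℤ) ∣ γ 1 0 → (L : ℤ) ∣ γ 0 0 - 1 →
    (L : ℤ) ∣ γ 1 1 - 1 → F ∣[k] mapGL ℝ γ = ε ((γ 1 1 : ℤ) : ZMod q) • F

variable {k : ℤ}

/-- The transformation law is stable under sums. -/
theorem BorelType.sum {L : ℕ} {ε : DirichletCharacter ℂ q} {ι : Type*} {s : Finset ι}
    {c : ι → ℂ} {F : ι → ℍ → ℂ} (hF : ∀ i ∈ s, BorelType k L ε (F i)) :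
    BorelType k L ε (∑ i ∈ s, c i • F i) := fun γ h1 h2 h3 h4 => by
  rw [SlashAction.sum_slash, Finset.smul_sum]
  exact Finset.sum_congr rfl fun i hi => by
    rw [smul_slash_SL, hF i hi γ h1 h2 h3 h4, smul_comm]

/-- Scaling `τ ↦ τ / q` moves `Γ₀(q)` to the lower Borel. -/
theorem borelType_scale {M : ℕ} {ε : DirichletCharacter ℂ q} {F : ℍ → ℂ}
    (hF : ∀ γ : SL(2, ℤ), (q : ℤ) * M ∣ γ 1 0 → (M : ℤ) ∣ γ 0 0 - 1 → (M : ℤ) ∣ γ 1 1 - 1 →
      F ∣[k] mapGL ℝ γ = ε ((γ 1 1 : ℤ) : ZMod q) • F) :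
    BorelType k M ε (F ∣[k] heckeMatrix q 0) := fun γ h1 h2 h3 h4 => by
  obtain ⟨b, hb⟩ := h1
  have hdet : γ 0 0 * γ 1 1 - γ 0 1 * γ 1 0 = 1 := by
    rw [← Matrix.det_fin_two]
    exact γ.2
  obtain ⟨γ', hγ'⟩ : ∃ g : SL(2, ℤ),
      (g : Matrix (Fin 2) (Fin 2) ℤ) = !![γ 0 0, b; (q : ℤ) * γ 1 0, γ 1 1] :=
    ⟨mkZ _ _ _ _ (by linear_combination hdet + γ 1 0 * hb), rfl⟩
  have hq : (q : ℕ) ≠ 0 := (Fact.out : q.Prime).ne_zero
  have hmul : heckeMatrix q 0 * mapGL ℝ γ = mapGL ℝ γ' * heckeMatrix q 0 := by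
    have hbR : ((γ 0 1 : ℤ) : ℝ) = q * b := by exact_mod_cast congrArg (Int.cast : ℤ → ℝ) hb
    ext r t
    fin_cases r <;> fin_cases t <;>
      simp [hγ', hq, Matrix.mul_apply, Fin.sum_univ_two, hbR, mul_comm,
        Matrix.SpecialLinearGroup.map_apply_coe]
  rw [← SlashAction.slash_mul, hmul, SlashAction.slash_mul,
    hF γ' (by simpa [hγ'] using mul_dvd_mul_left (q : ℤ) h2) (by simpa [hγ'] using h3)
      (by simpa [hγ'] using h4),
    ModularForm.smul_slash, σ_heckeMatrix, ContinuousAlgEquiv.refl_apply]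
  simp [hγ']

/-- Translating by `q t / D` costs a factor `D²` in the principal level. -/
theorem BorelType.transl {M D : ℕ} (hD : D ≠ 0) {ε : DirichletCharacter ℂ q} {F : ℍ → ℂ}
    (hF : BorelType k M ε F) (t : ℕ) :
    BorelType k (M * D ^ 2) ε (F ∣[k] TWTwist.transl ((q * t : ℝ) / D)) := fun γ h1 h2 h3 h4 => by
  obtain ⟨b, hb⟩ := h1
  obtain ⟨c, hc⟩ := h2
  obtain ⟨a, ha⟩ := h3
  obtain ⟨d, hd⟩ := h4
  push_cast at hc ha hd
  have hdet : γ 0 0 * γ 1 1 - γ 0 1 * γ 1 0 = 1 := by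
    rw [← Matrix.det_fin_two]
    exact γ.2
  obtain ⟨γ', hγ'⟩ : ∃ g : SL(2, ℤ), (g : Matrix (Fin 2) (Fin 2) ℤ) =
      !![γ 0 0 + q * t * (D * M * c),
        γ 0 1 + q * t * (D * M * (d - a)) - q ^ 2 * t ^ 2 * (M * c);
        γ 1 0, γ 1 1 - q * t * (D * M * c)] :=
    ⟨mkZ _ _ _ _ (by
      linear_combination hdet + ((q : ℤ) ^ 2 * t ^ 2 * M * c - q * t * D * M * (d - a)) * hc +
        (-(q * t * D * M * c : ℤ)) * ha + (q * t * D * M * c : ℤ) * hd), rfl⟩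
  have hmul : TWTwist.transl ((q * t : ℝ) / D) * mapGL ℝ γ =
      mapGL ℝ γ' * TWTwist.transl ((q * t : ℝ) / D) := by
    have hDR : (D : ℝ) ≠ 0 := by exact_mod_cast hD
    have hcR := congrArg (Int.cast : ℤ → ℝ) hc
    have haR := congrArg (Int.cast : ℤ → ℝ) ha
    have hdR := congrArg (Int.cast : ℤ → ℝ) hd
    push_cast at hcR haR hdR
    rw [sub_eq_iff_eq_add] at haR hdR
    ext r u
    fin_cases r <;> fin_cases u <;>
      simp [hγ', Matrix.mul_apply, Fin.sum_univ_two, hcR, haR, hdR,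
        Matrix.SpecialLinearGroup.map_apply_coe] <;> field_simp <;> ring
  rw [← SlashAction.slash_mul, hmul, SlashAction.slash_mul,
    hF γ' ⟨b + t * (D * M * (d - a)) - q * t ^ 2 * (M * c), by simp [hγ', hb]; ring⟩
      ⟨D ^ 2 * c, by simp [hγ', hc]; ring⟩
      ⟨D ^ 2 * a + q * t * D * c, by simp [hγ']; linear_combination ha⟩
      ⟨D ^ 2 * d - q * t * D * c, by simp [hγ']; linear_combination hd⟩,
    smul_slash_transl]
  simp [hγ']

/-- Functions invariant under `Γ(qL)`. -/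
def levelSpace (q L : ℕ) (k : ℤ) : Submodule ℂ (ℍ → ℂ) where
  carrier := {F | ∀ γ : SL(2, ℤ), red q γ = 1 → red L γ = 1 → F ∣[k] mapGL ℝ γ = F}
  zero_mem' γ _ _ := SlashAction.zero_slash _ _
  add_mem' hF hG γ h1 h2 := by rw [SlashAction.add_slash, hF γ h1 h2, hG γ h1 h2]
  smul_mem' c F hF γ h1 h2 := by rw [smul_slash_SL, hF γ h1 h2]

/-- Functions with the transformation law are invariant under `Γ(qL)`. -/
theorem BorelType.mem_levelSpace {L : ℕ} {ε : DirichletCharacter ℂ q} {F : ℍ → ℂ}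
    (hF : BorelType k L ε F) : F ∈ levelSpace q L k := fun γ h1 h2 => by
  rw [red_eq_one_iff] at h1 h2
  rw [hF γ h1.2.1 h2.2.2.1 h2.1 h2.2.2.2,
    show ((γ 1 1 : ℤ) : ZMod q) = 1 from
      sub_eq_zero.mp (by simpa using (ZMod.intCast_zmod_eq_zero_iff_dvd _ _).mpr h1.2.2.2),
    map_one, one_smul]

/-- The action of `SL₂(𝔽_q)` on `levelSpace`, through lifts to `Γ(L)`. -/
def levelAction {L : ℕ} (hL : ¬ q ∣ L) (k : ℤ) (s : SL(2, ZMod q)) :
    levelSpace q L k →ₗ[ℂ] levelSpace q L k where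
  toFun F := ⟨(F : ℍ → ℂ) ∣[k] mapGL ℝ (exists_lift hL s).choose, fun γ h1 h2 => by
    set g := (exists_lift hL s).choose
    have h1' : red q (g * γ * g⁻¹) = 1 := by simp [h1]
    have h2' : red L (g * γ * g⁻¹) = 1 := by simp [h2]
    calc ((F : ℍ → ℂ) ∣[k] mapGL ℝ g) ∣[k] mapGL ℝ γ
        = (F : ℍ → ℂ) ∣[k] (mapGL ℝ (g * γ * g⁻¹) * mapGL ℝ g) := by
          rw [← SlashAction.slash_mul]; simp [mul_assoc]
      _ = (F : ℍ → ℂ) ∣[k] mapGL ℝ g := by rw [SlashAction.slash_mul, F.2 _ h1' h2']⟩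
  map_add' F G := Subtype.ext (SlashAction.add_slash _ _ _ _)
  map_smul' c F := Subtype.ext (smul_slash_SL _ _ _ _)

/-- `levelAction` is the slash action by any lift in `Γ(L)`. -/
theorem coe_levelAction {L : ℕ} (hL : ¬ q ∣ L) {s : SL(2, ZMod q)} {γ : SL(2, ℤ)}
    (h1 : red L γ = 1) (h2 : red q γ = s) (F : levelSpace q L k) :
    (levelAction hL k s F : ℍ → ℂ) = (F : ℍ → ℂ) ∣[k] mapGL ℝ γ := by
  obtain ⟨g1, g2⟩ := (exists_lift hL s).choose_spec
  change (F : ℍ → ℂ) ∣[k] mapGL ℝ (exists_lift hL s).choose = _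
  set g := (exists_lift hL s).choose
  rw [show mapGL ℝ g = mapGL ℝ (g * γ⁻¹) * mapGL ℝ γ by simp [mul_assoc], SlashAction.slash_mul,
    F.2 _ (by simp [g2, h2]) (by simp [g1, h1])]

/-- `levelAction` is a right action. -/
theorem levelAction_mul {L : ℕ} (hL : ¬ q ∣ L) (s t : SL(2, ZMod q)) (F : levelSpace q L k) :
    levelAction hL k (s * t) F = levelAction hL k t (levelAction hL k s F) := by
  obtain ⟨γ, hγ1, hγ2⟩ := exists_lift hL s
  obtain ⟨δ, hδ1, hδ2⟩ := exists_lift hL t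
  refine Subtype.ext ?_
  rw [coe_levelAction hL (γ := γ * δ) (by simp [hγ1, hδ1]) (by simp [hγ2, hδ2]),
    coe_levelAction hL hδ1 hδ2, coe_levelAction hL hγ1 hγ2, map_mul, SlashAction.slash_mul]

/-- The lower Borel subgroup acts on functions with character `ε` through `ε`. -/
theorem levelAction_lowerB {L : ℕ} (hL : ¬ q ∣ L) {ε : DirichletCharacter ℂ q}
    {F : levelSpace q L k} (hF : BorelType k L ε (F : ℍ → ℂ)) (a : (ZMod q)ˣ) (c : ZMod q) :
    levelAction hL k (lowerB a c) F = (ε.toUnitHom a : ℂ) • F := by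
  obtain ⟨γ, hγ1, hγ2⟩ := exists_lift hL (lowerB a c)
  refine Subtype.ext ?_
  have h01 : ((γ 0 1 : ℤ) : ZMod q) = 0 := by
    have := congrArg (fun s : SL(2, ZMod q) => s 0 1) hγ2
    simpa [-ZMod.inv_coe_unit] using this
  have h11 : ((γ 1 1 : ℤ) : ZMod q) = a := by
    have := congrArg (fun s : SL(2, ZMod q) => s 1 1) hγ2
    simpa [-ZMod.inv_coe_unit] using this
  obtain ⟨l1, -, l3, l4⟩ := (red_eq_one_iff γ).mp hγ1
  rw [coe_levelAction hL hγ1 hγ2, hF γ ((ZMod.intCast_zmod_eq_zero_iff_dvd _ _).mp h01) l3 l1 l4,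
    h11]
  simp

/-- **Newness of the twist at `q`**, for arbitrary filters modulo `D`. -/
theorem mul_coeff_eq_zero_of_twist_eq {M D : ℕ} (hD : D ≠ 0) (hqM : ¬ q ∣ M)
    (hqD : ¬ q ∣ D) {ε : DirichletCharacter ℂ q} (hε : ε * ε ≠ 1) {F G : ℍ → ℂ} {a b : ℕ → ℂ}
    (hF : ∀ γ : SL(2, ℤ), (q : ℤ) * M ∣ γ 1 0 → (M : ℤ) ∣ γ 0 0 - 1 → (M : ℤ) ∣ γ 1 1 - 1 →
      F ∣[k] mapGL ℝ γ = ε ((γ 1 1 : ℤ) : ZMod q) • F)
    (hG : ∀ γ : SL(2, ℤ), (q : ℤ) * M ∣ γ 1 0 → (M : ℤ) ∣ γ 0 0 - 1 → (M : ℤ) ∣ γ 1 1 - 1 →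
      G ∣[k] mapGL ℝ γ = G)
    (hFa : HasExp 1 F a) (hGb : HasExp 1 G b) {ψ : ZMod q → ℂ} (hψ0 : ψ 0 = 0) (φ φ' : ZMod D → ℂ)
    (heq : ∀ n : ℕ, ¬ q ∣ n → ψ n * φ n * a n = φ' n * b n) :
    ∀ n : ℕ, ¬ q ∣ n → φ' n * b n = 0 := by
  classical
  have hq : q.Prime := Fact.out
  have : NeZero D := ⟨hD⟩
  have hqL : ¬ q ∣ M * D ^ 2 := fun h => (hq.dvd_mul.mp h).elim hqM fun h => hqD (hq.dvd_of_dvd_pow h)
  -- the filters
  obtain ⟨κ, hκ⟩ := exists_filter D φ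
  obtain ⟨μ, hμ⟩ := exists_filter D φ'
  obtain ⟨c, hc⟩ := exists_filter q ψ
  obtain ⟨d, hd⟩ := exists_filter q fun r => if r = 0 then 0 else 1
  let strip : (ZMod D → ℂ) → (ℍ → ℂ) → (ℍ → ℂ) := fun ν H =>
    ∑ t : ZMod D, ν t • ((H ∣[k] heckeMatrix q 0) ∣[k] transl ((q * t.val : ℝ) / D))
  have hstripB : ∀ (ν : ZMod D → ℂ) (χ : DirichletCharacter ℂ q) (H : ℍ → ℂ),
      (∀ γ : SL(2, ℤ), (q : ℤ) * M ∣ γ 1 0 → (M : ℤ) ∣ γ 0 0 - 1 → (M : ℤ) ∣ γ 1 1 - 1 →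
        H ∣[k] mapGL ℝ γ = χ ((γ 1 1 : ℤ) : ZMod q) • H) →
      BorelType k (M * D ^ 2) χ (strip ν H) := fun ν χ H hH =>
    BorelType.sum fun t _ => (borelType_scale hH).transl hD t.val
  have hstripE : ∀ (φ : ZMod D → ℂ) (κ : ZMod D → ℂ),
      (∀ n : ℕ, ∑ t, κ t * Complex.exp (2 * Real.pi * Complex.I * ((t.val * n : ℕ) : ℂ) / D) =
        φ n) →
      ∀ (H : ℍ → ℂ) (h : ℕ → ℂ), HasExp 1 H h →
      HasExp q (strip κ H) fun n => (q : ℂ)⁻¹ * (φ n * h n) := by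
    intro φ κ hκ H h hH
    have := HasExp.sum (s := (Finset.univ : Finset (ZMod D))) fun t _ =>
      (((hH.scale k hq.ne_zero).transl k ((q * t.val : ℝ) / D)).smul (κ t))
    intro τ
    refine (this τ).congr_fun fun n => ?_
    congr 1
    have hexp : ∀ t : ZMod D,
        Complex.exp (2 * Real.pi * Complex.I * (((q * t.val : ℝ) / D : ℝ) : ℂ) * n / ((q : ℝ) : ℂ))
        = Complex.exp (2 * Real.pi * Complex.I * ((t.val * n : ℕ) : ℂ) / D) := fun t => by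
      congr 1
      have : (q : ℂ) ≠ 0 := by exact_mod_cast hq.ne_zero
      push_cast
      field_simp
    simp only [hexp]
    rw [show (∑ t : ZMod D, κ t * ((q : ℂ)⁻¹ * h n *
        Complex.exp (2 * Real.pi * Complex.I * ((t.val * n : ℕ) : ℂ) / D))) =
      (q : ℂ)⁻¹ * h n * ∑ t : ZMod D, κ t *
        Complex.exp (2 * Real.pi * Complex.I * ((t.val * n : ℕ) : ℂ) / D) by
      rw [Finset.mul_sum]; exact Finset.sum_congr rfl fun t _ => by ring, hκ]
    ring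
  let X : levelSpace q (M * D ^ 2) k := ⟨strip κ F, (hstripB κ ε F hF).mem_levelSpace⟩
  have hG' : ∀ γ : SL(2, ℤ), (q : ℤ) * M ∣ γ 1 0 → (M : ℤ) ∣ γ 0 0 - 1 → (M : ℤ) ∣ γ 1 1 - 1 →
      G ∣[k] mapGL ℝ γ = (1 : DirichletCharacter ℂ q) ((γ 1 1 : ℤ) : ZMod q) • G := by
    intro γ h1 h2 h3
    have hdet : γ 0 0 * γ 1 1 - γ 0 1 * γ 1 0 = 1 := by
      rw [← Matrix.det_fin_two]
      exact γ.2
    have hu : IsUnit ((γ 1 1 : ℤ) : ZMod q) := by
      have e := congrArg (Int.cast : ℤ → ZMod q) hdet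
      push_cast at e
      rw [(ZMod.intCast_zmod_eq_zero_iff_dvd _ _).mpr (dvd_trans (dvd_mul_right _ _) h1),
        mul_zero, sub_zero] at e
      exact IsUnit.of_mul_eq_one_right _ e
    rw [MulChar.one_apply hu, one_smul]
    exact hG γ h1 h2 h3
  let Y : levelSpace q (M * D ^ 2) k := ⟨strip μ G, (hstripB μ 1 G hG').mem_levelSpace⟩
  have hlift : ∀ (j : ZMod q) (H : levelSpace q (M * D ^ 2) k) (h : ℕ → ℂ),
      HasExp q (H : ℍ → ℂ) h → HasExp q (levelAction hqL k (upperU j) H : ℍ → ℂ)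
        fun n => h n * Complex.exp (2 * Real.pi * Complex.I * ((j.val * n : ℕ) : ℂ) / q) := by
    intro j H h hH
    obtain ⟨x, hx⟩ := exists_mul_natCast_eq hqL j
    have hred : red q (upperZ ((M * D ^ 2 : ℕ) * x)) = upperU j := by
      ext r t
      fin_cases r <;> fin_cases t <;> simp [← hx]
    have hmap : mapGL ℝ (upperZ ((M * D ^ 2 : ℕ) * x)) =
        transl ((((M * D ^ 2 : ℕ) * x : ℤ) : ℝ)) := by
      ext r t
      fin_cases r <;> fin_cases t <;> simp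
    rw [coe_levelAction hqL (by simp [red_eq_one_iff]) hred, hmap]
    intro τ
    refine (hH.transl k _ τ).congr_fun fun n => ?_
    congr 2
    have e1 := ZMod.stdAddChar_coe (N := q) (((M * D ^ 2 : ℕ) * x) * n)
    have e2 := ZMod.stdAddChar_coe (N := q) ((j.val * n : ℕ) : ℤ)
    have e3 : (((((M * D ^ 2 : ℕ) : ℤ) * x) * n : ℤ) : ZMod q) =
        ((((j.val * n : ℕ) : ℤ)) : ZMod q) := by
      rw [Int.cast_mul, hx]
      simp
    rw [e3, e2] at e1
    push_cast at e1 ⊢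
    rw [e1]
    ring_nf
  have hside : ∀ (φ : ZMod q → ℂ) (e : ZMod q → ℂ) (H : levelSpace q (M * D ^ 2) k) (h : ℕ → ℂ),
      (∀ n : ℕ, ∑ t, e t * Complex.exp (2 * Real.pi * Complex.I * ((t.val * n : ℕ) : ℂ) / q) =
        φ n) → HasExp q (H : ℍ → ℂ) h →
      HasExp q ((∑ j, e j • levelAction hqL k (upperU j) H : levelSpace q (M * D ^ 2) k) : ℍ → ℂ)
        fun n => φ n * h n := by
    intro φ e H h he hH
    rw [Submodule.coe_sum]
    simp only [SetLike.val_smul]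
    intro τ
    refine ((HasExp.sum fun j _ => (hlift j H h hH).smul (e j)) τ).congr_fun fun n => ?_
    dsimp only
    rw [← he n, Finset.sum_mul]
    congr 1
    exact Finset.sum_congr rfl fun j _ => by ring
  have hXe := hside ψ c X _ hc (hstripE φ κ hκ F a hFa)
  have hYe := hside (fun r => if r = 0 then 0 else 1) d Y _ hd (hstripE φ' μ hμ G b hGb)
  have heqv : ∑ j, c j • levelAction hqL k (upperU j) X =
      ∑ j, d j • levelAction hqL k (upperU j) Y := by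
    refine Subtype.ext (hXe.eq hYe fun n => ?_)
    by_cases hnq : (n : ZMod q) = 0
    · simp [hnq, hψ0]
    rw [if_neg hnq, ← heq n fun h => hnq ((ZMod.natCast_eq_zero_iff _ _).mpr h)]
    ring
  have hε' : ∃ u : (ZMod q)ˣ, ε.toUnitHom u * ε.toUnitHom u ≠ 1 := by
    by_contra h
    push Not at h
    refine hε (MulChar.ext fun u => ?_)
    have := congrArg Units.val (h u)
    simpa using this
  have hX0 := borel_separation (R := levelAction hqL k) (levelAction_mul hqL) hε'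
    (levelAction_lowerB hqL (hstripB κ ε F hF))
    (fun u v => by simpa using levelAction_lowerB hqL (F := Y) (hstripB μ 1 G hG') u v) heqv
  have hzero : ((∑ j, d j • levelAction hqL k (upperU j) Y : levelSpace q (M * D ^ 2) k) : ℍ → ℂ)
      = 0 := by
    have : ∀ j, c j • levelAction hqL k (upperU j) X = 0 := fun j => by
      rw [← map_smul, hX0, map_zero]
    rw [← heqv, Finset.sum_eq_zero fun j _ => this j]
    rfl
  rw [hzero] at hYe
  intro n hn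
  have h0 := hYe.coeff_eq_zero (by exact_mod_cast hq.pos) n
  have hnq : (n : ZMod q) ≠ 0 := fun h => hn ((ZMod.natCast_eq_zero_iff _ _).mp h)
  rw [if_neg hnq, one_mul] at h0
  exact (mul_eq_zero.mp h0).resolve_left (inv_ne_zero (by exact_mod_cast hq.ne_zero))

end Fermat.Agent.TWTwist
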