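import Mathlib.Algebra.CharP.Lemmas
import Mathlib.Algebra.Polynomial.Div
import Mathlib.Algebra.Polynomial.AlgebraMap
import Mathlib.Algebra.Ring.GeomSum
import Mathlib.RingTheory.FiniteType
import Mathlib.RingTheory.LocalRing.MaximalIdeal.Basic
import Mathlib.RingTheory.Nakayama
import Mathlib.Tactic.Ring
import Mathlib.Tactic.Abel

/-!
# Automorphisms of `p`-power order of `p`-torsion-free modules

If `s - 1 = (d - 1) a` with `d` killed by the `p`-th cyclotomic polynomial, `s` of `p`-power order
and `s - 1` injective, then `a` is invertible.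
-/

set_option autoImplicit false

namespace Fermat.Agent.TWTwist

/-- `Φ_p(1 + X) = X^(p-1) + p W` with `W(0) = 1`. -/
theorem exists_cyclotomic_shift {p : ℕ} (hp : p.Prime) :
    ∃ W : Polynomial ℤ,
      (∑ i ∈ Finset.range p, (1 + Polynomial.X : Polynomial ℤ) ^ i) =
        Polynomial.X ^ (p - 1) + (p : Polynomial ℤ) * (1 + Polynomial.X * W) := by
  set G : Polynomial ℤ := ∑ i ∈ Finset.range p, (1 + Polynomial.X : Polynomial ℤ) ^ i
  have hG : G * Polynomial.X = (1 + Polynomial.X) ^ p - 1 := by
    have := geom_sum_mul (1 + Polynomial.X : Polynomial ℤ) p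
    simpa using this
  obtain ⟨r, hr⟩ := exists_add_pow_prime_eq hp (Polynomial.X : Polynomial ℤ) 1
  rw [add_comm 1 Polynomial.X, hr, one_pow] at hG
  have hp1 : p = p - 1 + 1 := (Nat.sub_add_cancel hp.one_le).symm
  have hGr : G = Polynomial.X ^ (p - 1) + (p : Polynomial ℤ) * r := by
    refine mul_right_cancel₀ Polynomial.X_ne_zero (hG.trans ?_)
    rw [add_mul, ← pow_succ, ← hp1]
    ring
  have h0 : r.eval 0 = 1 := by
    have := congrArg (Polynomial.eval 0) hGr
    simp only [G, Polynomial.eval_finsetSum, Polynomial.eval_pow, Polynomial.eval_add,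
      Polynomial.eval_one, Polynomial.eval_X, add_zero, one_pow, Finset.sum_const,
      Finset.card_range, Polynomial.eval_mul, Polynomial.eval_natCast,
      zero_pow (Nat.sub_ne_zero_of_lt hp.one_lt), zero_add] at this
    simp only [nsmul_eq_mul, mul_one] at this
    have hp0 : (p : ℤ) ≠ 0 := by exact_mod_cast hp.ne_zero
    exact mul_left_cancel₀ hp0 (by rw [mul_one]; exact this.symm)
  obtain ⟨W, hW⟩ : (Polynomial.X : Polynomial ℤ) ∣ r - 1 := by
    rw [Polynomial.X_dvd_iff, Polynomial.coeff_zero_eq_eval_zero]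
    simp [h0]
  exact ⟨W, by rw [hGr, sub_eq_iff_eq_add'.mp hW]⟩

/-- Evaluation of the shifted identity at any element of a ring. -/
theorem exists_geom_sum_shift {p : ℕ} (hp : p.Prime) :
    ∃ W : Polynomial ℤ, ∀ (R : Type) [Ring R] (x : R),
      (∑ i ∈ Finset.range p, (1 + x) ^ i) =
        x ^ (p - 1) + (p : R) * (1 + x * Polynomial.aeval x W) := by
  obtain ⟨W, hW⟩ := exists_cyclotomic_shift hp
  exact ⟨W, fun R _ x => by simpa using congrArg (Polynomial.aeval x) hW⟩

variable {O N : Type} [CommRing O] [IsLocalRing O] [AddCommGroup N] [Module O N] [Module.Finite O N]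

/-- A surjectivity criterion: Nakayama. -/
theorem surjective_of_sup_smul_eq_top (f : Module.End O N) {p : ℕ}
    (hp : (p : O) ∈ IsLocalRing.maximalIdeal O) (h : ∀ x, ∃ y z, x = f y + (p : O) • z) :
    Function.Surjective f := by
  rw [← LinearMap.range_eq_top, ← top_le_iff]
  refine Submodule.le_of_le_smul_of_le_jacobson_bot (I := Ideal.span {(p : O)}) Module.Finite.fg_top
    ?_ ?_
  · rw [Ideal.span_le, Set.singleton_subset_iff]
    exact IsLocalRing.maximalIdeal_le_jacobson _ hp
  · intro x _
    obtain ⟨y, z, rfl⟩ := h x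
    exact Submodule.add_mem_sup (LinearMap.mem_range_self f y)
      (Submodule.smul_mem_smul (Ideal.mem_span_singleton_self _) trivial)

omit [IsLocalRing O] in
/-- A surjective endomorphism of a finite module is invertible. -/
theorem isUnit_end_of_surjective (f : Module.End O N) (h : Function.Surjective f) : IsUnit f :=
  (Module.End.isUnit_iff f).mpr ⟨OrzechProperty.injective_of_surjective_endomorphism f h, h⟩

/-- `1 + p y` is invertible. -/
theorem isUnit_one_add_mul (y : Module.End O N) {p : ℕ}
    (hp : (p : O) ∈ IsLocalRing.maximalIdeal O) : IsUnit (1 + (p : Module.End O N) * y) := by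
  refine isUnit_end_of_surjective _ (surjective_of_sup_smul_eq_top _ hp fun x => ⟨x, -y x, ?_⟩)
  simp [Module.End.natCast_apply, Nat.cast_smul_eq_nsmul]

/-- `1 + x` is invertible when a power of `x` is divisible by `p`. -/
theorem isUnit_one_add_of_pow {x y : Module.End O N} {p : ℕ} {n : ℕ}
    (hp : (p : O) ∈ IsLocalRing.maximalIdeal O) (h : x ^ n = (p : Module.End O N) * y) :
    IsUnit (1 + x) := by
  have h1 := geom_sum_mul (-x) n
  have e : (-x) ^ n = (p : Module.End O N) * ((-1) ^ n * y) := by
    rw [neg_pow, h, ← mul_assoc, ← mul_assoc, (Nat.cast_commute p ((-1 : Module.End O N) ^ n)).eq]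
  have h2 : (∑ i ∈ Finset.range n, (-x) ^ i) * (1 + x) =
      1 + (p : Module.End O N) * (-((-1) ^ n * y)) := by
    rw [mul_neg, ← e, ← sub_eq_add_neg]
    calc (∑ i ∈ Finset.range n, (-x) ^ i) * (1 + x)
        = -((∑ i ∈ Finset.range n, (-x) ^ i) * (-x - 1)) := by
          rw [← mul_neg, neg_sub, sub_neg_eq_add]
      _ = 1 - (-x) ^ n := by rw [h1, neg_sub]
  have hu := isUnit_one_add_mul (-((-1) ^ n * y)) hp
  rw [← h2] at hu
  exact ((Commute.sum_left _ _ _ fun i _ => (((Commute.one_right _).add_right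
    (Commute.refl x).neg_left).pow_left i)).isUnit_mul_iff.mp hu).2

omit [IsLocalRing O] [Module.Finite O N] in
/-- Endomorphisms of a `p`-torsion-free module are `p`-torsion-free. -/
theorem eq_zero_of_natCast_mul {p : ℕ} (htf : ∀ x : N, (p : O) • x = 0 → x = 0)
    (Z : Module.End O N) (h : (p : Module.End O N) * Z = 0) : Z = 0 := by
  refine LinearMap.ext fun x => htf _ ?_
  have := LinearMap.congr_fun h x
  simpa [Module.End.natCast_apply, Nat.cast_smul_eq_nsmul] using this

/-- A `p`-power order automorphism congruent to one modulo `p` is trivial, for `p` odd. -/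
theorem eq_one_of_pow_eq_one_of_congr {p : ℕ} (hp : p.Prime) (hp2 : p ≠ 2)
    (hpO : (p : O) ∈ IsLocalRing.maximalIdeal O)
    (htf : ∀ x : N, (p : O) • x = 0 → x = 0) (k : ℕ) :
    ∀ (X Y : Module.End O N), X = 1 + (p : Module.End O N) * Y → X ^ p ^ k = 1 → X = 1 := by
  have hcancel := eq_zero_of_natCast_mul htf
  obtain ⟨W, hW⟩ := exists_geom_sum_shift hp
  have hgeom : ∀ X Y : Module.End O N, X = 1 + (p : Module.End O N) * Y →
      ∃ Z, X ^ p = 1 + (p : Module.End O N) * Z ∧
        (Z = 0 → Y = 0) := by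
    intro X Y hX
    set x := (p : Module.End O N) * Y with hx
    have h1 := geom_sum_mul X p
    rw [hX, add_sub_cancel_left, hW] at h1
    obtain ⟨c, hc⟩ : ∃ c : Module.End O N,
        x ^ (p - 1) = (p : Module.End O N) * ((p : Module.End O N) * c) := by
      refine ⟨x ^ (p - 3) * (Y * Y), ?_⟩
      have h3 : p - 1 = p - 3 + 2 := by
        have := hp.two_le
        omega
      rw [h3, pow_add, pow_two, hx, mul_assoc (p : Module.End O N) Y,
        ← (Nat.cast_commute p Y).left_comm Y,
        ← (Nat.cast_commute p (((p : Module.End O N) * Y) ^ (p - 3))).left_comm,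
        ← (Nat.cast_commute p (((p : Module.End O N) * Y) ^ (p - 3))).left_comm]
    set u := (p : Module.End O N) * c + (1 + x * Polynomial.aeval x W) with hu
    refine ⟨(p : Module.End O N) * (u * Y), ?_, ?_⟩
    · rw [hX, ← sub_eq_iff_eq_add', ← h1, hc, ← mul_add, ← hu, hx]
      simp only [← mul_assoc]
      rw [mul_assoc (p : Module.End O N) u, ← (Nat.cast_commute p u).eq, ← mul_assoc]
    · intro h0
      have hunit : IsUnit u := by
        rw [hu, hx, show (p : Module.End O N) * c + (1 + (p : Module.End O N) * Y *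
          Polynomial.aeval ((p : Module.End O N) * Y) W) = 1 + (p : Module.End O N) *
            (c + Y * Polynomial.aeval ((p : Module.End O N) * Y) W) by
          rw [mul_add, mul_assoc]; abel]
        exact isUnit_one_add_mul _ hpO
      exact hunit.mul_right_eq_zero.mp (hcancel _ h0)
  induction k with
  | zero => intro X Y _ h; simpa using h
  | succ k ih =>
    intro X Y hX h
    obtain ⟨Z, hZ, hZY⟩ := hgeom X Y hX
    rw [pow_succ', pow_mul] at h
    have hp1 := ih _ Z hZ h
    rw [hp1] at hZ
    have := hZY (hcancel Z (left_eq_add.mp hZ))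
    rw [hX, this, mul_zero, add_zero]

/-- If `s - 1 = (d - 1) a` with `Φ_p(d) = 0`, `s` of `p`-power order and `s - 1` injective, then `a`
is invertible. -/
theorem isUnit_of_sub_one_eq {p k : ℕ} (hp : p.Prime) (hp2 : p ≠ 2)
    (hpO : (p : O) ∈ IsLocalRing.maximalIdeal O) (htf : ∀ x : N, (p : O) • x = 0 → x = 0)
    {d s a : Module.End O N} (hd : ∑ i ∈ Finset.range p, d ^ i = 0) (hs : s ^ p ^ k = 1)
    (hsa : s - 1 = (d - 1) * a) (hda : Commute d a)
    (hinj : ∀ x, (s - 1) x = 0 → x = 0) : IsUnit a := by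
  have hcancel := eq_zero_of_natCast_mul htf
  obtain ⟨W, hW⟩ := exists_geom_sum_shift hp
  set u := d - 1 with hu
  have hua : Commute u a := hda.sub_left (Commute.one_left a)
  set w := 1 + u * Polynomial.aeval u W with hw
  have hud : u ^ (p - 1) = -((p : Module.End O N) * w) := by
    have := hW _ u
    rw [show 1 + u = d by rw [hu, add_sub_cancel], hd] at this
    exact eq_neg_of_add_eq_zero_left this.symm
  set t := s - 1 with ht
  have htpow : t ^ (p - 1) = (p : Module.End O N) * -(w * a ^ (p - 1)) := by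
    rw [hsa, hua.mul_pow, hud, mul_neg, neg_mul, mul_assoc]
  set w' := 1 + t * Polynomial.aeval t W with hw'
  have hw'unit : IsUnit w' := by
    have hc : Commute t (Polynomial.aeval t W) :=
      Algebra.commute_of_mem_adjoin_self (Polynomial.aeval_mem_adjoin_singleton ℤ t)
    refine isUnit_one_add_of_pow (n := p - 1) hpO
      (y := -(w * a ^ (p - 1)) * Polynomial.aeval t W ^ (p - 1)) ?_
    rw [hc.mul_pow, htpow, mul_assoc]
  have hsp : s ^ p = 1 + (p : Module.End O N) * ((-(w * a ^ (p - 1)) + w') * t) := by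
    have h1 := geom_sum_mul s p
    have h2 := hW _ t
    rw [show 1 + t = s by rw [ht, add_sub_cancel]] at h2
    rw [h2, htpow, ← hw', ← mul_add, mul_assoc] at h1
    rw [h1, add_sub_cancel]
  have hone : s ^ p = 1 := by
    refine eq_one_of_pow_eq_one_of_congr hp hp2 hpO htf k (s ^ p) _ hsp ?_
    rw [← pow_mul, mul_comm, pow_mul, hs, one_pow]
  have hgeom : ∑ i ∈ Finset.range p, s ^ i = 0 := by
    refine LinearMap.ext fun x => hinj _ ?_
    rw [← Module.End.mul_apply, ht, mul_geom_sum, hone, sub_self, LinearMap.zero_apply]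
  have h2 := hW _ t
  rw [show 1 + t = s by rw [ht, add_sub_cancel], hgeom, htpow, ← hw', ← mul_add] at h2
  have h3 := hcancel _ h2.symm
  have h4 : w * a ^ (p - 1) = w' := (neg_add_eq_zero.mp h3)
  have hwa : IsUnit (w * a ^ (p - 1)) := h4 ▸ hw'unit
  have hcomm : Commute w (a ^ (p - 1)) := by
    refine Commute.pow_right ?_ _
    exact (Commute.one_left a).add_left (hua.mul_left
      (((Algebra.commute_of_mem_adjoin_singleton_of_commute
        (Polynomial.aeval_mem_adjoin_singleton ℤ u) hua.symm).symm)))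
  exact (isUnit_pow_iff (Nat.sub_ne_zero_of_lt hp.one_lt)).mp (hcomm.isUnit_mul_iff.mp hwa).2

end Fermat.Agent.TWTwist
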