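import Mathlib.Algebra.Field.ZMod
import Mathlib.Analysis.Complex.Basic
import Mathlib.Data.ZMod.Units
import Mathlib.LinearAlgebra.Matrix.SpecialLinearGroup
import Mathlib.FieldTheory.Finite.Basic
import Mathlib.Tactic.FinCases
import Mathlib.Tactic.FieldSimp
import Mathlib.Tactic.Ring
import Mathlib.Tactic.LinearCombination

/-!
# Separating principal series vectors inside representations of `SL₂(𝔽_q)`

If `X` transforms under the lower triangular subgroup by a character `η` with `η² ≠ 1` and `Y`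
is fixed by it, then upper unipotent translates of `Y` never combine to translates of `X`:
the `η`-projector of the lower Borel subgroup kills all of them except `X` itself.
-/

set_option autoImplicit false

noncomputable section

open scoped MatrixGroups

namespace Fermat.Agent.TWTwist

variable {q : ℕ} [Fact q.Prime]

attribute [-simp] ZMod.inv_coe_unit

/-- The upper unipotent element. -/
def upperU (j : ZMod q) : SL(2, ZMod q) := ⟨!![1, j; 0, 1], by simp [Matrix.det_fin_two]⟩

/-- The lower triangular elements. -/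
def lowerB (a : (ZMod q)ˣ) (c : ZMod q) : SL(2, ZMod q) :=
  ⟨!![(a : ZMod q)⁻¹, 0; c, (a : ZMod q)], by
    rw [Matrix.det_fin_two_of, zero_mul, sub_zero, inv_mul_cancel₀ a.ne_zero]⟩

/-- The matrix of `upperU`. -/
@[simp] theorem coe_upperU (j : ZMod q) :
    (upperU j : Matrix (Fin 2) (Fin 2) (ZMod q)) = !![1, j; 0, 1] := rfl

@[simp] theorem coe_lowerB (a : (ZMod q)ˣ) (c : ZMod q) :
    (lowerB a c : Matrix (Fin 2) (Fin 2) (ZMod q)) = !![(a : ZMod q)⁻¹, 0; c, (a : ZMod q)] := rfl

theorem upperU_mul (i j : ZMod q) : upperU i * upperU j = upperU (i + j) := by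
  apply Subtype.ext
  simp [add_comm]

theorem upperU_zero : upperU (0 : ZMod q) = 1 := by
  apply Subtype.ext
  simp [Matrix.one_fin_two]

theorem lowerB_mul (a b : (ZMod q)ˣ) (c d : ZMod q) :
    lowerB a c * lowerB b d = lowerB (a * b) (c * (b : ZMod q)⁻¹ + (a : ZMod q) * d) := by
  apply Subtype.ext
  simp [mul_comm]

theorem lowerB_one : lowerB (1 : (ZMod q)ˣ) 0 = 1 := by
  apply Subtype.ext
  simp [Matrix.one_fin_two]

/-- A lower triangular element conjugated past an upper unipotent one swaps its diagonal. -/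
theorem upperU_mul_lowerB {j : ZMod q} (hj : j ≠ 0) (a : (ZMod q)ˣ) :
    upperU j * lowerB a (((a : ZMod q) - (a : ZMod q)⁻¹) / j) =
      lowerB a⁻¹ (((a : ZMod q) - (a : ZMod q)⁻¹) / j) * upperU j := by
  apply Subtype.ext
  rw [Matrix.SpecialLinearGroup.coe_mul, Matrix.SpecialLinearGroup.coe_mul]
  have ha : (a : ZMod q) ≠ 0 := a.ne_zero
  simp only [coe_upperU, coe_lowerB, Matrix.mul_fin_two, Units.val_inv_eq_inv_val, inv_inv]
  ext r s
  fin_cases r <;> fin_cases s <;> simp <;> field_simp <;> ring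

variable {V : Type*} [AddCommGroup V] [Module ℂ V]

/-- The `η`-projector of the lower Borel subgroup (not normalised). -/
def borelProj (R : SL(2, ZMod q) → V →ₗ[ℂ] V) (η : (ZMod q)ˣ →* ℂˣ) (v : V) : V :=
  ∑ p : (ZMod q)ˣ × ZMod q, ((η p.1 : ℂ))⁻¹ • R (lowerB p.1 p.2) v

variable {R : SL(2, ZMod q) → V →ₗ[ℂ] V} {η : (ZMod q)ˣ →* ℂˣ}

/-- The projector transforms by `η` under the lower Borel subgroup. -/
theorem borelProj_lowerB (hR : ∀ s t v, R (s * t) v = R t (R s v)) (a : (ZMod q)ˣ) (c : ZMod q)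
    (v : V) : borelProj R η (R (lowerB a c) v) = (η a : ℂ) • borelProj R η v := by
  unfold borelProj
  rw [Finset.smul_sum]
  let e : (ZMod q)ˣ × ZMod q → (ZMod q)ˣ × ZMod q :=
    fun p => (a * p.1, c * (p.1 : ZMod q)⁻¹ + (a : ZMod q) * p.2)
  have he : Function.Bijective e := by
    refine Finite.injective_iff_bijective.mp fun p p' h => ?_
    obtain ⟨h1, h2⟩ := Prod.ext_iff.mp h
    have h1' : p.1 = p'.1 := mul_left_cancel h1
    simp only [e, h1', add_right_inj] at h2
    exact Prod.ext h1' (mul_left_cancel₀ a.ne_zero h2)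
  refine (Finset.sum_bijective e he (by simp) fun p _ => ?_)
  have e1 : R (lowerB p.1 p.2) (R (lowerB a c) v) = R (lowerB (e p).1 (e p).2) v := by
    rw [← hR, lowerB_mul]
  rw [e1, smul_smul]
  congr 1
  simp only [e, map_mul, Units.val_mul]
  field_simp [(η a).ne_zero, (η p.1).ne_zero]

/-- The projector multiplies an `η`-vector by `(q - 1) q`. -/
theorem borelProj_self {X : V} (hX : ∀ a c, R (lowerB a c) X = (η a : ℂ) • X) :
    borelProj R η X = ((q - 1 : ℕ) * q : ℂ) • X := by
  unfold borelProj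
  simp only [hX, smul_smul]
  rw [Finset.sum_congr rfl fun p _ => by rw [inv_mul_cancel₀ (η p.1).ne_zero]]
  simp [Finset.sum_const, ← Nat.cast_smul_eq_nsmul ℂ, Nat.totient_prime Fact.out]

/-- The projector kills nontrivial upper unipotent translates of an `η'`-vector when `η'`
at `a⁻¹` differs from `η` at `a`. -/
theorem borelProj_translate_eq_zero (hR : ∀ s t v, R (s * t) v = R t (R s v))
    {η' : (ZMod q)ˣ →* ℂˣ} (hne : ∃ a, η' a⁻¹ ≠ η a) {X : V}
    (hX : ∀ a c, R (lowerB a c) X = (η' a : ℂ) • X) {j : ZMod q} (hj : j ≠ 0) :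
    borelProj R η (R (upperU j) X) = 0 := by
  obtain ⟨a, ha⟩ := hne
  let c : ZMod q := ((a : ZMod q) - (a : ZMod q)⁻¹) / j
  have h1 := borelProj_lowerB (η := η) hR a c (R (upperU j) X)
  rw [← hR, upperU_mul_lowerB hj, hR, hX, map_smul] at h1
  have h2 : borelProj R η ((η' a⁻¹ : ℂ) • R (upperU j) X) =
      (η' a⁻¹ : ℂ) • borelProj R η (R (upperU j) X) := by
    simp [borelProj, Finset.smul_sum, smul_smul, mul_comm]
  rw [h2, ← sub_eq_zero, ← sub_smul, smul_eq_zero] at h1
  exact h1.resolve_left (sub_ne_zero.mpr fun h => ha (Units.ext h))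

/-- The projector kills the vectors with another character. -/
theorem borelProj_eq_zero_of_ne (hR : ∀ s t v, R (s * t) v = R t (R s v))
    {η' : (ZMod q)ˣ →* ℂˣ} {a : (ZMod q)ˣ} (hne : η' a ≠ η a) {Y : V}
    (hY : ∀ a c, R (lowerB a c) Y = (η' a : ℂ) • Y) : borelProj R η Y = 0 := by
  have h1 := borelProj_lowerB (η := η) hR a 0 Y
  rw [hY] at h1
  have h2 : borelProj R η ((η' a : ℂ) • Y) = (η' a : ℂ) • borelProj R η Y := by
    simp [borelProj, Finset.smul_sum, smul_smul, mul_comm]
  rw [h2, ← sub_eq_zero, ← sub_smul, smul_eq_zero] at h1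
  exact h1.resolve_left (sub_ne_zero.mpr fun h => hne (Units.ext h))

/-- **Separation.**  Translates of a vector with character `η`, `η² ≠ 1`, never combine to
translates of a Borel fixed vector. -/
theorem borel_separation (hR : ∀ s t v, R (s * t) v = R t (R s v))
    (hη : ∃ a, η a * η a ≠ 1) {X Y : V}
    (hX : ∀ a c, R (lowerB a c) X = (η a : ℂ) • X) (hY : ∀ a c, R (lowerB a c) Y = Y)
    {c d : ZMod q → ℂ} (h : ∑ j, c j • R (upperU j) X = ∑ j, d j • R (upperU j) Y) (i : ZMod q) :
    c i • X = 0 := by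
  obtain ⟨a, ha⟩ := hη
  have hY' : ∀ a c, R (lowerB a c) Y = (((1 : (ZMod q)ˣ →* ℂˣ) a : ℂˣ) : ℂ) • Y := by
    simpa using hY
  have hη1 : (1 : (ZMod q)ˣ →* ℂˣ) a ≠ η a := fun h' => ha (by rw [← h']; simp)
  have hX0 : ∀ j : ZMod q, j ≠ 0 → borelProj R η (R (upperU j) X) = 0 := fun j hj =>
    borelProj_translate_eq_zero hR ⟨a, fun h' => ha (by
      rw [map_inv] at h'
      calc η a * η a = (η a)⁻¹ * η a := by rw [h']
        _ = 1 := inv_mul_cancel _)⟩
      hX hj
  have hY0 : ∀ j : ZMod q, borelProj R η (R (upperU j) Y) = 0 := fun j => by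
    rcases eq_or_ne j 0 with rfl | hj
    · refine borelProj_eq_zero_of_ne hR hη1 fun a c => ?_
      have : R (upperU (0 : ZMod q)) Y = Y := by
        rw [upperU_zero]
        simpa [lowerB_one] using hY 1 0
      simpa [this] using hY a c
    · refine borelProj_translate_eq_zero hR ⟨a⁻¹, fun h' => hη1 ?_⟩ hY' hj
      rw [map_inv] at h'
      rw [MonoidHom.one_apply] at h' ⊢
      exact eq_comm.mpr (by simpa using h'.symm)
  have hadd : ∀ (s : Finset (ZMod q)) (f : ZMod q → ℂ) (g : ZMod q → V),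
      borelProj R η (∑ j ∈ s, f j • g j) = ∑ j ∈ s, f j • borelProj R η (g j) := by
    intro s f g
    simp only [borelProj, map_sum, map_smul, Finset.smul_sum, smul_smul]
    rw [Finset.sum_comm]
    exact Finset.sum_congr rfl fun j _ => Finset.sum_congr rfl fun p _ => by rw [mul_comm]
  have key := congrArg (fun v => borelProj R η (R (upperU (-i)) v)) h
  simp only [map_sum, map_smul, ← hR, upperU_mul, hadd] at key
  rw [Finset.sum_eq_single i (fun j _ hj => by
      rw [hX0 _ (fun h0 => hj (eq_neg_of_add_eq_zero_left h0 |>.trans (neg_neg i))), smul_zero])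
    (by simp), Finset.sum_eq_zero (fun j _ => by rw [hY0, smul_zero])] at key
  rw [add_neg_cancel, upperU_zero] at key
  have hone : R 1 X = X := by
    simpa [lowerB_one] using hX 1 0
  rw [hone, borelProj_self hX, smul_comm, smul_eq_zero] at key
  refine key.resolve_left ?_
  have hq := (Fact.out : q.Prime).two_le
  simp only [mul_eq_zero, Nat.cast_eq_zero]
  omega

end Fermat.Agent.TWTwist
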