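import Mathlib.Algebra.Ring.GeomSum
import Mathlib.LinearAlgebra.Matrix.Determinant.Basic
import Mathlib.LinearAlgebra.Matrix.Trace
import Mathlib.RingTheory.Ideal.BigOperators
import Mathlib.RingTheory.LocalRing.ResidueField.Basic
import Mathlib.Tactic.LinearCombination
import Mathlib.Tactic.FinCases
import Mathlib.Tactic.Abel

/-!
# Two by two matrices congruent to one, conjugated to their `q`-th power
-/

set_option autoImplicit false

open Matrix IsLocalRing

namespace Fermat.Agent.TWTwist

variable {A : Type*} [CommRing A]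

/-- Cayley–Hamilton expansion of powers, with the residues of the coefficients. -/
theorem exists_pow_eq_smul_add [IsLocalRing A] (X : Matrix (Fin 2) (Fin 2) A)
    (h : X.map (residue A) = 1) (n : ℕ) :
    ∃ u v : A, X ^ n = u • X + v • 1 ∧ residue A u = n ∧ residue A v = 1 - n := by
  have ht : residue A X.trace = 2 := by
    have := congrArg Matrix.trace h
    simp only [Matrix.trace_fin_two, Matrix.map_apply] at this
    rw [Matrix.trace_fin_two, map_add, this]
    simp [one_add_one_eq_two]
  have hd : residue A X.det = 1 := by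
    rw [RingHom.map_det, RingHom.mapMatrix_apply, h, Matrix.det_one]
  induction n with
  | zero => exact ⟨0, 1, by simp, by simp, by simp⟩
  | succ n ih =>
    obtain ⟨u, v, e, hu, hv⟩ := ih
    refine ⟨X.trace * u + v, -(X.det * u), ?_, ?_, ?_⟩
    · have h2 : X * X = X.trace • X - X.det • 1 := by
        ext i j
        fin_cases i <;> fin_cases j <;>
          simp [Matrix.mul_apply, Fin.sum_univ_two, Matrix.trace_fin_two, Matrix.det_fin_two] <;>
          ring
      rw [pow_succ, e, add_mul, smul_mul_assoc, smul_mul_assoc, one_mul, h2, smul_sub, smul_smul,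
        smul_smul, add_smul, neg_smul, mul_comm u, mul_comm u]
      abel
    · rw [map_add, map_mul, ht, hu, hv]
      push_cast
      ring
    · rw [map_neg, map_mul, hd, hu]
      push_cast
      ring

/-- The off diagonal entries vanish. -/
theorem offDiag_eq_zero [IsLocalRing A] {X : Matrix (Fin 2) (Fin 2) A} {a b : A} {q : ℕ}
    (h : X.map (residue A) = 1) (hq : (q : ResidueField A) = 1)
    (hab : residue A a ≠ residue A b) (hrel : !![a, 0; 0, b] * X = X ^ q * !![a, 0; 0, b]) :
    X 0 1 = 0 ∧ X 1 0 = 0 := by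
  obtain ⟨u, v, e, hu, -⟩ := exists_pow_eq_smul_add X h q
  rw [hq] at hu
  rw [e] at hrel
  have h1 := congrFun (congrFun hrel 0) 1
  have h2 := congrFun (congrFun hrel 1) 0
  simp [Matrix.mul_apply, Fin.sum_univ_two] at h1 h2
  have hu1 : IsUnit (a - u * b) := by
    rw [← residue_ne_zero_iff_isUnit, map_sub, map_mul, hu, one_mul, sub_ne_zero]
    exact hab
  have hu2 : IsUnit (b - u * a) := by
    rw [← residue_ne_zero_iff_isUnit, map_sub, map_mul, hu, one_mul, sub_ne_zero]
    exact hab.symm
  exact ⟨hu1.mul_right_eq_zero.mp (by linear_combination h1),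
    hu2.mul_right_eq_zero.mp (by linear_combination h2)⟩

/-- A matrix congruent to one modulo `I ∋ p` has `p ^ n`-th power congruent to one modulo
`I ^ (n + 1)`. -/
theorem pow_prime_pow_sub_one_mem {I : Ideal A} {p : ℕ} (hp : (p : A) ∈ I)
    {X : Matrix (Fin 2) (Fin 2) A} (hX : X.map (Ideal.Quotient.mk I) = 1) (n : ℕ) :
    (X ^ p ^ n).map (Ideal.Quotient.mk (I ^ (n + 1))) = 1 := by
  have conv : ∀ (J : Ideal A) (Y : Matrix (Fin 2) (Fin 2) A),
      Y.map (Ideal.Quotient.mk J) = 1 ↔ ∀ i j, (Y - 1) i j ∈ J := fun J Y => by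
    rw [← sub_eq_zero, ← Matrix.map_one (Ideal.Quotient.mk J) (map_zero _) (map_one _),
      ← Matrix.map_sub _ (map_sub _), ← Matrix.ext_iff]
    simp [← Ideal.Quotient.eq_zero_iff_mem]
  rw [conv]
  induction n with
  | zero =>
    rw [conv] at hX
    simpa using hX
  | succ n ih =>
    set Y := X ^ p ^ n
    rw [show X ^ p ^ (n + 1) = Y ^ p by rw [← pow_mul, ← pow_succ]]
    have hgeom := geom_sum_mul Y p
    have hY : Y.map (Ideal.Quotient.mk I) = 1 := by
      have := map_pow (Ideal.Quotient.mk I).mapMatrix X (p ^ n)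
      simpa [hX] using this
    have hS : ∀ i j, (∑ r ∈ Finset.range p, Y ^ r) i j ∈ I := fun i j => by
      rw [← Ideal.Quotient.eq_zero_iff_mem]
      have h1 : (Ideal.Quotient.mk I).mapMatrix (∑ r ∈ Finset.range p, Y ^ r) = 0 := by
        simp only [map_sum, map_pow, RingHom.mapMatrix_apply, hY, one_pow, Finset.sum_const,
          Finset.card_range]
        rw [← Nat.cast_smul_eq_nsmul (A ⧸ I), ← map_natCast (Ideal.Quotient.mk I),
          Ideal.Quotient.eq_zero_iff_mem.mpr hp, zero_smul]
      exact congrFun (congrFun h1 i) j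
    intro i j
    rw [← hgeom, Matrix.mul_apply, pow_succ' I]
    exact Ideal.sum_mem _ fun r _ => Ideal.mul_mem_mul (hS i r) (ih r j)

end Fermat.Agent.TWTwist
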